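/-
S58, block [F3] (helper6): **a complete discrete valuation ring receiving the Hecke eigenvalues.**

`R ⊆ ℂ` a subring which is a finitely generated `ℤ`-module (e.g. `chig.range` for an eigencharacter
`chig` of a Hecke algebra, by S22), `p` a prime.  Then there are a complete discrete valuation ring
`O'` of characteristic zero with finite residue field, `p ∈ 𝔪_{O'}`, and an INJECTIVE ring
homomorphism `iota : R →+* O'`: exactly the data `(O', hlamO', iota)` of the frozen statements
S35 / S36.

Construction: `R` is integral over `ℤ`, so it embeds into `PadicAlgCl p` (`IsAlgClosed.lift`,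
injective by incomparability); `E := ℚ_p (image of a finite generating set)` is a finite extension
of `ℚ_p` and `O' := integralClosure ℤ_[p] E` is a complete DVR (`S55/Local/CompleteDVR`,
`S55/LocalInt`).
-/
import Mathlib
import Fermat.Agent.S55.LocalInt
import Fermat.Agent.S22

set_option autoImplicit false
set_option linter.unusedSectionVars false
set_option linter.style.haveILetI false
set_option linter.unusedVariables false

open IsLocalRing IntermediateField Fermat.Agent.S55.Local Fermat.Agent.S55.LocalInt

noncomputable section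

namespace Fermat.Agent.S58.Form.CompleteDVR

/-! ### The embedding into `PadicAlgCl p` -/

section Embed

variable (R : Subring ℂ) [Module.Finite ℤ R] (p : ℕ) [Fact p.Prime]

instance isIntegral_int : Algebra.IsIntegral ℤ ↥R := ⟨fun x => IsIntegral.of_finite ℤ x⟩

/-- An embedding of `R` into `PadicAlgCl p`. -/
def emb : ↥R →ₐ[ℤ] PadicAlgCl p := IsAlgClosed.lift

theorem emb_injective : Function.Injective (emb R p) := by
  rw [injective_iff_map_eq_zero]
  intro x hx
  have hI : RingHom.ker (emb R p : ↥R →+* PadicAlgCl p) = ⊥ := by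
    apply Ideal.eq_bot_of_comap_eq_bot (R := ℤ)
    rw [eq_bot_iff]
    intro n hn
    rw [Ideal.mem_comap, RingHom.mem_ker] at hn
    have h1 : (emb R p : ↥R →+* PadicAlgCl p) (algebraMap ℤ ↥R n) =
        algebraMap ℤ (PadicAlgCl p) n := (emb R p).commutes n
    rw [h1] at hn
    have h2 : (n : PadicAlgCl p) = 0 := by simpa using hn
    rw [Ideal.mem_bot]
    exact_mod_cast h2
  have : x ∈ RingHom.ker (emb R p : ↥R →+* PadicAlgCl p) := hx
  rw [hI, Ideal.mem_bot] at this
  exact this

theorem isIntegral_emb (x : ↥R) : IsIntegral ℤ (emb R p x) :=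
  map_isIntegral_int (emb R p) (IsIntegral.of_finite ℤ x)

/-- A finite generating set of `R` as a `ℤ`-module. -/
def gens : Finset ↥R := (Module.Finite.fg_top (R := ℤ) (M := ↥R)).choose

theorem span_gens : Submodule.span ℤ (gens R : Set ↥R) = ⊤ :=
  (Module.Finite.fg_top (R := ℤ) (M := ↥R)).choose_spec

/-- The finite extension of `ℚ_p` generated by the image of `R`. -/
def fieldE : IntermediateField ℚ_[p] (PadicAlgCl p) :=
  IntermediateField.adjoin ℚ_[p] ((emb R p) '' (gens R : Set ↥R))

instance finiteDimensional_fieldE : FiniteDimensional ℚ_[p] ↥(fieldE R p) := by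
  haveI : Finite ((emb R p) '' (gens R : Set ↥R)) :=
    Set.Finite.image _ (Finset.finite_toSet _)
  exact IntermediateField.finiteDimensional_adjoin
    (fun x _ => Algebra.IsIntegral.isIntegral x)

theorem emb_mem_fieldE (x : ↥R) : emb R p x ∈ fieldE R p := by
  have hx : x ∈ Submodule.span ℤ (gens R : Set ↥R) := by rw [span_gens]; trivial
  induction hx using Submodule.span_induction with
  | mem y hy => exact IntermediateField.subset_adjoin _ _ ⟨y, hy, rfl⟩
  | zero => rw [map_zero]; exact (fieldE R p).zero_mem
  | add y z _ _ hy hz => rw [map_add]; exact (fieldE R p).add_mem hy hz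
  | smul n y _ hy =>
    rw [map_zsmul]
    exact (fieldE R p).zsmul_mem hy n

/-- `R → E`. -/
def embE : ↥R →+* ↥(fieldE R p) :=
  (emb R p : ↥R →+* PadicAlgCl p).codRestrict (fieldE R p).toSubring (emb_mem_fieldE R p)

theorem coe_embE (x : ↥R) : ((embE R p x : ↥(fieldE R p)) : PadicAlgCl p) = emb R p x := rfl

theorem embE_injective : Function.Injective (embE R p) := fun x y h =>
  emb_injective R p (congrArg Subtype.val h)

theorem isIntegral_embE (x : ↥R) : IsIntegral ℤ_[p] (embE R p x) := by
  have h1 : IsIntegral ℤ (embE R p x) := by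
    have h := isIntegral_emb R p x
    rw [← coe_embE] at h
    exact (isIntegral_algebraMap_iff
      (FaithfulSMul.algebraMap_injective ↥(fieldE R p) (PadicAlgCl p))).1 h
  exact h1.tower_top

/-- The complete discrete valuation ring `O'`. -/
abbrev ringO : Type := ↥(integralClosure ℤ_[p] ↥(fieldE R p))

/-- `iota : R →+* O'`. -/
def iotaO : ↥R →+* ringO R p :=
  (embE R p).codRestrict (integralClosure ℤ_[p] ↥(fieldE R p)).toSubring (isIntegral_embE R p)

theorem iotaO_injective : Function.Injective (iotaO R p) := fun x y h =>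
  embE_injective R p (congrArg Subtype.val h)

instance isDomain_ringO : IsDomain (ringO R p) := inferInstance

instance charZero_ringO : CharZero (ringO R p) := inferInstance

instance isLocalRing_ringO : IsLocalRing (ringO R p) :=
  isLocalRing_of_isIntegralClosure ℤ_[p] ℚ_[p] ↥(fieldE R p)
    (integralClosure ℤ_[p] ↥(fieldE R p))

instance isDiscreteValuationRing_ringO : IsDiscreteValuationRing (ringO R p) :=
  isDiscreteValuationRing_of_isIntegralClosure ℤ_[p] ℚ_[p] ↥(fieldE R p)
    (integralClosure ℤ_[p] ↥(fieldE R p))

instance isAdicComplete_ringO : IsAdicComplete (maximalIdeal (ringO R p)) (ringO R p) :=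
  isAdicComplete_maximalIdeal_of_isIntegralClosure ℤ_[p] ℚ_[p] ↥(fieldE R p)
    (integralClosure ℤ_[p] ↥(fieldE R p))

instance finite_residueField_ringO : Finite (ResidueField (ringO R p)) :=
  finite_residueField_of_isIntegralClosure ℤ_[p] ℚ_[p] ↥(fieldE R p)
    (integralClosure ℤ_[p] ↥(fieldE R p))

theorem natCast_mem_maximalIdeal_ringO :
    ((p : ℕ) : ringO R p) ∈ maximalIdeal (ringO R p) := by
  have hle := map_maximalIdeal_le_of_isMaximal ℤ_[p] ℚ_[p] ↥(fieldE R p)
    (integralClosure ℤ_[p] ↥(fieldE R p)) (maximalIdeal (ringO R p)) inferInstance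
  have hp : ((p : ℕ) : ℤ_[p]) ∈ maximalIdeal ℤ_[p] := by
    rw [PadicInt.maximalIdeal_eq_span_p]
    exact Ideal.mem_span_singleton_self _
  have h := hle (Ideal.mem_map_of_mem _ hp)
  rwa [map_natCast] at h

end Embed

/-! ### The statements -/

/-- **[F3]** A complete DVR receiving a finite subring of `ℂ`. -/
theorem exists_completeDVR (R : Subring ℂ) [Module.Finite ℤ R] (p : ℕ) [Fact p.Prime] :
    ∃ (O' : Type) (_ : CommRing O') (_ : IsDomain O') (_ : IsDiscreteValuationRing O')
      (_ : IsAdicComplete (IsLocalRing.maximalIdeal O') O')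
      (_ : Finite (IsLocalRing.ResidueField O')) (_ : CharZero O'),
      ((p : ℕ) : O') ∈ IsLocalRing.maximalIdeal O' ∧
        ∃ iota : ↥R →+* O', Function.Injective iota :=
  ⟨ringO R p, inferInstance, inferInstance, inferInstance, inferInstance, inferInstance,
    inferInstance, natCast_mem_maximalIdeal_ringO R p, iotaO R p, iotaO_injective R p⟩

/-- The range of a ring homomorphism from a Hecke algebra to `ℂ` is a finite `ℤ`-module (S22). -/
theorem finite_range_heckeAlgebra {M : ℕ} [NeZero M] (k : ℤ) (S : Set ℕ)
    (chig : CuspForm.heckeAlgebra M k S →+* ℂ) : Module.Finite ℤ ↥chig.range := by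
  haveI : Module.Finite ℤ (CuspForm.heckeAlgebra M k S) := Fermat.Agent.S22.result M k S
  exact Module.Finite.of_surjective (chig.rangeRestrict.toAddMonoidHom.toIntLinearMap)
    chig.rangeRestrict_surjective

/-- **[F3] for the Hecke eigenvalues**: the data `(O', hlamO', iota)` of the frozen statements
S35 / S36, with `iota` injective. -/
theorem exists_completeDVR_heckeRange {M : ℕ} [NeZero M] (k : ℤ) (S : Set ℕ)
    (chig : CuspForm.heckeAlgebra M k S →+* ℂ) (p : ℕ) [Fact p.Prime] :
    ∃ (O' : Type) (_ : CommRing O') (_ : IsDomain O') (_ : IsDiscreteValuationRing O')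
      (_ : IsAdicComplete (IsLocalRing.maximalIdeal O') O')
      (_ : Finite (IsLocalRing.ResidueField O')) (_ : CharZero O'),
      ((p : ℕ) : O') ∈ IsLocalRing.maximalIdeal O' ∧
        ∃ iota : ↥chig.range →+* O', Function.Injective iota := by
  haveI := finite_range_heckeAlgebra k S chig
  exact exists_completeDVR chig.range p

end Fermat.Agent.S58.Form.CompleteDVR
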