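/-
S58, block [F6-F7] (helper26): **level matching.**

`W / ℤ` semistable, `N` cube-free with `rad Δ ∣ N`, `p` odd, `p² ∤ N`; `g₀` a newform (prelude
sense) of level `M ∣ N` with `a_ℓ(g₀) = a_ℓ(W)` for all primes `ℓ ∤ N`.  Then

* (F6) `M ∣ W.conductorLevel = rad |Δ|`;
* (F7) `a_ℓ(g₀) = a_ℓ(W)` for EVERY good prime `ℓ` of `W`.

The proof is the one of the blueprint (moonshots row 46 §0), run on the frozen statements S35
(imported) and S36 (taken as a hypothesis of the frozen shape, `S36Statement`).  The elliptic-curve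
side enters ONLY through two explicit hypotheses, stated for an arbitrary `λ`-adic representation
`ρ` whose Frobenius characteristic polynomials are those of `W` at almost all primes
(`FrobMatches W ρ T`):

* `CompareHyp W` (= F4 + EC-G + EC-U): such a `ρ` is unipotent on inertia at every `q ≠ λ` and
  `tr ρ(Frob_ℓ) = a_ℓ(W)` at EVERY good `ℓ ≠ λ`;
* `ResidualHyp W p` (= F5): for `λ = p` the residual representation of such a `ρ` is absolutely
  irreducible and odd.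

The eigencharacter of `g₀` (F2) is the hypothesis `HasEigenchar g₀`; the complete DVR `O'` with
injective `iota` is F3 (`CompleteDVR.exists_completeDVR_heckeRange`, imported).

Everything else is proved here: the point count `1 ≤ #W(𝔽_q) ≤ 2q+1` (so `a_q(W) ≠ ±(q+1)`),
the arithmetic of the levels, and the assembly.
-/
import Mathlib
import Fermat.Prelude.Def_WeierstrassCurve_ConductorLevel
import Fermat.Prelude.Def_FLTPrelim_ModularRep
import Fermat.Prelude.Def_CuspForm_HeckeGaloisRepDatum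
import Fermat.Prelude.Def_CuspForm_Newforms
import Fermat.Prelude.Def_GaloisRep_LocalConditions
import Fermat.Prelude.Def_GaloisRep_Residual
import Fermat.Agent.S35
import Fermat.Agent.S54.Frobenius
import Fermat.Agent.N4.FrobDensity.Qbar
import Fermat.Agent.S58.Form.CompleteDVR

set_option autoImplicit false
set_option linter.unusedSectionVars false
set_option linter.unusedVariables false
set_option linter.style.haveILetI false

open Polynomial

noncomputable section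

namespace Fermat.Agent.S58.Form.LevelMatch

local notation "Qbar" => AlgebraicClosure ℚ
local notation "Γ" => (AlgebraicClosure ℚ ≃ₐ[ℚ] AlgebraicClosure ℚ)

/-! ### The number of points of a Weierstrass curve over a finite field -/

section PointCount

variable {F : Type*} [Field F] [Fintype F] (W : WeierstrassCurve F)

/-- A chosen ordinate over `x` (if there is one). -/
def baseY (x : F) : F :=
  haveI := Classical.propDecidable
  if h : ∃ y, W.toAffine.Equation x y then h.choose else 0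

theorem baseY_spec {x y : F} (h : W.toAffine.Equation x y) :
    W.toAffine.Equation x (baseY W x) := by
  have hex : ∃ y, W.toAffine.Equation x y := ⟨y, h⟩
  unfold baseY
  rw [dif_pos hex]
  exact hex.choose_spec

/-- The label of a point: its abscissa and whether its ordinate is the chosen one. -/
def pointLabel : W.toAffine.Point → Option (F × Bool)
  | .zero => none
  | .some x y _ => haveI := Classical.propDecidable; some (x, decide (y = baseY W x))

theorem pointLabel_injective : Function.Injective (pointLabel W) := by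
  classical
  rintro (_ | ⟨x₁, y₁, h₁⟩) (_ | ⟨x₂, y₂, h₂⟩) h
  · rfl
  · simp [pointLabel] at h
  · simp [pointLabel] at h
  · simp only [pointLabel, Option.some.injEq, Prod.mk.injEq] at h
    obtain ⟨hx, hy⟩ := h
    subst hx
    have e₁ := h₁.1
    have e₂ := h₂.1
    have e₀ := baseY_spec W e₁
    have hyy : y₁ = y₂ := by
      by_cases hb : y₁ = baseY W x₁
      · have hb2 : y₂ = baseY W x₁ := by
          have : decide (y₂ = baseY W x₁) = true := by rw [← hy]; exact decide_eq_true hb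
          exact of_decide_eq_true this
        rw [hb, hb2]
      · have hb2 : y₂ ≠ baseY W x₁ := by
          intro hb2
          have : decide (y₁ = baseY W x₁) = true := by rw [hy]; exact decide_eq_true hb2
          exact hb (of_decide_eq_true this)
        have r₁ := (WeierstrassCurve.Affine.Y_eq_of_X_eq e₁ e₀ rfl).resolve_left hb
        have r₂ := (WeierstrassCurve.Affine.Y_eq_of_X_eq e₂ e₀ rfl).resolve_left hb2
        rw [r₁, r₂]
    subst hyy
    rfl

/-- `#W(F) ≤ 2 #F + 1`. -/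
theorem card_point_le : Nat.card W.toAffine.Point ≤ 2 * Fintype.card F + 1 := by
  classical
  have h := Nat.card_le_card_of_injective (pointLabel W) (pointLabel_injective W)
  have hc : Nat.card (Option (F × Bool)) = 2 * Fintype.card F + 1 := by
    rw [Nat.card_eq_fintype_card, Fintype.card_option, Fintype.card_prod, Fintype.card_bool]
    ring
  rwa [hc] at h

/-- `1 ≤ #W(F)`. -/
theorem one_le_card_point : 1 ≤ Nat.card W.toAffine.Point := by
  haveI : Finite W.toAffine.Point := inferInstance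
  exact Nat.one_le_iff_ne_zero.mpr (Nat.card_ne_zero.mpr ⟨⟨0⟩, inferInstance⟩)

end PointCount

/-- `a_q(W) ≠ q + 1` and `a_q(W) ≠ -(q + 1)`. -/
theorem apOfModel_ne (W : WeierstrassCurve ℤ) {q : ℕ} (hq : q.Prime) :
    W.apOfModel q ≠ (q : ℤ) + 1 ∧ W.apOfModel q ≠ -((q : ℤ) + 1) := by
  haveI : Fact q.Prime := ⟨hq⟩
  have h1 := one_le_card_point (W.reductionMod q)
  have h2 := card_point_le (W.reductionMod q)
  rw [ZMod.card] at h2
  have hdef : W.apOfModel q = (q : ℤ) + 1 - (Nat.card (W.reductionMod q).toAffine.Point : ℤ) := by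
    rw [WeierstrassCurve.apOfModel, WeierstrassCurve.traceOfFrobenius, WeierstrassCurve.card,
      Nat.card_zmod]
  constructor
  · rw [hdef]; omega
  · rw [hdef]; omega


/-! ### The hypotheses (outputs of the other blocks) -/

open WeierstrassCurve CuspForm

/-- The Frobenius characteristic polynomials of `ρ` are those of `W` at all primes outside `T`. -/
def FrobMatches (W : WeierstrassCurve ℤ) {A : Type} [CommRing A] [IsLocalRing A]
    (ρ : GaloisRepAdic A) (T : Finset ℕ) : Prop :=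
  ∀ ℓ : ℕ, ℓ.Prime → ℓ ∉ T → ∀ P : ValuationSubring Qbar, P.LiesOverPrime ℓ →
    ∀ σ : Γ, P.IsFrobeniusAt σ ℓ →
      LinearMap.charpoly (ρ.ρ σ) = X ^ 2 - C ((W.apOfModel ℓ : ℤ) : A) * X + C ((ℓ : A))

/-- What the comparison with the torsion of `W` gives for `ρ` (the consumer shape of F4 + EC-G +
EC-U): unipotent inertia away from `lam`, and the traces of ALL good Frobenius elements. -/
structure MatchesCurve (W : WeierstrassCurve ℤ) (lam : ℕ) {A : Type} [CommRing A] [IsLocalRing A]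
    (ρ : GaloisRepAdic A) : Prop where
  unipotent : ∀ q : ℕ, q.Prime → q ≠ lam → ρ.IsUnipotentOnInertiaAt q
  trace_frob : ∀ ℓ : ℕ, ℓ.Prime → ℓ ≠ lam → W.IsGoodPrimeFor ℓ →
    ∀ P : ValuationSubring Qbar, P.LiesOverPrime ℓ → ∀ σ : Γ, P.IsFrobeniusAt σ ℓ →
      LinearMap.trace A ρ.V (ρ.ρ σ) = ((W.apOfModel ℓ : ℤ) : A)

/-- **Hypothesis (F4 + EC-G + EC-U)**: every `λ`-adic representation (`λ` odd) with the Frobenius
characteristic polynomials of `W` at almost all primes matches `W` everywhere away from `λ`. -/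
def CompareHyp (W : WeierstrassCurve ℤ) : Prop :=
  ∀ (lam : ℕ) [Fact lam.Prime], lam ≠ 2 →
    ∀ (A : Type) [CommRing A] [IsDomain A] [IsDiscreteValuationRing A]
      [IsAdicComplete (IsLocalRing.maximalIdeal A) A] [Finite (IsLocalRing.ResidueField A)]
      [CharZero A], (lam : A) ∈ IsLocalRing.maximalIdeal A →
      ∀ (ρ : GaloisRepAdic A) (T : Finset ℕ), FrobMatches W ρ T → MatchesCurve W lam ρ

/-- **Hypothesis (F5)**: every `p`-adic representation with the Frobenius characteristic polynomials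
of `W` at almost all primes has absolutely irreducible and odd residual representation. -/
def ResidualHyp (W : WeierstrassCurve ℤ) (p : ℕ) : Prop :=
  ∀ (A : Type) [CommRing A] [IsDomain A] [IsDiscreteValuationRing A]
    [IsAdicComplete (IsLocalRing.maximalIdeal A) A] [Finite (IsLocalRing.ResidueField A)]
    [CharZero A], (p : A) ∈ IsLocalRing.maximalIdeal A →
    ∀ (ρ : GaloisRepAdic A) (T : Finset ℕ), FrobMatches W ρ T →
      ρ.residual.IsAbsolutelyIrreducible ∧ ρ.residual.IsOdd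

/-- **Hypothesis (F2)**: the eigencharacter of `g` on every Hecke algebra `heckeAlgebra M 2 S`. -/
def HasEigenchar {M : ℕ} [NeZero M] (g : CuspForm (CongruenceSubgroup.Gamma0 M) 2) : Prop :=
  ∀ S : Finset ℕ, ∃ chig : CuspForm.heckeAlgebra M 2 (↑S : Set ℕ) →+* ℂ,
    ∀ (ℓ : ℕ) (hℓ : ℓ.Prime) (hℓM : ¬ ℓ ∣ M) (hℓS : ℓ ∉ (↑S : Set ℕ)),
      chig (CuspForm.heckeAlgebra.T hℓ hℓM hℓS) = ModularFormClass.qCoeff g ℓ

/-- **The frozen statement S36**, as a proposition (to be discharged by `Fermat.Agent.S36.result`). -/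
def S36Statement : Prop :=
  ∀ {M : ℕ} [NeZero M] {g : CuspForm (CongruenceSubgroup.Gamma0 M) 2} (hg : g.IsNewform)
    (lam : ℕ) [Fact lam.Prime]
    (S : Finset ℕ)
    (O' : Type) [CommRing O'] [IsDomain O'] [IsDiscreteValuationRing O']
    [IsAdicComplete (IsLocalRing.maximalIdeal O') O'] [Finite (IsLocalRing.ResidueField O')]
    [CharZero O'] (hlamO' : (lam : O') ∈ IsLocalRing.maximalIdeal O')
    (hlam2 : lam ≠ 2)
    (chig : CuspForm.heckeAlgebra M 2 (↑S : Set ℕ) →+* ℂ)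
    (hchig : ∀ (ℓ : ℕ) (hℓ : ℓ.Prime) (hℓM : ¬ ℓ ∣ M) (hℓS : ℓ ∉ (↑S : Set ℕ)),
      chig (CuspForm.heckeAlgebra.T hℓ hℓM hℓS) = ModularFormClass.qCoeff g ℓ)
    (iota : chig.range →+* O')
    (hlamS : lam ∈ S) (hMS : ∀ q : ℕ, q.Prime → q ∣ M → q ∈ S)
    (hres : ∀ (O'' : Type) [CommRing O''] [IsDomain O''] [IsDiscreteValuationRing O'']
      [IsAdicComplete (IsLocalRing.maximalIdeal O'') O''] [Finite (IsLocalRing.ResidueField O'')] [CharZero O'']
      [Algebra O' O''] [Module.Finite O' O''] [IsLocalHom (algebraMap O' O'')],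
      Function.Injective (algebraMap O' O'') → ∀ (ρ : GaloisRepAdic O''),
      (∀ (ℓ : ℕ) (hℓ : ℓ.Prime) (hℓlam : ℓ ≠ lam) (hℓM : ¬ ℓ ∣ M) (hℓS : ℓ ∉ (↑S : Set ℕ)),
        ∀ A : ValuationSubring (AlgebraicClosure ℚ), A.LiesOverPrime ℓ →
          ∀ σ : AlgebraicClosure ℚ ≃ₐ[ℚ] AlgebraicClosure ℚ, A.IsFrobeniusAt σ ℓ →
            LinearMap.charpoly (ρ.ρ σ) =
              X ^ 2 - C (algebraMap O' O'' ((iota.comp chig.rangeRestrict) (CuspForm.heckeAlgebra.T hℓ hℓM hℓS))) * X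
                + C ((ℓ : O'')))
      → ρ.residual.IsAbsolutelyIrreducible ∧ ρ.residual.IsOdd),
    ∃ (O'' : Type) (_ : CommRing O'') (_ : IsDomain O'') (_ : IsDiscreteValuationRing O'')
      (_ : IsAdicComplete (IsLocalRing.maximalIdeal O'') O'') (_ : Finite (IsLocalRing.ResidueField O''))
      (_ : CharZero O'') (_ : Algebra O' O'') (_ : Module.Finite O' O'') (_ : IsLocalHom (algebraMap O' O'')),
      Function.Injective (algebraMap O' O'') ∧
      ∃ ρ : GaloisRepAdic O'',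
        (∀ (ℓ : ℕ) (hℓ : ℓ.Prime) (hℓM : ¬ ℓ ∣ M) (hℓS : ℓ ∉ (↑S : Set ℕ)),
          ∀ A : ValuationSubring (AlgebraicClosure ℚ), A.LiesOverPrime ℓ →
            ∀ σ : AlgebraicClosure ℚ ≃ₐ[ℚ] AlgebraicClosure ℚ, A.IsFrobeniusAt σ ℓ →
              LinearMap.charpoly (ρ.ρ σ) =
                X ^ 2 - C (algebraMap O' O'' ((iota.comp chig.rangeRestrict) (CuspForm.heckeAlgebra.T hℓ hℓM hℓS))) * X
                  + C ((ℓ : O''))) ∧
        (∀ q : ℕ, q.Prime → q ≠ lam → M.factorization q = 2 → ¬ ρ.IsUnipotentOnInertiaAt q)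

/-! ### Small tools -/

/-- The trace of an endomorphism of a free module of rank two from its characteristic polynomial. -/
theorem trace_of_charpoly {R : Type*} [CommRing R] [Nontrivial R] {V : Type*} [AddCommGroup V]
    [Module R V] [Module.Free R V] [Module.Finite R V] (hV : Module.finrank R V = 2)
    (E : Module.End R V) (a b : R) (hE : LinearMap.charpoly E = X ^ 2 - C a * X + C b) :
    LinearMap.trace R V E = a := by
  classical
  let bs : Module.Basis (Fin 2) R V := Module.finBasisOfFinrankEq R V hV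
  rw [LinearMap.trace_eq_matrix_trace R bs, Matrix.trace_eq_neg_charpoly_coeff,
    LinearMap.charpoly_toMatrix, hE, Fintype.card_fin]
  simp [coeff_C]

/-- An odd prime different from `q`. -/
theorem exists_odd_prime_ne (q : ℕ) : ∃ lam : ℕ, lam.Prime ∧ lam ≠ 2 ∧ lam ≠ q := by
  by_cases h : q = 3
  · exact ⟨5, by norm_num, by norm_num, by omega⟩
  · exact ⟨3, by norm_num, by norm_num, fun h' => h h'.symm⟩

/-- The eigenvalue in `O''` of a Hecke operator with integral eigenvalue. -/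
theorem eigenvalue_eq_intCast {M : ℕ} [NeZero M] {S : Set ℕ}
    (chig : CuspForm.heckeAlgebra M 2 S →+* ℂ) {O' O'' : Type} [CommRing O'] [CommRing O'']
    [Algebra O' O''] (iota : chig.range →+* O') (t : CuspForm.heckeAlgebra M 2 S) (a : ℤ)
    (h : chig t = (a : ℂ)) :
    algebraMap O' O'' ((iota.comp chig.rangeRestrict) t) = (a : O'') := by
  have h1 : chig.rangeRestrict t = ((a : ℤ) : chig.range) := by
    apply Subtype.ext
    rw [RingHom.coe_rangeRestrict, h]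
    simp
  rw [RingHom.comp_apply, h1, map_intCast, map_intCast]

/-- A squarefree number all of whose prime factors divide `b` divides `b`. -/
theorem dvd_of_squarefree_of_forall_prime {m b : ℕ} (hm : Squarefree m) (hb : b ≠ 0)
    (h : ∀ q : ℕ, q.Prime → q ∣ m → q ∣ b) : m ∣ b := by
  have hm0 : m ≠ 0 := hm.ne_zero
  rw [← Nat.factorization_le_iff_dvd hm0 hb]
  intro q
  by_cases hq : q.Prime
  · by_cases hqm : q ∣ m
    · have h1 : m.factorization q ≤ 1 := hm.natFactorization_le_one q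
      have h2 : 0 < b.factorization q := hq.factorization_pos_of_dvd hb (h q hq hqm)
      omega
    · rw [Nat.factorization_eq_zero_of_not_dvd hqm]
      exact Nat.zero_le _
  · rw [Nat.factorization_eq_zero_of_not_prime _ hq]
    exact Nat.zero_le _


/-! ### Clause 1 of S35 / S36 gives `FrobMatches` -/

section Main

variable (W : WeierstrassCurve ℤ) {N : ℕ} {M : ℕ} [NeZero M]
  {g : CuspForm (CongruenceSubgroup.Gamma0 M) 2}

/-- Clause 1 of S35 / S36 gives `FrobMatches W ρ T` for every finite `T ⊇ S ∪ primes(N)`. -/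
theorem frobMatches_of_clause (hMN : M ∣ N)
    (ha : ∀ ℓ : ℕ, ℓ.Prime → ¬ ℓ ∣ N →
      ModularFormClass.qCoeff g ℓ = ((W.apOfModel ℓ : ℤ) : ℂ))
    {S : Finset ℕ} (chig : CuspForm.heckeAlgebra M 2 (↑S : Set ℕ) →+* ℂ)
    (hchig : ∀ (ℓ : ℕ) (hℓ : ℓ.Prime) (hℓM : ¬ ℓ ∣ M) (hℓS : ℓ ∉ (↑S : Set ℕ)),
      chig (CuspForm.heckeAlgebra.T hℓ hℓM hℓS) = ModularFormClass.qCoeff g ℓ)
    {O' O'' : Type} [CommRing O'] [CommRing O''] [IsLocalRing O''] [Algebra O' O'']
    (iota : chig.range →+* O') (ρ : GaloisRepAdic O'')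
    (hcl : ∀ (ℓ : ℕ) (hℓ : ℓ.Prime) (hℓM : ¬ ℓ ∣ M) (hℓS : ℓ ∉ (↑S : Set ℕ)),
      ∀ A : ValuationSubring (AlgebraicClosure ℚ), A.LiesOverPrime ℓ →
        ∀ σ : AlgebraicClosure ℚ ≃ₐ[ℚ] AlgebraicClosure ℚ, A.IsFrobeniusAt σ ℓ →
          LinearMap.charpoly (ρ.ρ σ) =
            X ^ 2 - C (algebraMap O' O'' ((iota.comp chig.rangeRestrict)
              (CuspForm.heckeAlgebra.T hℓ hℓM hℓS))) * X + C ((ℓ : O'')))
    (T : Finset ℕ) (hST : S ⊆ T) (hT : ∀ ℓ : ℕ, ℓ.Prime → ℓ ∣ N → ℓ ∈ T) :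
    FrobMatches W ρ T := by
  intro ℓ hℓ hℓT P hP σ hσ
  have hℓN : ¬ ℓ ∣ N := fun h => hℓT (hT ℓ hℓ h)
  have hℓM : ¬ ℓ ∣ M := fun h => hℓN (h.trans hMN)
  have hℓS : ℓ ∉ (↑S : Set ℕ) := fun h => hℓT (hST (Finset.mem_coe.mp h))
  rw [hcl ℓ hℓ hℓM hℓS P hP σ hσ,
    eigenvalue_eq_intCast chig iota _ (W.apOfModel ℓ)
      ((hchig ℓ hℓ hℓM hℓS).trans (ha ℓ hℓ hℓN))]

/-- The image of a non-unit natural number under a local homomorphism is a non-unit. -/
theorem natCast_mem_maximalIdeal_of_isLocalHom {O' O'' : Type} [CommRing O'] [CommRing O'']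
    [IsLocalRing O'] [IsLocalRing O''] [Algebra O' O''] [IsLocalHom (algebraMap O' O'')] {n : ℕ}
    (h : (n : O') ∈ IsLocalRing.maximalIdeal O') : (n : O'') ∈ IsLocalRing.maximalIdeal O'' := by
  rw [IsLocalRing.mem_maximalIdeal, mem_nonunits_iff] at h ⊢
  intro hu
  apply h
  apply isUnit_of_map_unit (algebraMap O' O'')
  rwa [map_natCast]

/-! ### (F6), part 1: no prime `q ≠ p` divides the level twice (S36) -/

/-- **`v_q(M) ≤ 1` for `q ≠ p`** (S36 with `λ = p`). -/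
theorem not_sq_dvd_of_ne (hN3 : ∀ q : ℕ, q.Prime → ¬ q ^ 3 ∣ N) (hMN : M ∣ N)
    (hg : g.IsNewform)
    (ha : ∀ ℓ : ℕ, ℓ.Prime → ¬ ℓ ∣ N →
      ModularFormClass.qCoeff g ℓ = ((W.apOfModel ℓ : ℤ) : ℂ))
    (hchi : HasEigenchar g) (hcmp : CompareHyp W) (hS36 : S36Statement)
    {p : ℕ} [Fact p.Prime] (hp2 : p ≠ 2) (hres : ResidualHyp W p)
    {q : ℕ} (hq : q.Prime) (hqp : q ≠ p) : ¬ q ^ 2 ∣ M := by
  intro hq2
  have hN0 : N ≠ 0 := by
    rintro rfl
    exact hN3 2 Nat.prime_two (dvd_zero _)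
  have hM0 : M ≠ 0 := NeZero.ne M
  have hfac : M.factorization q = 2 := by
    have h1 : 2 ≤ M.factorization q := (hq.pow_dvd_iff_le_factorization hM0).mp hq2
    have h2 : ¬ 3 ≤ M.factorization q := fun h3 =>
      hN3 q hq (((hq.pow_dvd_iff_le_factorization hM0).mpr h3).trans hMN)
    omega
  set S : Finset ℕ := insert p N.primeFactors with hS
  obtain ⟨chig, hchig⟩ := hchi S
  obtain ⟨O', _, _, _, _, _, _, hpO', iota, hiota⟩ :=
    CompleteDVR.exists_completeDVR_heckeRange 2 (↑S : Set ℕ) chig p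
  have hpS : p ∈ S := Finset.mem_insert_self _ _
  have hNS : ∀ ℓ : ℕ, ℓ.Prime → ℓ ∣ N → ℓ ∈ S := fun ℓ hℓ hℓN =>
    Finset.mem_insert_of_mem (Nat.mem_primeFactors.mpr ⟨hℓ, hℓN, hN0⟩)
  have hMS : ∀ q : ℕ, q.Prime → q ∣ M → q ∈ S := fun q hq hqM => hNS q hq (hqM.trans hMN)
  obtain ⟨O'', _, _, _, _, _, _, _, _, _, hinj, ρ, hcl1, hcl2⟩ :=
    hS36 hg p S O' hpO' hp2 chig hchig iota hpS hMS (by
      intro O'' _ _ _ _ _ _ _ _ _ hinj ρ hcl
      exact hres O'' (natCast_mem_maximalIdeal_of_isLocalHom hpO') ρ S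
        (frobMatches_of_clause W hMN ha chig hchig iota ρ
          (fun ℓ hℓ hℓM hℓS => hcl ℓ hℓ
            (by rintro rfl; exact hℓS (Finset.mem_coe.mpr hpS)) hℓM hℓS)
          S (Finset.Subset.refl _) hNS))
  have hm : MatchesCurve W p ρ :=
    hcmp p hp2 O'' (natCast_mem_maximalIdeal_of_isLocalHom hpO') ρ S
      (frobMatches_of_clause W hMN ha chig hchig iota ρ hcl1 S (Finset.Subset.refl _) hNS)
  exact hcl2 q hq hqp hfac (hm.unipotent q hq hqp)

/-! ### (F6), part 2: a prime dividing the level exactly once is bad for `W` (S35) -/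

/-- **`q ∥ M ⟹ q ∣ Δ`** (S35 with an odd `λ ≠ q`, and `a_q(W) ≠ ±(q+1)`). -/
theorem dvd_disc_of_dvd_level (hN0 : N ≠ 0) (hMN : M ∣ N) (hg : g.IsNewform)
    (ha : ∀ ℓ : ℕ, ℓ.Prime → ¬ ℓ ∣ N →
      ModularFormClass.qCoeff g ℓ = ((W.apOfModel ℓ : ℤ) : ℂ))
    (hchi : HasEigenchar g) (hcmp : CompareHyp W)
    {q : ℕ} (hq : q.Prime) (hqM : q ∣ M) (hq2 : ¬ q ^ 2 ∣ M) : (q : ℤ) ∣ W.Δ := by
  by_contra hgood
  obtain ⟨lam, hlam, hlam2, hlamq⟩ := exists_odd_prime_ne q
  haveI : Fact lam.Prime := ⟨hlam⟩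
  set S : Finset ℕ := insert lam N.primeFactors with hS
  obtain ⟨chig, hchig⟩ := hchi S
  obtain ⟨O', _, _, _, _, _, _, hlamO', iota, hiota⟩ :=
    CompleteDVR.exists_completeDVR_heckeRange 2 (↑S : Set ℕ) chig lam
  have hlamS : lam ∈ S := Finset.mem_insert_self _ _
  have hNS : ∀ ℓ : ℕ, ℓ.Prime → ℓ ∣ N → ℓ ∈ S := fun ℓ hℓ hℓN =>
    Finset.mem_insert_of_mem (Nat.mem_primeFactors.mpr ⟨hℓ, hℓN, hN0⟩)
  have hMS : ∀ q : ℕ, q.Prime → q ∣ M → q ∈ S := fun q hq hqM => hNS q hq (hqM.trans hMN)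
  obtain ⟨O'', _, _, _, _, _, _, _, _, _, hinj, ρ, hcl1, hcl2⟩ :=
    Fermat.Agent.S35.result hg lam S O' hlamO' chig hchig iota hlamS hMS
  have hm : MatchesCurve W lam ρ :=
    hcmp lam hlam2 O'' (natCast_mem_maximalIdeal_of_isLocalHom hlamO') ρ S
      (frobMatches_of_clause W hMN ha chig hchig iota ρ hcl1 S (Finset.Subset.refl _) hNS)
  obtain ⟨P, σ, hP, hσ⟩ := Fermat.Agent.S54.exists_isFrobeniusAt q hq
  have htr := hm.trace_frob q hq (Ne.symm hlamq) hgood P hP σ hσ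
  rcases hcl2 q hq (Ne.symm hlamq) hqM hq2 P hP σ hσ with h | h
  · have h1 := trace_of_charpoly ρ.finrank_eq (ρ.ρ σ) ((q : O'') + 1) (q : O'') h
    have h2 : ((W.apOfModel q : ℤ) : O'') = (((q : ℤ) + 1 : ℤ) : O'') := by
      rw [← htr, h1]; push_cast; rfl
    exact (apOfModel_ne W hq).1 (Int.cast_injective h2)
  · have h' : LinearMap.charpoly (ρ.ρ σ) = X ^ 2 - C (-((q : O'') + 1)) * X + C (q : O'') := by
      rw [h, map_neg]; ring
    have h1 := trace_of_charpoly ρ.finrank_eq (ρ.ρ σ) (-((q : O'') + 1)) (q : O'') h'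
    have h2 : ((W.apOfModel q : ℤ) : O'') = ((-((q : ℤ) + 1) : ℤ) : O'') := by
      rw [← htr, h1]; push_cast; rfl
    exact (apOfModel_ne W hq).2 (Int.cast_injective h2)

/-! ### (F7): the coefficient at a good prime not dividing the level -/

/-- **`a_ℓ(g) = a_ℓ(W)` for a good prime `ℓ ∤ M`** (S35 with an odd `λ ≠ ℓ`; `iota` injective). -/
theorem qCoeff_eq_of_not_dvd_level (hN0 : N ≠ 0) (hMN : M ∣ N) (hg : g.IsNewform)
    (ha : ∀ ℓ : ℕ, ℓ.Prime → ¬ ℓ ∣ N →
      ModularFormClass.qCoeff g ℓ = ((W.apOfModel ℓ : ℤ) : ℂ))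
    (hchi : HasEigenchar g) (hcmp : CompareHyp W)
    {ℓ₀ : ℕ} (hℓ₀ : ℓ₀.Prime) (hℓ₀M : ¬ ℓ₀ ∣ M) (hgood : W.IsGoodPrimeFor ℓ₀) :
    ModularFormClass.qCoeff g ℓ₀ = ((W.apOfModel ℓ₀ : ℤ) : ℂ) := by
  obtain ⟨lam, hlam, hlam2, hlamℓ⟩ := exists_odd_prime_ne ℓ₀
  haveI : Fact lam.Prime := ⟨hlam⟩
  set S : Finset ℕ := insert lam (N.primeFactors.erase ℓ₀) with hS
  set T : Finset ℕ := insert ℓ₀ S with hT
  obtain ⟨chig, hchig⟩ := hchi S
  obtain ⟨O', _, _, _, _, _, _, hlamO', iota, hiota⟩ :=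
    CompleteDVR.exists_completeDVR_heckeRange 2 (↑S : Set ℕ) chig lam
  have hlamS : lam ∈ S := Finset.mem_insert_self _ _
  have hMS : ∀ q : ℕ, q.Prime → q ∣ M → q ∈ S := fun q hq hqM =>
    Finset.mem_insert_of_mem (Finset.mem_erase.mpr
      ⟨fun h => hℓ₀M (h ▸ hqM), Nat.mem_primeFactors.mpr ⟨hq, hqM.trans hMN, hN0⟩⟩)
  have hNT : ∀ ℓ : ℕ, ℓ.Prime → ℓ ∣ N → ℓ ∈ T := by
    intro ℓ hℓ hℓN
    by_cases h : ℓ = ℓ₀
    · rw [h]; exact Finset.mem_insert_self _ _
    · exact Finset.mem_insert_of_mem (Finset.mem_insert_of_mem (Finset.mem_erase.mpr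
        ⟨h, Nat.mem_primeFactors.mpr ⟨hℓ, hℓN, hN0⟩⟩))
  have hℓ₀S : ℓ₀ ∉ (↑S : Set ℕ) := by
    intro h
    rcases Finset.mem_insert.mp (Finset.mem_coe.mp h) with h | h
    · exact hlamℓ h.symm
    · exact (Finset.mem_erase.mp h).1 rfl
  obtain ⟨O'', _, _, _, _, _, _, _, _, _, hinj, ρ, hcl1, hcl2⟩ :=
    Fermat.Agent.S35.result hg lam S O' hlamO' chig hchig iota hlamS hMS
  have hm : MatchesCurve W lam ρ :=
    hcmp lam hlam2 O'' (natCast_mem_maximalIdeal_of_isLocalHom hlamO') ρ T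
      (frobMatches_of_clause W hMN ha chig hchig iota ρ hcl1 T (Finset.subset_insert _ _) hNT)
  obtain ⟨P, σ, hP, hσ⟩ := Fermat.Agent.S54.exists_isFrobeniusAt ℓ₀ hℓ₀
  have htr := hm.trace_frob ℓ₀ hℓ₀ (Ne.symm hlamℓ) hgood P hP σ hσ
  have h1 := trace_of_charpoly ρ.finrank_eq (ρ.ρ σ) _ _ (hcl1 ℓ₀ hℓ₀ hℓ₀M hℓ₀S P hP σ hσ)
  rw [htr] at h1
  -- descend along the two injections
  have h2 : algebraMap O' O'' (iota ((W.apOfModel ℓ₀ : ℤ) : chig.range)) =
      algebraMap O' O'' ((iota.comp chig.rangeRestrict)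
        (CuspForm.heckeAlgebra.T hℓ₀ hℓ₀M hℓ₀S)) := by
    rw [← h1, map_intCast, map_intCast]
  have h3 := hiota (hinj h2)
  have h4 : ((W.apOfModel ℓ₀ : ℤ) : ℂ) = chig (CuspForm.heckeAlgebra.T hℓ₀ hℓ₀M hℓ₀S) := by
    have := congrArg Subtype.val h3
    simpa using this
  rw [h4, hchig ℓ₀ hℓ₀ hℓ₀M hℓ₀S]

/-! ### (F6) and (F7), assembled -/

/-- **(F6) The minimal level divides the conductor level `rad |Δ|` of `W`.** -/
theorem level_dvd_conductorLevel (hN3 : ∀ q : ℕ, q.Prime → ¬ q ^ 3 ∣ N)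
    (hbad : ∀ ℓ : ℕ, ℓ.Prime → (ℓ : ℤ) ∣ W.Δ → ℓ ∣ N) (hMN : M ∣ N)
    (hg : g.IsNewform)
    (ha : ∀ ℓ : ℕ, ℓ.Prime → ¬ ℓ ∣ N →
      ModularFormClass.qCoeff g ℓ = ((W.apOfModel ℓ : ℤ) : ℂ))
    (hchi : HasEigenchar g) (hcmp : CompareHyp W) (hS36 : S36Statement)
    {p : ℕ} [Fact p.Prime] (hp2 : p ≠ 2) (hp2N : ¬ p ^ 2 ∣ N) (hres : ResidualHyp W p) :
    Squarefree M ∧ M ∣ W.conductorLevel := by
  have hN0 : N ≠ 0 := by
    rintro rfl
    exact hN3 2 Nat.prime_two (dvd_zero _)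
  have hΔ : W.Δ ≠ 0 := by
    intro h0
    obtain ⟨ℓ, hℓN, hℓ⟩ := Nat.exists_infinite_primes (N + 1)
    have h1 : ℓ ∣ N := hbad ℓ hℓ (by rw [h0]; exact dvd_zero _)
    have h2 := Nat.le_of_dvd (Nat.pos_of_ne_zero hN0) h1
    omega
  have hsq : ∀ q : ℕ, q.Prime → ¬ q ^ 2 ∣ M := by
    intro q hq
    by_cases hqp : q = p
    · rw [hqp]; exact fun h => hp2N (h.trans hMN)
    · exact not_sq_dvd_of_ne W hN3 hMN hg ha hchi hcmp hS36 hp2 hres hq hqp
  have hsqf : Squarefree M :=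
    Nat.squarefree_iff_prime_squarefree.mpr fun q hq h => hsq q hq (by rwa [sq])
  refine ⟨hsqf, dvd_of_squarefree_of_forall_prime hsqf W.conductorLevel_pos.ne' ?_⟩
  intro q hq hqM
  exact (W.prime_dvd_conductorLevel_iff hΔ hq).mpr
    (dvd_disc_of_dvd_level W hN0 hMN hg ha hchi hcmp hq hqM (hsq q hq))

/-- **(F6)+(F7) The coefficients of the minimal-level newform at ALL good primes of `W`.** -/
theorem qCoeff_eq_apOfModel (hN3 : ∀ q : ℕ, q.Prime → ¬ q ^ 3 ∣ N) (hMN : M ∣ N)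
    (hg : g.IsNewform)
    (ha : ∀ ℓ : ℕ, ℓ.Prime → ¬ ℓ ∣ N →
      ModularFormClass.qCoeff g ℓ = ((W.apOfModel ℓ : ℤ) : ℂ))
    (hchi : HasEigenchar g) (hcmp : CompareHyp W) (hS36 : S36Statement)
    {p : ℕ} [Fact p.Prime] (hp2 : p ≠ 2) (hp2N : ¬ p ^ 2 ∣ N) (hres : ResidualHyp W p)
    {ℓ : ℕ} (hℓ : ℓ.Prime) (hgood : W.IsGoodPrimeFor ℓ) :
    ModularFormClass.qCoeff g ℓ = ((W.apOfModel ℓ : ℤ) : ℂ) := by
  have hN0 : N ≠ 0 := by
    rintro rfl
    exact hN3 2 Nat.prime_two (dvd_zero _)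
  have hℓM : ¬ ℓ ∣ M := by
    intro hℓM
    have hsq : ¬ ℓ ^ 2 ∣ M := by
      by_cases hℓp : ℓ = p
      · rw [hℓp]; exact fun h => hp2N (h.trans hMN)
      · exact not_sq_dvd_of_ne W hN3 hMN hg ha hchi hcmp hS36 hp2 hres hℓ hℓp
    exact hgood (dvd_disc_of_dvd_level W hN0 hMN hg ha hchi hcmp hℓ hℓM hsq)
  exact qCoeff_eq_of_not_dvd_level W hN0 hMN hg ha hchi hcmp hℓ hℓM hgood

end Main

end Fermat.Agent.S58.Form.LevelMatch
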