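/-
S58 (helper26): **the provider of `LevelMatch.CompareHyp W`** from the frozen consumer shapes of
the other blocks (helper7's ruling, board #1896):

* (I-G)  EC-G  = `GoodInertiaHyp W` (G1: inertia at a good prime `ℓ` acts trivially on `W[n]`,
  `ℓ ∤ n`) and `GoodFrobHyp W` (G2: trace and determinant of a Frobenius at a good prime `ℓ` on
  `W[p^k]`, `p ≠ ℓ` odd);
* (I-U)  EC-U  = `MultInertiaHyp W` (inertia at a multiplicative prime `q` has trace `2` and
  determinant `1` on `W[p^k]`, `p ≠ q` odd);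
* (I-F4) F4    = `AdicCompareHyp W` (the comparison (*) modulo `𝔪^m` against `W[λ^m]`).

All of them speak about `torsRep W n σ := galoisRepModuleEnd ℚ W_ℚ n σ` on the prelude carrier
`torsionBy ℤ (W_ℚ⁄ℚ̄).Point n`, through the total functions `LinearMap.trace` / `LinearMap.det`.

`compareHyp_of_ec : W semistable, Δ ≠ 0, (I-G), (I-U), (I-F4) ⟹ CompareHyp W` (Krull's intersection
theorem in the discrete valuation ring of coefficients + rank two of `W[λ^m]`, EC-N).
-/
import Mathlib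
import Fermat.Agent.S58.Form.LevelMatch
import Fermat.Agent.S58.EC.TorsionBasis

set_option autoImplicit false
set_option linter.unusedSectionVars false
set_option linter.unusedVariables false
set_option linter.style.haveILetI false

open Polynomial WeierstrassCurve
open scoped WeierstrassCurve.Affine

noncomputable section

namespace Fermat.Agent.S58.Form.CompareHypOfEC

open Fermat.Agent.S58.Form.LevelMatch

local notation "Qbar" => AlgebraicClosure ℚ
local notation "Γ" => (AlgebraicClosure ℚ ≃ₐ[ℚ] AlgebraicClosure ℚ)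

/-- The Galois representation on `W(ℚ̄)[n]` (prelude carrier and module structure). -/
abbrev torsRep (W : WeierstrassCurve ℤ) (n : ℕ) :=
  Affine.Point.galoisRepModuleEnd (K := AlgebraicClosure ℚ) ℚ (W.map (Int.castRingHom ℚ)) n

/-! ### The frozen consumer shapes -/

/-- (I-G)(G1): inertia at a good prime acts trivially on the prime-to-`ℓ` torsion. -/
def GoodInertiaHyp (W : WeierstrassCurve ℤ) : Prop :=
  ∀ ℓ : ℕ, ℓ.Prime → ¬ (ℓ : ℤ) ∣ W.Δ → ∀ A : ValuationSubring Qbar, A.LiesOverPrime ℓ →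
    ∀ n : ℕ, ¬ ℓ ∣ n → ∀ τ ∈ A.inertiaSubgroupIn ℚ, torsRep W n τ = 1

/-- (I-G)(G2): trace and determinant of Frobenius at a good prime. -/
def GoodFrobHyp (W : WeierstrassCurve ℤ) : Prop :=
  ∀ ℓ : ℕ, ℓ.Prime → ¬ (ℓ : ℤ) ∣ W.Δ → ∀ A : ValuationSubring Qbar, A.LiesOverPrime ℓ →
    ∀ p : ℕ, p.Prime → p ≠ 2 → p ≠ ℓ → ∀ (k : ℕ) (σ : Γ), A.IsFrobeniusAt σ ℓ →
      LinearMap.trace (ZMod (p ^ k)) _ (torsRep W (p ^ k) σ) =
          ((W.apOfModel ℓ : ℤ) : ZMod (p ^ k)) ∧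
        LinearMap.det (torsRep W (p ^ k) σ) = ((ℓ : ℕ) : ZMod (p ^ k))

/-- (I-U): inertia at a multiplicative prime is unipotent on `W[p^k]`. -/
def MultInertiaHyp (W : WeierstrassCurve ℤ) : Prop :=
  ∀ q : ℕ, q.Prime → (q : ℤ) ∣ W.Δ → ¬ (q : ℤ) ∣ W.c₄ →
    ∀ p : ℕ, p.Prime → p ≠ 2 → p ≠ q → ∀ (k : ℕ) (A : ValuationSubring Qbar),
      A.LiesOverPrime q → ∀ τ ∈ A.inertiaSubgroupIn ℚ,
        LinearMap.trace (ZMod (p ^ k)) _ (torsRep W (p ^ k) τ) = 2 ∧
          LinearMap.det (torsRep W (p ^ k) τ) = 1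

/-- (I-F4): the comparison (*) of `ρ` with the torsion of `W`, modulo `𝔪^m`. -/
def AdicCompareHyp (W : WeierstrassCurve ℤ) : Prop :=
  ∀ (lam : ℕ) [Fact lam.Prime], lam ≠ 2 →
    ∀ (A : Type) [CommRing A] [IsDomain A] [IsDiscreteValuationRing A],
      (lam : A) ∈ IsLocalRing.maximalIdeal A →
      ∀ (ρ : GaloisRepAdic A) (T : Finset ℕ), FrobMatches W ρ T →
        ∀ (m : ℕ) (σ : Γ), ∃ t d : ℤ,
          LinearMap.trace (ZMod (lam ^ m)) _ (torsRep W (lam ^ m) σ) = (t : ZMod (lam ^ m)) ∧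
          LinearMap.det (torsRep W (lam ^ m) σ) = (d : ZMod (lam ^ m)) ∧
          LinearMap.trace A ρ.V (ρ.ρ σ) - (t : A) ∈ IsLocalRing.maximalIdeal A ^ m ∧
          LinearMap.det (ρ.ρ σ) - (d : A) ∈ IsLocalRing.maximalIdeal A ^ m

/-! ### Tools -/

/-- Krull's intersection theorem, elementwise. -/
theorem eq_of_forall_sub_mem_pow {A : Type*} [CommRing A] [IsLocalRing A] [IsNoetherianRing A]
    (a b : A) (h : ∀ m : ℕ, a - b ∈ IsLocalRing.maximalIdeal A ^ m) : a = b := by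
  have h1 : a - b ∈ (⨅ n : ℕ, IsLocalRing.maximalIdeal A ^ n : Ideal A) := by
    rw [Ideal.mem_iInf]
    exact h
  rw [Ideal.iInf_pow_eq_bot_of_isLocalRing _ (IsLocalRing.maximalIdeal.isMaximal A).ne_top,
    Ideal.mem_bot] at h1
  exact sub_eq_zero.mp h1

/-- Integers congruent modulo `lam^m` are congruent modulo `𝔪^m` if `lam ∈ 𝔪`. -/
theorem intCast_sub_mem_pow {A : Type*} [CommRing A] [IsLocalRing A] {lam : ℕ}
    (hlam : (lam : A) ∈ IsLocalRing.maximalIdeal A) (m : ℕ) (t s : ℤ)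
    (h : (t : ZMod (lam ^ m)) = (s : ZMod (lam ^ m))) :
    (t : A) - (s : A) ∈ IsLocalRing.maximalIdeal A ^ m := by
  have h1 : ((lam ^ m : ℕ) : ℤ) ∣ t - s := by
    have := (ZMod.intCast_eq_intCast_iff_dvd_sub s t (lam ^ m)).mp h.symm
    exact this
  obtain ⟨c, hc⟩ := h1
  have h2 : (t : A) - (s : A) = (lam : A) ^ m * (c : A) := by
    have := congrArg (Int.cast : ℤ → A) hc
    push_cast at this
    exact this
  rw [h2]
  exact Ideal.mul_mem_right _ _ (Ideal.pow_mem_pow hlam m)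

/-- The characteristic polynomial in rank two. -/
theorem charpoly_of_finrank_two {R : Type*} [CommRing R] [Nontrivial R] {V : Type*}
    [AddCommGroup V] [Module R V] [Module.Free R V] [Module.Finite R V]
    (hV : Module.finrank R V = 2) (E : Module.End R V) :
    LinearMap.charpoly E = X ^ 2 - C (LinearMap.trace R V E) * X + C (LinearMap.det E) := by
  classical
  let bs : Module.Basis (Fin 2) R V := Module.finBasisOfFinrankEq R V hV
  rw [← LinearMap.charpoly_toMatrix E bs, Matrix.charpoly_fin_two,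
    ← LinearMap.trace_eq_matrix_trace R bs, LinearMap.det_toMatrix]

/-- `Δ(W_ℚ⁄ℚ̄) ≠ 0`. -/
theorem Δ_baseChange_ne_zero (W : WeierstrassCurve ℤ) (hΔ : W.Δ ≠ 0) :
    (((W.map (Int.castRingHom ℚ) : Affine ℚ))⁄Qbar).Δ ≠ 0 := by
  show ((W.map (Int.castRingHom ℚ)).map (algebraMap ℚ Qbar)).Δ ≠ 0
  rw [WeierstrassCurve.map_Δ, WeierstrassCurve.map_Δ]
  intro h
  have h1 : (Int.castRingHom ℚ) W.Δ = 0 :=
    (algebraMap ℚ Qbar).injective (by rw [h, map_zero])
  rw [eq_intCast, Int.cast_eq_zero] at h1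
  exact hΔ h1

/-- The trace of the identity of `W(ℚ̄)[lam^m]` is `2` (`lam` an odd prime). -/
theorem trace_one_torsion (W : WeierstrassCurve ℤ) (hΔ : W.Δ ≠ 0) {lam : ℕ} (hlam : lam.Prime)
    (hlam2 : lam ≠ 2) (m : ℕ) :
    LinearMap.trace (ZMod (lam ^ m))
      (Submodule.torsionBy ℤ (((W.map (Int.castRingHom ℚ) : Affine ℚ))⁄Qbar).Point
        ((lam ^ m : ℕ) : ℤ)) 1 = 2 := by
  obtain ⟨b⟩ := Fermat.Agent.S58.EC.TorsionBasis.nonempty_basis
    (K := Qbar) (W.map (Int.castRingHom ℚ) : Affine ℚ) (Δ_baseChange_ne_zero W hΔ) hlam hlam2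
    (Nat.cast_ne_zero.mpr hlam.ne_zero) m
  rw [LinearMap.trace_eq_matrix_trace (ZMod (lam ^ m)) b, LinearMap.toMatrix_one,
    Matrix.trace_one, Fintype.card_fin]
  norm_num

/-! ### From the congruences to equalities -/

section Limit

variable {W : WeierstrassCurve ℤ} {lam : ℕ} {A : Type} [CommRing A] [IsDomain A]
  [IsDiscreteValuationRing A]

/-- If the trace and the determinant of `σ` on every `W[lam^m]` are the integers `a`, `d₀`, then
so are the trace and the determinant of `ρ(σ)`. -/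
theorem trace_det_eq_of_forall (hlam : (lam : A) ∈ IsLocalRing.maximalIdeal A)
    (ρ : GaloisRepAdic A) (σ : Γ)
    (hcmp : ∀ m : ℕ, ∃ t d : ℤ,
      LinearMap.trace (ZMod (lam ^ m)) _ (torsRep W (lam ^ m) σ) = (t : ZMod (lam ^ m)) ∧
      LinearMap.det (torsRep W (lam ^ m) σ) = (d : ZMod (lam ^ m)) ∧
      LinearMap.trace A ρ.V (ρ.ρ σ) - (t : A) ∈ IsLocalRing.maximalIdeal A ^ m ∧
      LinearMap.det (ρ.ρ σ) - (d : A) ∈ IsLocalRing.maximalIdeal A ^ m)
    (a d₀ : ℤ)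
    (htors : ∀ m : ℕ,
      LinearMap.trace (ZMod (lam ^ m)) _ (torsRep W (lam ^ m) σ) = (a : ZMod (lam ^ m)) ∧
      LinearMap.det (torsRep W (lam ^ m) σ) = (d₀ : ZMod (lam ^ m))) :
    LinearMap.trace A ρ.V (ρ.ρ σ) = (a : A) ∧ LinearMap.det (ρ.ρ σ) = (d₀ : A) := by
  constructor
  · apply eq_of_forall_sub_mem_pow
    intro m
    obtain ⟨t, d, ht, hd, h1, h2⟩ := hcmp m
    have h3 := intCast_sub_mem_pow hlam m t a (by rw [← ht, (htors m).1])
    have : LinearMap.trace A ρ.V (ρ.ρ σ) - (a : A) =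
        (LinearMap.trace A ρ.V (ρ.ρ σ) - (t : A)) + ((t : A) - (a : A)) := by ring
    rw [this]
    exact Ideal.add_mem _ h1 h3
  · apply eq_of_forall_sub_mem_pow
    intro m
    obtain ⟨t, d, ht, hd, h1, h2⟩ := hcmp m
    have h3 := intCast_sub_mem_pow hlam m d d₀ (by rw [← hd, (htors m).2])
    have : LinearMap.det (ρ.ρ σ) - (d₀ : A) =
        (LinearMap.det (ρ.ρ σ) - (d : A)) + ((d : A) - (d₀ : A)) := by ring
    rw [this]
    exact Ideal.add_mem _ h2 h3

/-- Trace `2` and determinant `1` give the characteristic polynomial `(X - 1)^2`. -/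
theorem charpoly_eq_of_trace_det (ρ : GaloisRepAdic A) (σ : Γ)
    (h : LinearMap.trace A ρ.V (ρ.ρ σ) = ((2 : ℤ) : A) ∧ LinearMap.det (ρ.ρ σ) = ((1 : ℤ) : A)) :
    LinearMap.charpoly (ρ.ρ σ) = (X - 1) ^ 2 := by
  rw [charpoly_of_finrank_two ρ.finrank_eq, h.1, h.2]
  simp only [Int.cast_ofNat, Int.cast_one, map_one, map_ofNat]
  ring

end Limit

/-! ### The provider -/

/-- **`CompareHyp W` from the frozen shapes (I-G), (I-U), (I-F4)**, for `W` semistable with
`Δ ≠ 0`. -/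
theorem compareHyp_of_ec (W : WeierstrassCurve ℤ) (hss : W.IsSemistableModel) (hΔ : W.Δ ≠ 0)
    (hG1 : GoodInertiaHyp W) (hG2 : GoodFrobHyp W) (hU : MultInertiaHyp W)
    (hF4 : AdicCompareHyp W) : CompareHyp W := by
  intro lam _ hlam2 A _ _ _ _ _ _ hlamA ρ T hfm
  have hlam : lam.Prime := Fact.out
  have hcmp := hF4 lam hlam2 A hlamA ρ T hfm
  refine ⟨?_, ?_⟩
  · -- unipotent inertia at `q ≠ lam`
    intro q hq hqlam P hP σ hσ
    apply charpoly_eq_of_trace_det
    apply trace_det_eq_of_forall (W := W) hlamA ρ σ (fun m => hcmp m σ)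
    intro m
    by_cases hqΔ : (q : ℤ) ∣ W.Δ
    · -- multiplicative reduction
      have h := hU q hq hqΔ (hss q hq hqΔ) lam hlam hlam2 (Ne.symm hqlam) m P hP σ hσ
      rw [h.1, h.2]
      simp
    · -- good reduction
      have hqn : ¬ q ∣ lam ^ m := fun h =>
        hqlam ((Nat.prime_dvd_prime_iff_eq hq hlam).mp (hq.dvd_of_dvd_pow h))
      have h := hG1 q hq hqΔ P hP (lam ^ m) hqn σ hσ
      rw [h]
      refine ⟨?_, ?_⟩
      · rw [trace_one_torsion W hΔ hlam hlam2 m]; simp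
      · rw [map_one]; simp
  · -- traces of Frobenius at good primes
    intro ℓ hℓ hℓlam hgood P hP σ hσ
    have h := trace_det_eq_of_forall (W := W) hlamA ρ σ (fun m => hcmp m σ)
      (W.apOfModel ℓ) (ℓ : ℤ) (fun m => by
        have h := hG2 ℓ hℓ hgood P hP lam hlam hlam2 (Ne.symm hℓlam) m σ hσ
        rw [h.1, h.2]
        simp)
    exact h.1

end Fermat.Agent.S58.Form.CompareHypOfEC
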