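/-
S58 / block F5 (helper11): `hres` of S36 from the irreducibility of `W[p]` — abstract part.

Route `[ABS]` (no Kolchin, no Brauer–Nesbitt).  Let `r : Γ → GL(T)` be a two-dimensional
representation over a field `F` (`2 ≠ 0`), `c` an element with `c * c = 1` and `det r(c) = -1`,
and let `ρ̄` be a two-dimensional representation over `k ⊇ F` with the same characteristic
polynomials as `r`.  If `k̄ ⊗ ρ̄` has a stable line, then in the `±1`-eigenbasis of `r(c)` the
upper-left entry `a(σ) = (tr r(σ) + tr r(cσ)) / 2` of `r(σ)` is one of the two diagonal characters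
of `k̄ ⊗ ρ̄`, hence multiplicative, hence `b(σ) c'(τ) = 0` for all `σ, τ`: one of the two
eigenlines of `r(c)` is stable under `r`.

* `core` : the statement on `2 × 2` matrices;
* `isAbsolutelyIrreducible_of_charpoly_eq`, `isOdd_of_charpoly_eq` : the consumer forms for
  `ResidualGaloisRep`.
-/
import Mathlib
import Fermat.Prelude.Def_GaloisRep_Residual

set_option autoImplicit false
set_option linter.unusedSectionVars false
set_option linter.unusedVariables false

namespace Fermat.Agent.S58.Form.HresAbs

open Matrix Polynomial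
open scoped TensorProduct

/-! ### The matrix core -/

section Core

variable {G : Type*} [Monoid G] {F K : Type*} [Field F] [Field K]

/-- **`[ABS]` core.**  `A : G → M₂(F)` and `B : G → M₂(K)` multiplicative with the same traces
(through `φ : F → K`), `B` upper triangular, `A c = diag(1, -1)` for some `c` with `c * c = 1`,
`2 ≠ 0` in `K`: then `A` is upper triangular or lower triangular. -/
theorem core (φ : F →+* K) (h2 : (2 : K) ≠ 0)
    (A : G →* Matrix (Fin 2) (Fin 2) F) (B : G →* Matrix (Fin 2) (Fin 2) K)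
    (hB : ∀ s, B s 1 0 = 0) (htr : ∀ s, (B s).trace = φ (A s).trace)
    (c : G) (hc : c * c = 1) (hAc : A c = !![1, 0; 0, -1]) :
    (∀ s, A s 1 0 = 0) ∨ (∀ s, A s 0 1 = 0) := by
  -- the two diagonal characters of `B`
  have hχ₁ : ∀ s t, B (s * t) 0 0 = B s 0 0 * B t 0 0 := by
    intro s t
    rw [map_mul, Matrix.mul_apply, Fin.sum_univ_two, hB t, mul_zero, add_zero]
  have hχ₂ : ∀ s t, B (s * t) 1 1 = B s 1 1 * B t 1 1 := by
    intro s t
    rw [map_mul, Matrix.mul_apply, Fin.sum_univ_two, hB s, zero_mul, zero_add]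
  -- entries of `A (c * s)`
  have hA00 : ∀ s, A (c * s) 0 0 = A s 0 0 := by
    intro s
    rw [map_mul, hAc, Matrix.mul_apply, Fin.sum_univ_two]
    simp
  have hA11 : ∀ s, A (c * s) 1 1 = - A s 1 1 := by
    intro s
    rw [map_mul, hAc, Matrix.mul_apply, Fin.sum_univ_two]
    simp
  -- `ε = χ₁(c) = ±1`, `χ₂(c) = -ε`
  have hε : B c 0 0 * B c 0 0 = 1 := by
    rw [← hχ₁, hc, map_one, Matrix.one_apply_eq]
  have hsum : B c 0 0 + B c 1 1 = 0 := by
    have h := htr c
    rw [Matrix.trace_fin_two, Matrix.trace_fin_two, hAc] at h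
    rw [h]
    simp
  have hε2 : B c 1 1 = - B c 0 0 := eq_neg_of_add_eq_zero_right hsum
  -- the two trace identities
  have h1 : ∀ s, B s 0 0 + B s 1 1 = φ (A s 0 0) + φ (A s 1 1) := by
    intro s
    have h := htr s
    rw [Matrix.trace_fin_two, Matrix.trace_fin_two, map_add] at h
    exact h
  have h2' : ∀ s, B c 0 0 * B s 0 0 - B c 0 0 * B s 1 1 = φ (A s 0 0) - φ (A s 1 1) := by
    intro s
    have h := htr (c * s)
    rw [Matrix.trace_fin_two, Matrix.trace_fin_two, hχ₁, hχ₂, hA00, hA11, hε2, map_add,
      map_neg] at h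
    linear_combination h
  -- `φ ∘ a` is multiplicative
  have hmult : ∀ s t, φ (A (s * t) 0 0) = φ (A s 0 0) * φ (A t 0 0) := by
    rcases mul_self_eq_one_iff.mp hε with he | he
    · have ha : ∀ s, φ (A s 0 0) = B s 0 0 := by
        intro s
        have h3 := h1 s
        have h4 := h2' s
        rw [he, one_mul, one_mul] at h4
        have h5 : (2 : K) * (φ (A s 0 0) - B s 0 0) = 0 := by linear_combination -h3 - h4
        exact sub_eq_zero.mp ((mul_eq_zero.mp h5).resolve_left h2)
      intro s t
      rw [ha, ha, ha, hχ₁]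
    · have ha : ∀ s, φ (A s 0 0) = B s 1 1 := by
        intro s
        have h3 := h1 s
        have h4 := h2' s
        rw [he] at h4
        have h5 : (2 : K) * (φ (A s 0 0) - B s 1 1) = 0 := by linear_combination -h3 - h4
        exact sub_eq_zero.mp ((mul_eq_zero.mp h5).resolve_left h2)
      intro s t
      rw [ha, ha, ha, hχ₂]
  -- hence `b(s) * c'(t) = 0`
  have hbc : ∀ s t, A s 0 1 * A t 1 0 = 0 := by
    intro s t
    have h3 : A (s * t) 0 0 = A s 0 0 * A t 0 0 := by
      apply φ.injective
      rw [hmult, map_mul]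
    rw [map_mul, Matrix.mul_apply, Fin.sum_univ_two] at h3
    linear_combination h3
  by_cases h : ∀ s, A s 0 1 = 0
  · exact Or.inr h
  · obtain ⟨s₀, hs₀⟩ := not_forall.mp h
    exact Or.inl fun t => (mul_eq_zero.mp (hbc s₀ t)).resolve_left hs₀

end Core

/-! ### Linear algebra in dimension two -/

section Dim2

variable {K : Type*} [Field K] {V : Type*} [AddCommGroup V] [Module K V]

/-- A basis of a two-dimensional space adapted to a proper nonzero subspace `W`: the first vector
lies in `W`, and every element of `W` has vanishing second coordinate. -/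
theorem exists_basis_of_ne_bot_of_ne_top (hV : Module.finrank K V = 2) (W : Submodule K V)
    (h0 : W ≠ ⊥) (h1 : W ≠ ⊤) :
    ∃ b : Module.Basis (Fin 2) K V, b 0 ∈ W ∧ ∀ w ∈ W, b.repr w 1 = 0 := by
  obtain ⟨v₁, hv₁W, hv₁⟩ := (Submodule.ne_bot_iff W).mp h0
  obtain ⟨v₂, hv₂⟩ : ∃ v₂ : V, v₂ ∉ W := by
    by_contra hall
    exact h1 (eq_top_iff.mpr fun x _ => not_not.mp (not_exists.mp hall x))
  have hli : LinearIndependent K ![v₁, v₂] := by
    rw [LinearIndependent.pair_iff]
    intro s t hst
    have ht : t = 0 := by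
      by_contra ht
      apply hv₂
      have h3 : v₂ = t⁻¹ • (-(s • v₁)) := by
        rw [← eq_neg_of_add_eq_zero_right hst, smul_smul, inv_mul_cancel₀ ht, one_smul]
      rw [h3]
      exact W.smul_mem _ (W.neg_mem (W.smul_mem _ hv₁W))
    rw [ht, zero_smul, add_zero] at hst
    exact ⟨(smul_eq_zero.mp hst).resolve_right hv₁, ht⟩
  have hcard : Fintype.card (Fin 2) = Module.finrank K V := by rw [hV, Fintype.card_fin]
  have : FiniteDimensional K V := Module.finite_of_finrank_eq_succ hV
  set b := basisOfLinearIndependentOfCardEqFinrank hli hcard with hb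
  have hb0 : b 0 = v₁ := by
    rw [hb, coe_basisOfLinearIndependentOfCardEqFinrank]
    rfl
  have hb1 : b 1 = v₂ := by
    rw [hb, coe_basisOfLinearIndependentOfCardEqFinrank]
    rfl
  refine ⟨b, hb0 ▸ hv₁W, fun w hw => ?_⟩
  by_contra hne
  apply hv₂
  have hsum := b.sum_repr w
  rw [Fin.sum_univ_two, hb0, hb1] at hsum
  have h4 : w - b.repr w 0 • v₁ = b.repr w 1 • v₂ := by
    rw [sub_eq_iff_eq_add, add_comm]
    exact hsum.symm
  have h3 : v₂ = (b.repr w 1)⁻¹ • (w - b.repr w 0 • v₁) := by
    rw [h4, smul_smul, inv_mul_cancel₀ hne, one_smul]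
  rw [h3]
  exact W.smul_mem _ (W.sub_mem hw (W.smul_mem _ hv₁W))

/-- The `±1`-eigenbasis of an involution of determinant `-1` of a two-dimensional space
(`2 ≠ 0`). -/
theorem exists_eigenbasis (hV : Module.finrank K V = 2) (h2 : (2 : K) ≠ 0)
    (f : Module.End K V) (hf : f * f = 1) (hdet : LinearMap.det f = -1) :
    ∃ b : Module.Basis (Fin 2) K V, f (b 0) = b 0 ∧ f (b 1) = - b 1 := by
  have hff : ∀ v, f (f v) = v := fun v => by
    have := congrArg (fun g : Module.End K V => g v) hf
    simpa using this
  have h11 : (1 : K) ≠ -1 := by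
    intro h
    apply h2
    linear_combination h
  -- `f ≠ 1`
  obtain ⟨v, hv⟩ : ∃ v, f v ≠ v := by
    by_contra hall
    have hf1 : f = 1 := LinearMap.ext fun v => not_not.mp (not_exists.mp hall v)
    rw [hf1, map_one] at hdet
    exact h11 hdet
  -- `f ≠ -1`
  obtain ⟨w, hw⟩ : ∃ w, f w ≠ - w := by
    by_contra hall
    have hf1 : f = (-1 : K) • (1 : Module.End K V) :=
      LinearMap.ext fun v => by
        rw [not_not.mp (not_exists.mp hall v)]
        simp
    rw [hf1, LinearMap.det_smul, hV, map_one] at hdet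
    apply h11
    rw [← hdet]
    ring
  set e₁ := w + f w with he₁
  set e₂ := v - f v with he₂
  have he₁0 : e₁ ≠ 0 := by
    intro h
    apply hw
    rw [he₁] at h
    exact eq_neg_of_add_eq_zero_right h
  have he₂0 : e₂ ≠ 0 := by
    intro h
    apply hv
    rw [he₂] at h
    exact (sub_eq_zero.mp h).symm
  have hfe₁ : f e₁ = e₁ := by rw [he₁, map_add, hff, add_comm]
  have hfe₂ : f e₂ = - e₂ := by rw [he₂, map_sub, hff, neg_sub]
  have hli : LinearIndependent K ![e₁, e₂] := by
    rw [LinearIndependent.pair_iff]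
    intro s t hst
    have h3 : s • e₁ - t • e₂ = 0 := by
      have := congrArg f hst
      rw [map_add, map_smul, map_smul, hfe₁, hfe₂, map_zero, smul_neg] at this
      rw [sub_eq_add_neg]
      exact this
    have h4 : ((2 : K) * s) • e₁ = 0 := by
      have : (2 : K) • (s • e₁) = (s • e₁ + t • e₂) + (s • e₁ - t • e₂) := by
        rw [two_smul]
        abel
      rw [mul_smul, this, hst, h3, add_zero]
    have hs : s = 0 :=
      (mul_eq_zero.mp ((smul_eq_zero.mp h4).resolve_right he₁0)).resolve_left h2
    rw [hs, zero_smul, zero_add] at hst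
    exact ⟨hs, (smul_eq_zero.mp hst).resolve_right he₂0⟩
  have hcard : Fintype.card (Fin 2) = Module.finrank K V := by rw [hV, Fintype.card_fin]
  have : FiniteDimensional K V := Module.finite_of_finrank_eq_succ hV
  refine ⟨basisOfLinearIndependentOfCardEqFinrank hli hcard, ?_, ?_⟩
  · rw [coe_basisOfLinearIndependentOfCardEqFinrank]
    exact hfe₁
  · rw [coe_basisOfLinearIndependentOfCardEqFinrank]
    exact hfe₂

/-- If the `j`-th column of the matrices of a family of endomorphisms has only its diagonal entry,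
the line spanned by the `j`-th basis vector is a proper nonzero stable subspace. -/
theorem span_basis_stable (hV : Module.finrank K V = 2) (b : Module.Basis (Fin 2) K V)
    {ι : Type*} (r : ι → Module.End K V) (j : Fin 2)
    (h : ∀ s, ∀ i, i ≠ j → LinearMap.toMatrix b b (r s) i j = 0) :
    (∀ s, ∀ x ∈ Submodule.span K {b j}, r s x ∈ Submodule.span K {b j}) ∧
      Submodule.span K {b j} ≠ ⊥ ∧ Submodule.span K {b j} ≠ ⊤ := by
  refine ⟨fun s x hx => ?_, ?_, ?_⟩
  · obtain ⟨a, rfl⟩ := Submodule.mem_span_singleton.mp hx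
    rw [map_smul]
    refine Submodule.smul_mem _ _ ?_
    have hsum := b.sum_repr (r s (b j))
    rw [← hsum]
    refine Submodule.sum_mem _ fun i _ => ?_
    by_cases hij : i = j
    · rw [hij]
      exact Submodule.smul_mem _ _ (Submodule.mem_span_singleton_self _)
    · have := h s i hij
      rw [LinearMap.toMatrix_apply] at this
      rw [this, zero_smul]
      exact Submodule.zero_mem _
  · rw [Ne, Submodule.span_singleton_eq_bot]
    exact b.ne_zero j
  · intro htop
    have h1 : Module.finrank K (Submodule.span K {b j}) = 1 :=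
      finrank_span_singleton (b.ne_zero j)
    rw [htop, finrank_top, hV] at h1
    omega

/-- The trace of the matrix of an endomorphism of a two-dimensional space is minus the
`X`-coefficient of its characteristic polynomial. -/
theorem trace_toMatrix_eq_neg_coeff [Module.Finite K V] (b : Module.Basis (Fin 2) K V)
    (f : Module.End K V) :
    (LinearMap.toMatrix b b f).trace = - (LinearMap.charpoly f).coeff 1 := by
  rw [Matrix.trace_eq_neg_charpoly_coeff, LinearMap.charpoly_toMatrix, Fintype.card_fin]

/-- The determinant of an endomorphism of a two-dimensional space is the constant coefficient of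
its characteristic polynomial. -/
theorem det_eq_coeff_zero [Module.Finite K V] (hV : Module.finrank K V = 2)
    (f : Module.End K V) :
    LinearMap.det f = (LinearMap.charpoly f).coeff 0 := by
  rw [LinearMap.det_eq_sign_charpoly_coeff, hV]
  ring

end Dim2

/-! ### The consumer forms -/

section Residual

local notation "Γ" => (AlgebraicClosure ℚ ≃ₐ[ℚ] AlgebraicClosure ℚ)

variable {F : Type*} [Field F] {k : Type} [Field k]
variable {T : Type*} [AddCommGroup T] [Module F T] [Module.Finite F T]

/-- **`[ABS]`.**  `r` a two-dimensional representation of `Γ` over `F` (`2 ≠ 0`) without stable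
line, `c * c = 1`, `det r(c) = -1`; `ρ̄` a residual representation over `k ⊇ F` with the same
characteristic polynomials as `r`.  Then `ρ̄` is absolutely irreducible. -/
theorem isAbsolutelyIrreducible_of_charpoly_eq (h2 : (2 : F) ≠ 0) (φ : F →+* k)
    (rb : ResidualGaloisRep k) (hT : Module.finrank F T = 2) (r : Γ →* Module.End F T)
    (hcmp : ∀ s, LinearMap.charpoly (rb.ρ s) = (LinearMap.charpoly (r s)).map φ)
    (hirr : ∀ N : Submodule F T, (∀ s, ∀ x ∈ N, r s x ∈ N) → N = ⊥ ∨ N = ⊤)
    (c : Γ) (hc : c * c = 1) (hdet : LinearMap.det (r c) = -1) :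
    rb.IsAbsolutelyIrreducible := by
  intro W hW
  by_contra hne
  rw [not_or] at hne
  obtain ⟨h0, h1⟩ := hne
  obtain ⟨bV, hbV0, hbV⟩ := exists_basis_of_ne_bot_of_ne_top
    (rb.baseChange (AlgebraicClosure k)).finrank_eq W h0 h1
  obtain ⟨bT, hbT0, hbT1⟩ := exists_eigenbasis hT h2 (r c)
    (by rw [← map_mul, hc, map_one]) hdet
  let Φ : F →+* AlgebraicClosure k := (algebraMap k (AlgebraicClosure k)).comp φ
  let A : Γ →* Matrix (Fin 2) (Fin 2) F :=
    { toFun := fun s => LinearMap.toMatrix bT bT (r s)
      map_one' := by rw [map_one]; exact LinearMap.toMatrix_one bT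
      map_mul' := fun s t => by rw [map_mul]; exact LinearMap.toMatrix_mul bT _ _ }
  let B : Γ →* Matrix (Fin 2) (Fin 2) (AlgebraicClosure k) :=
    { toFun := fun s => LinearMap.toMatrix bV bV ((rb.baseChange (AlgebraicClosure k)).ρ s)
      map_one' := by rw [map_one]; exact LinearMap.toMatrix_one bV
      map_mul' := fun s t => by rw [map_mul]; exact LinearMap.toMatrix_mul bV _ _ }
  have hA : ∀ s, A s = LinearMap.toMatrix bT bT (r s) := fun s => rfl
  have hBdef : ∀ s, B s = LinearMap.toMatrix bV bV ((rb.baseChange (AlgebraicClosure k)).ρ s) :=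
    fun s => rfl
  have h2K : (2 : AlgebraicClosure k) ≠ 0 := by
    intro h
    apply h2
    apply Φ.injective
    rw [map_ofNat, map_zero]
    exact h
  have hB : ∀ s, B s 1 0 = 0 := by
    intro s
    rw [hBdef, LinearMap.toMatrix_apply]
    exact hbV _ (hW s _ hbV0)
  have htr : ∀ s, (B s).trace = Φ (A s).trace := by
    intro s
    rw [hBdef, hA, trace_toMatrix_eq_neg_coeff, trace_toMatrix_eq_neg_coeff, map_neg]
    have h3 : (rb.baseChange (AlgebraicClosure k)).ρ s =
        (rb.ρ s).baseChange (AlgebraicClosure k) := rfl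
    rw [h3, LinearMap.charpoly_baseChange, hcmp, Polynomial.coeff_map, Polynomial.coeff_map]
    rfl
  have hAc : A c = !![1, 0; 0, -1] := by
    rw [hA]
    ext i j
    rw [LinearMap.toMatrix_apply]
    fin_cases i <;> fin_cases j <;> simp [hbT0, hbT1]
  rcases core Φ h2K A B hB htr c hc hAc with h | h
  · obtain ⟨hst, hb, ht⟩ := span_basis_stable hT bT (fun s => r s) 0 (fun s i hi => by
      rw [Fin.eq_one_of_ne_zero i hi]
      exact h s)
    rcases hirr _ hst with h3 | h3
    · exact hb h3
    · exact ht h3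
  · obtain ⟨hst, hb, ht⟩ := span_basis_stable hT bT (fun s => r s) 1 (fun s i hi => by
      have : i = 0 := by
        fin_cases i
        · rfl
        · exact absurd rfl hi
      rw [this]
      exact h s)
    rcases hirr _ hst with h3 | h3
    · exact hb h3
    · exact ht h3

/-- **Oddness transfers along equal characteristic polynomials.** -/
theorem isOdd_of_charpoly_eq (φ : F →+* k) (rb : ResidualGaloisRep k)
    (hT : Module.finrank F T = 2) (r : Γ →* Module.End F T)
    (hcmp : ∀ s, LinearMap.charpoly (rb.ρ s) = (LinearMap.charpoly (r s)).map φ)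
    (hdetc : ∀ c : Γ, c * c = 1 → c ≠ 1 → LinearMap.det (r c) = -1) :
    rb.IsOdd := by
  intro c hc hc1
  rw [det_eq_coeff_zero rb.finrank_eq, hcmp, Polynomial.coeff_map, ← det_eq_coeff_zero hT,
    hdetc c hc hc1, map_neg, map_one]

/-- Both conclusions of the `hres` hypothesis of S36 at once. -/
theorem isAbsolutelyIrreducible_and_isOdd (h2 : (2 : F) ≠ 0) (φ : F →+* k)
    (rb : ResidualGaloisRep k) (hT : Module.finrank F T = 2) (r : Γ →* Module.End F T)
    (hcmp : ∀ s, LinearMap.charpoly (rb.ρ s) = (LinearMap.charpoly (r s)).map φ)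
    (hirr : ∀ N : Submodule F T, (∀ s, ∀ x ∈ N, r s x ∈ N) → N = ⊥ ∨ N = ⊤)
    (hdetc : ∀ c : Γ, c * c = 1 → c ≠ 1 → LinearMap.det (r c) = -1)
    (c : Γ) (hc : c * c = 1) (hc1 : c ≠ 1) :
    rb.IsAbsolutelyIrreducible ∧ rb.IsOdd :=
  ⟨isAbsolutelyIrreducible_of_charpoly_eq h2 φ rb hT r hcmp hirr c hc (hdetc c hc hc1),
    isOdd_of_charpoly_eq φ rb hT r hcmp hdetc⟩

end Residual

end Fermat.Agent.S58.Form.HresAbs
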