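/-
S58 / block F5 (helper11): `hres` of S36 from the irreducibility of `W[p]` — the `W`-instance.

* `complexConjugation_ne_one`;
* `cycloChar_of_involution` : the mod `p` cyclotomic character (`p` odd) is `-1` at EVERY
  involution `c ≠ 1` of `ℚ̄` (Artin–Schreier-lite, no embedding into `ℂ`);
* `hres_of_charpoly_eq` : abstract `T`, `det r = χ_cyc`;
* `hres_of_compare` : `T = W(ℚ̄)[p]` in the shape of `WeierstrassCurve.ModRepIsIrreducible`.
-/
import Mathlib
import Fermat.Prelude.Def_GaloisRep_Adic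
import Fermat.Prelude.Def_GaloisRep_ComplexConjugation
import Fermat.Prelude.Def_FLTPrelim_ModularRep
import Fermat.Agent.S58.Form.HresAbs
import Fermat.Agent.S58.ArtinSchreierLite
import Fermat.Agent.N4.FrobDensity.CycloConj
import Fermat.Agent.S58.EC.TorsionCount

set_option autoImplicit false
set_option linter.unusedSectionVars false
set_option linter.unusedVariables false
set_option linter.style.haveILetI false

namespace Fermat.Agent.S58.Form.Hres

open ExtCitation Fermat.Agent.N4.FrobDensity Polynomial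
open scoped WeierstrassCurve.Affine

local notation "Qbar" => AlgebraicClosure ℚ
local notation "Γ" => (AlgebraicClosure ℚ ≃ₐ[ℚ] AlgebraicClosure ℚ)

/-! ### Involutions of `ℚ̄` -/

/-- Complex conjugation is not the identity of `ℚ̄`. -/
theorem complexConjugation_ne_one : complexConjugation ≠ 1 := by
  intro h
  obtain ⟨i, hi⟩ := IsAlgClosed.exists_pow_nat_eq (-1 : Qbar) (n := 2) (by norm_num)
  have h1 := complexEmbedding_complexConjugation i
  rw [h, AlgEquiv.one_apply] at h1
  obtain ⟨x, hx⟩ := Complex.conj_eq_iff_real.mp h1.symm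
  have h2 : complexEmbedding i ^ 2 = -1 := by rw [← map_pow, hi, map_neg, map_one]
  rw [hx] at h2
  have h3 : ((x ^ 2 : ℝ) : ℂ) = ((-1 : ℝ) : ℂ) := by push_cast; exact h2
  have h4 : x ^ 2 = -1 := Complex.ofReal_injective h3
  nlinarith [sq_nonneg x]

variable (p : ℕ) [hp : Fact p.Prime]

/-- **The mod `p` cyclotomic character (`p` odd) is `-1` at every involution `c ≠ 1`.** -/
theorem cycloChar_of_involution (hp2 : p ≠ 2) (c : Γ) (hc : c * c = 1) (hc1 : c ≠ 1) :
    cycloChar p c = -1 := by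
  apply Units.ext
  rw [Units.val_neg, Units.val_one]
  refine cycloChar_eq_of_forall p c (-1) fun t ht => ?_
  rw [pow_val_neg_one_eq_inv hp.out.ne_zero ht]
  exact ArtinSchreierLite.apply_of_pow_eq_one_of_odd_algEquiv c hc hc1 ht
    (hp.out.odd_of_ne_two hp2)

/-! ### Abstract `T` -/

section Abstract

variable {T : Type*} [AddCommGroup T] [Module (ZMod p) T] [Module.Finite (ZMod p) T]

/-- `det r = χ_cyc` gives `det r(c) = -1` at every involution `c ≠ 1` (`p` odd). -/
theorem det_eq_neg_one_of_cycloChar (hp2 : p ≠ 2) (r : Γ →* Module.End (ZMod p) T)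
    (hdetcyc : ∀ s, LinearMap.det (r s) = ((cycloChar p s : (ZMod p)ˣ) : ZMod p))
    (c : Γ) (hc : c * c = 1) (hc1 : c ≠ 1) : LinearMap.det (r c) = -1 := by
  rw [hdetcyc, cycloChar_of_involution p hp2 c hc hc1, Units.val_neg, Units.val_one]

theorem two_ne_zero_zmod (hp2 : p ≠ 2) : (2 : ZMod p) ≠ 0 := by
  intro h
  have h1 : ((2 : ℕ) : ZMod p) = 0 := by exact_mod_cast h
  rw [ZMod.natCast_eq_zero_iff] at h1
  exact hp2 ((Nat.prime_dvd_prime_iff_eq hp.out Nat.prime_two).mp h1)

/-- **`hres` from `hirr`, abstract form.**  `r` an irreducible two-dimensional `𝔽_p`-representation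
of `Γ` with `det r = χ_cyc` (`p` odd); `ρ̄` a residual representation over a field `k ⊇ 𝔽_p` with
the same characteristic polynomials.  Then `ρ̄` is absolutely irreducible and odd. -/
theorem hres_of_charpoly_eq (hp2 : p ≠ 2) (hT : Module.finrank (ZMod p) T = 2)
    (r : Γ →* Module.End (ZMod p) T)
    (hirr : ∀ N : Submodule (ZMod p) T, (∀ s, ∀ x ∈ N, r s x ∈ N) → N = ⊥ ∨ N = ⊤)
    (hdetcyc : ∀ s, LinearMap.det (r s) = ((cycloChar p s : (ZMod p)ˣ) : ZMod p))
    {k : Type} [Field k] (φ : ZMod p →+* k) (rb : ResidualGaloisRep k)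
    (hcmp : ∀ s, LinearMap.charpoly (rb.ρ s) = (LinearMap.charpoly (r s)).map φ) :
    rb.IsAbsolutelyIrreducible ∧ rb.IsOdd :=
  HresAbs.isAbsolutelyIrreducible_and_isOdd (two_ne_zero_zmod p hp2) φ rb hT r hcmp hirr
    (det_eq_neg_one_of_cycloChar p hp2 r hdetcyc) complexConjugation
    complexConjugation_mul_self complexConjugation_ne_one

end Abstract

/-! ### The instance `T = W(ℚ̄)[p]` -/

section WInstance

variable (W : WeierstrassCurve ℤ)

/-- `W(ℚ̄)[p]`, in the shape of `WeierstrassCurve.ModRepIsIrreducible`. -/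
abbrev Tp : Type :=
  Submodule.torsionBy ℤ ((W.map (Int.castRingHom ℚ))⁄Qbar).Point p

/-- The Galois representation on `W(ℚ̄)[p]`. -/
noncomputable abbrev rW : Γ →* Module.End (ZMod p) (Tp p W) :=
  WeierstrassCurve.Affine.Point.galoisRepModuleEnd (K := Qbar) ℚ (W.map (Int.castRingHom ℚ)) p

theorem rW_apply (s : Γ) (x : Tp p W) : rW p W s x = s • x := rfl

/-- `W.ModRepIsIrreducible p` in the shape consumed by `HresAbs`. -/
theorem hirr_of_modRepIsIrreducible (hirr : W.ModRepIsIrreducible p) :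
    ∀ N : Submodule (ZMod p) (Tp p W), (∀ s, ∀ x ∈ N, rW p W s x ∈ N) → N = ⊥ ∨ N = ⊤ :=
  fun N hN => hirr.2 N fun σ x hx => hN σ x hx

theorem Δ_ne_zero (hΔ : W.Δ ≠ 0) : ((W.map (Int.castRingHom ℚ))⁄Qbar).Δ ≠ 0 := by
  show ((W.map (Int.castRingHom ℚ)).map (algebraMap ℚ Qbar)).Δ ≠ 0
  rw [WeierstrassCurve.map_Δ, WeierstrassCurve.map_Δ]
  intro h
  apply hΔ
  have h1 := (algebraMap ℚ Qbar).injective (h.trans (map_zero _).symm)
  exact Int.cast_injective (h1.trans Int.cast_zero.symm)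

theorem card_Tp (hp2 : p ≠ 2) (hΔ : W.Δ ≠ 0) : Nat.card (Tp p W) = p ^ 2 :=
  Fermat.Agent.S58.EC.TorsionCount.card_torsionBy (Δ_ne_zero W hΔ) (hp.out.odd_of_ne_two hp2)
    (by exact_mod_cast hp.out.ne_zero)

theorem finite_Tp (hp2 : p ≠ 2) (hΔ : W.Δ ≠ 0) : Finite (Tp p W) :=
  Nat.finite_of_card_ne_zero (by
    rw [card_Tp p W hp2 hΔ]
    exact pow_ne_zero _ hp.out.ne_zero)

theorem moduleFinite_Tp (hp2 : p ≠ 2) (hΔ : W.Δ ≠ 0) : Module.Finite (ZMod p) (Tp p W) :=
  haveI := finite_Tp p W hp2 hΔ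
  Module.Finite.of_finite

theorem finrank_Tp (hp2 : p ≠ 2) (hΔ : W.Δ ≠ 0) : Module.finrank (ZMod p) (Tp p W) = 2 := by
  haveI := finite_Tp p W hp2 hΔ
  have h := Module.natCard_eq_pow_finrank (K := ZMod p) (V := Tp p W)
  rw [card_Tp p W hp2 hΔ, Nat.card_zmod] at h
  exact (Nat.pow_right_injective hp.out.two_le h).symm

/-- **`hres` of S36 from `hirr` of S58.**  `W / ℤ` with `Δ ≠ 0`, `p` odd, `W[p]` irreducible,
`det (σ | W[p]) = χ_cyc(σ)`; `ρ̄` a residual representation over `k` whose characteristic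
polynomials are those of `W[p]`.  Then `ρ̄` is absolutely irreducible and odd. -/
theorem hres_of_compare (hp2 : p ≠ 2) (hΔ : W.Δ ≠ 0) (hirr : W.ModRepIsIrreducible p)
    [Module.Finite (ZMod p) (Tp p W)]
    (hdetcyc : ∀ s, LinearMap.det (rW p W s) = ((cycloChar p s : (ZMod p)ˣ) : ZMod p))
    {k : Type} [Field k] (φ : ZMod p →+* k) (rb : ResidualGaloisRep k)
    (hcmp : ∀ s, LinearMap.charpoly (rb.ρ s) = (LinearMap.charpoly (rW p W s)).map φ) :
    rb.IsAbsolutelyIrreducible ∧ rb.IsOdd :=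
  hres_of_charpoly_eq p hp2 (finrank_Tp p W hp2 hΔ) (rW p W)
    (hirr_of_modRepIsIrreducible p W hirr) hdetcyc φ rb hcmp

end WInstance

/-! ### Entry point in the frozen consumer shape (I-F4) at `m = 1` -/

section Consumer

/-- The characteristic polynomial of an endomorphism of a two-dimensional space. -/
theorem charpoly_eq_of_finrank_two {K : Type*} [Field K] {V : Type*} [AddCommGroup V]
    [Module K V] [Module.Finite K V] (hV : Module.finrank K V = 2) (f : Module.End K V) :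
    LinearMap.charpoly f = X ^ 2 - C (LinearMap.trace K V f) * X + C (LinearMap.det f) := by
  have hcard : Fintype.card (Fin 2) = Module.finrank K V := by rw [hV, Fintype.card_fin]
  let b : Module.Basis (Fin 2) K V := (Module.finBasisOfFinrankEq K V hV)
  rw [← LinearMap.charpoly_toMatrix f b, Matrix.charpoly_fin_two,
    ← LinearMap.trace_eq_matrix_trace K b f, LinearMap.det_toMatrix b f]

variable (W : WeierstrassCurve ℤ)

/-- The (I-F4) shape at a general level `n`, for a residual representation `rb` over `k`. -/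
def TraceDetCompare (n : ℕ) {k : Type} [Field k] (rb : ResidualGaloisRep k) : Prop :=
  ∀ σ : Γ, ∃ t d : ℤ,
    LinearMap.trace (ZMod n) _ (WeierstrassCurve.Affine.Point.galoisRepModuleEnd (K := Qbar) ℚ
      (W.map (Int.castRingHom ℚ)) n σ) = (t : ZMod n) ∧
    LinearMap.det (WeierstrassCurve.Affine.Point.galoisRepModuleEnd (K := Qbar) ℚ
      (W.map (Int.castRingHom ℚ)) n σ) = (d : ZMod n) ∧
    LinearMap.trace k rb.V (rb.ρ σ) = (t : k) ∧ LinearMap.det (rb.ρ σ) = (d : k)

theorem TraceDetCompare.of_eq {n m : ℕ} (h : n = m) {k : Type} [Field k]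
    {rb : ResidualGaloisRep k} (H : TraceDetCompare W n rb) : TraceDetCompare W m rb := by
  subst h
  exact H

/-- **`hres` from `hirr`, trace/det form.**  The comparison is given as integers `t, d` lifting
the trace and determinant on `W[p]` and on `ρ̄` (shape (I-F4) at `m = 1`, read in the residue
field `k`, which has characteristic `p`). -/
theorem hres_of_traceDetCompare (hp2 : p ≠ 2) (hΔ : W.Δ ≠ 0) (hirr : W.ModRepIsIrreducible p)
    (hdetcyc : ∀ s, LinearMap.det (rW p W s) = ((cycloChar p s : (ZMod p)ˣ) : ZMod p))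
    {k : Type} [Field k] [CharP k p] (rb : ResidualGaloisRep k)
    (H : TraceDetCompare W p rb) :
    rb.IsAbsolutelyIrreducible ∧ rb.IsOdd := by
  haveI := moduleFinite_Tp p W hp2 hΔ
  refine hres_of_compare p W hp2 hΔ hirr hdetcyc (ZMod.castHom (dvd_refl p) k) rb fun σ => ?_
  obtain ⟨t, d, h1, h2, h3, h4⟩ := H σ
  have h1' : LinearMap.trace (ZMod p) (Tp p W) (rW p W σ) = (t : ZMod p) := h1
  have h2' : LinearMap.det (rW p W σ) = (d : ZMod p) := h2
  rw [charpoly_eq_of_finrank_two rb.finrank_eq, charpoly_eq_of_finrank_two (finrank_Tp p W hp2 hΔ),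
    h1', h2', h3, h4]
  simp

/-- The residue field of a local ring `A` with `(p : A) ∈ 𝔪` has characteristic `p`. -/
theorem charP_residueField {A : Type*} [CommRing A] [IsLocalRing A]
    (hpA : (p : A) ∈ IsLocalRing.maximalIdeal A) : CharP (IsLocalRing.ResidueField A) p := by
  rw [CharP.charP_iff_prime_eq_zero hp.out]
  have h := (IsLocalRing.residue_eq_zero_iff (p : A)).mpr hpA
  rw [map_natCast] at h
  exact h

/-- (I-F4) at `m = 1` for `ρ : GaloisRepAdic A` gives the comparison for `ρ.residual`. -/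
theorem traceDetCompare_residual {A : Type} [CommRing A] [IsLocalRing A] (ρ : GaloisRepAdic A)
    (hF4 : ∀ σ : Γ, ∃ t d : ℤ,
      LinearMap.trace (ZMod (p ^ 1)) _ (WeierstrassCurve.Affine.Point.galoisRepModuleEnd
        (K := Qbar) ℚ (W.map (Int.castRingHom ℚ)) (p ^ 1) σ) = (t : ZMod (p ^ 1)) ∧
      LinearMap.det (WeierstrassCurve.Affine.Point.galoisRepModuleEnd (K := Qbar) ℚ
        (W.map (Int.castRingHom ℚ)) (p ^ 1) σ) = (d : ZMod (p ^ 1)) ∧
      LinearMap.trace A ρ.V (ρ.ρ σ) - (t : A) ∈ IsLocalRing.maximalIdeal A ^ 1 ∧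
      LinearMap.det (ρ.ρ σ) - (d : A) ∈ IsLocalRing.maximalIdeal A ^ 1) :
    TraceDetCompare W p ρ.residual := by
  refine TraceDetCompare.of_eq W (pow_one p) fun σ => ?_
  obtain ⟨t, d, h1, h2, h3, h4⟩ := hF4 σ
  refine ⟨t, d, h1, h2, ?_, ?_⟩
  · have h5 : ρ.residual.ρ σ = (ρ.ρ σ).baseChange (IsLocalRing.ResidueField A) := rfl
    rw [h5]
    erw [LinearMap.trace_baseChange]
    rw [pow_one] at h3
    have h6 := (IsLocalRing.residue_eq_zero_iff _).mpr h3
    rw [map_sub, sub_eq_zero, map_intCast] at h6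
    exact h6
  · have h5 : ρ.residual.ρ σ = (ρ.ρ σ).baseChange (IsLocalRing.ResidueField A) := rfl
    rw [h5]
    erw [LinearMap.det_baseChange]
    rw [pow_one] at h4
    have h6 := (IsLocalRing.residue_eq_zero_iff _).mpr h4
    rw [map_sub, sub_eq_zero, map_intCast] at h6
    exact h6

/-- ★ **`hres` of S36 from `hirr` of S58, in the frozen consumer shape.**  `W / ℤ`, `Δ ≠ 0`,
`p` odd, `W[p]` irreducible, `det (σ | W[p]) = χ_cyc(σ)` (EC-DET); `ρ : GaloisRepAdic A` with
`(p : A) ∈ 𝔪` satisfying (I-F4) at `m = 1`.  Then `ρ.residual` is absolutely irreducible and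
odd. -/
theorem hres_of_IF4 (hp2 : p ≠ 2) (hΔ : W.Δ ≠ 0) (hirr : W.ModRepIsIrreducible p)
    (hdetcyc : ∀ s, LinearMap.det (rW p W s) = ((cycloChar p s : (ZMod p)ˣ) : ZMod p))
    {A : Type} [CommRing A] [IsLocalRing A] (hpA : (p : A) ∈ IsLocalRing.maximalIdeal A)
    (ρ : GaloisRepAdic A)
    (hF4 : ∀ σ : Γ, ∃ t d : ℤ,
      LinearMap.trace (ZMod (p ^ 1)) _ (WeierstrassCurve.Affine.Point.galoisRepModuleEnd
        (K := Qbar) ℚ (W.map (Int.castRingHom ℚ)) (p ^ 1) σ) = (t : ZMod (p ^ 1)) ∧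
      LinearMap.det (WeierstrassCurve.Affine.Point.galoisRepModuleEnd (K := Qbar) ℚ
        (W.map (Int.castRingHom ℚ)) (p ^ 1) σ) = (d : ZMod (p ^ 1)) ∧
      LinearMap.trace A ρ.V (ρ.ρ σ) - (t : A) ∈ IsLocalRing.maximalIdeal A ^ 1 ∧
      LinearMap.det (ρ.ρ σ) - (d : A) ∈ IsLocalRing.maximalIdeal A ^ 1) :
    ρ.residual.IsAbsolutelyIrreducible ∧ ρ.residual.IsOdd :=
  haveI := charP_residueField p hpA
  hres_of_traceDetCompare p W hp2 hΔ hirr hdetcyc ρ.residual
    (traceDetCompare_residual p W ρ hF4)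

end Consumer

end Fermat.Agent.S58.Form.Hres
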