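/-
S58, form side, block [F4] core (helper3): **the charpoly comparison (\*)** between an adic Galois
representation `ρ` and a system of representations on finite modules (`W[p^m]`), from equality at
Frobenius elements — abstract in the elliptic-curve side.

* `trace_pow_eq_dicksonSeq` : [POW] `tr (M ^ k) = D_k(tr M, det M)` for `2 × 2` matrices over any
  commutative ring (Cayley–Hamilton recursion, `dicksonSeq` of `N4/FrobDensity/Dickson`);
* `trace_det_eq_of_frobenius` : [CMP-core] two `2 × 2` matrix representations of `Gal(ℚ̄/ℚ)` over a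
  commutative ring, both factoring through a finite level, with equal trace and determinant at the
  Frobenius elements outside a finite set of primes, have equal trace and determinant EVERYWHERE
  (Frobenius density `exists_isFrobeniusAt_pow_eq` + [POW]);
* `matRep`, `mapRep`, `factors_mapRep_adic` : the matrix of a representation in a basis, its
  push-forward along a ring homomorphism; the reduction of a `GaloisRepAdic` modulo `𝔪^m` factors
  through a finite level (`isAdicContinuous m`);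
* `trace_det_mod_eq_of_frobenius` : (\*) at one level, with a ring homomorphism
  `f : B →+* A ⧸ 𝔪^m`;
* `zmodHom`, `exists_int_trace_det`, `exists_int_trace_det_of_charpoly` : the hom-free form for
  `B = ZMod n`, `n ∈ 𝔪^m`: integers `t d` with `tr r(σ) = t`, `det r(σ) = d` in `ZMod n` and
  `tr ρ(σ) - t, det ρ(σ) - d ∈ 𝔪^m`;
* consumer corollaries: `charpoly_eq_of_basis`, `trace_det_of_charpoly_eq`, `charpoly_adic`,
  `trace_det_adic_of_charpoly` (charpoly ↔ trace/det in rank two), `eq_of_forall_sub_mem_pow`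
  (Krull), `charpoly_eq_sq_of_forall` (unipotence from congruences modulo all `𝔪^m`),
  `trace_eq_intCast_of_forall`, `trace_residual`, `det_residual`, `charpoly_residual`,
  `trace_residual_eq_of_sub_mem`, `det_residual_eq_of_sub_mem` (the level `m = 1` IS the residual
  representation).
-/
import Mathlib
import Fermat.Agent.N4.FrobDensity.CycloFrob
import Fermat.Prelude.Def_GaloisRep_Adic

set_option autoImplicit false
set_option linter.unusedSectionVars false
set_option linter.style.haveILetI false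

namespace Fermat.Agent.S58.Form.Compare

open Polynomial Fermat.Agent.N4.FrobDensity

local notation "Qbar" => AlgebraicClosure ℚ
local notation "Γ" => (AlgebraicClosure ℚ ≃ₐ[ℚ] AlgebraicClosure ℚ)

section Pow

variable {R : Type*} [CommRing R]

/-- Cayley–Hamilton for `2 × 2` matrices, by hand (any commutative ring). -/
theorem mul_self_eq (M : Matrix (Fin 2) (Fin 2) R) :
    M * M = M.trace • M - M.det • (1 : Matrix (Fin 2) (Fin 2) R) := by
  ext i j
  fin_cases i <;> fin_cases j <;>
    simp [Matrix.mul_apply, Fin.sum_univ_two, Matrix.trace_fin_two, Matrix.det_fin_two] <;> ring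

/-- **[POW]** `tr (M ^ k) = D_k(tr M, det M)`. -/
theorem trace_pow_eq_dicksonSeq (M : Matrix (Fin 2) (Fin 2) R) (k : ℕ) :
    (M ^ k).trace = dicksonSeq M.trace M.det k := by
  induction k using Nat.twoStepInduction with
  | zero => simp [Matrix.trace_fin_two]
  | one => simp
  | more k ih0 ih1 =>
    have h : M ^ (k + 2) = M.trace • M ^ (k + 1) - M.det • M ^ k := by
      rw [pow_add, pow_two, mul_self_eq, mul_sub, Matrix.mul_smul, Matrix.mul_smul, mul_one,
        ← pow_succ]
    rw [h, Matrix.trace_sub, Matrix.trace_smul, Matrix.trace_smul, ih0, ih1, dicksonSeq_add_two,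
      smul_eq_mul, smul_eq_mul]

end Pow

section Core

local instance isAlgebraicQbar_S58C : Algebra.IsAlgebraic ℚ (AlgebraicClosure ℚ) :=
  AlgebraicClosure.isAlgebraic ℚ
local instance isAlgClosureQbar_S58C : IsAlgClosure ℚ (AlgebraicClosure ℚ) :=
  ⟨inferInstance, inferInstance⟩
local instance normalQbar_S58C : Normal ℚ (AlgebraicClosure ℚ) :=
  IsAlgClosure.normal ℚ (AlgebraicClosure ℚ)

/-- **[CMP-core]** Two `2 × 2` matrix representations of `Gal(ℚ̄/ℚ)` over a commutative ring, both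
factoring through a finite level, with the same trace and determinant at every Frobenius element
outside a finite set of primes, have the same trace and determinant at EVERY element. -/
theorem trace_det_eq_of_frobenius {R : Type} [CommRing R]
    (ρ₁ ρ₂ : Γ →* Matrix (Fin 2) (Fin 2) R)
    (h₁ : GaloisFactorsThroughFiniteLevel ρ₁) (h₂ : GaloisFactorsThroughFiniteLevel ρ₂)
    (T : Finset ℕ)
    (hfrob : ∀ l : ℕ, l.Prime → l ∉ T → ∀ A : ValuationSubring Qbar, A.LiesOverPrime l →
      ∀ φ : Γ, A.IsFrobeniusAt φ l →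
        (ρ₁ φ).trace = (ρ₂ φ).trace ∧ (ρ₁ φ).det = (ρ₂ φ).det)
    (g : Γ) : (ρ₁ g).trace = (ρ₂ g).trace ∧ (ρ₁ g).det = (ρ₂ g).det := by
  obtain ⟨L, hfd, hnorm, hL₁, hL₂⟩ := exists_normal_level ρ₁ ρ₂ h₁ h₂
  obtain ⟨l, hl, hlT, A, hlA, φ, hφ, m, hm⟩ := exists_isFrobeniusAt_pow_eq L g T
  obtain ⟨ht, hd⟩ := hfrob l hl hlT A hlA φ hφ
  have hker : AlgEquiv.restrictNormalHom L (g * (φ ^ m)⁻¹) = 1 := by
    rw [map_mul, map_inv, hm, mul_inv_cancel]
  have key : ∀ ρ : Γ →* Matrix (Fin 2) (Fin 2) R,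
      (∀ γ : Γ, AlgEquiv.restrictNormalHom L γ = 1 → ρ γ = 1) → ρ g = ρ φ ^ m := by
    intro ρ hρ
    have h1 := hρ _ hker
    rw [map_mul] at h1
    have h2 : ρ g = ρ g * (ρ (φ ^ m)⁻¹ * ρ (φ ^ m)) := by
      rw [← map_mul, inv_mul_cancel, map_one, mul_one]
    rw [h2, ← mul_assoc, h1, one_mul, map_pow]
  rw [key ρ₁ hL₁, key ρ₂ hL₂, trace_pow_eq_dicksonSeq, trace_pow_eq_dicksonSeq, Matrix.det_pow,
    Matrix.det_pow, ht, hd]
  exact ⟨rfl, rfl⟩

end Core




section MatRep

variable {B : Type} [CommRing B] {T : Type} [AddCommGroup T] [Module B T]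

/-- The matrix representation attached to a representation on a module with a basis indexed by
`Fin 2`. -/
noncomputable def matRep (c : Module.Basis (Fin 2) B T) (r : Γ →* Module.End B T) :
    Γ →* Matrix (Fin 2) (Fin 2) B where
  toFun σ := LinearMap.toMatrix c c (r σ)
  map_one' := by rw [map_one]; exact LinearMap.toMatrix_one c
  map_mul' σ τ := by rw [map_mul]; exact LinearMap.toMatrix_mul c _ _

@[simp] theorem matRep_apply (c : Module.Basis (Fin 2) B T) (r : Γ →* Module.End B T) (σ : Γ) :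
    matRep c r σ = LinearMap.toMatrix c c (r σ) := rfl

theorem trace_matRep (c : Module.Basis (Fin 2) B T) (r : Γ →* Module.End B T) (σ : Γ) :
    (matRep c r σ).trace = LinearMap.trace B T (r σ) :=
  (LinearMap.trace_eq_matrix_trace B c (r σ)).symm

theorem det_matRep (c : Module.Basis (Fin 2) B T) (r : Γ →* Module.End B T) (σ : Γ) :
    (matRep c r σ).det = LinearMap.det (r σ) :=
  LinearMap.det_toMatrix c (r σ)

/-- Push a matrix representation forward along a ring homomorphism. -/
noncomputable def mapRep {R : Type} [CommRing R] (f : B →+* R)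
    (ρ : Γ →* Matrix (Fin 2) (Fin 2) B) : Γ →* Matrix (Fin 2) (Fin 2) R :=
  (f.mapMatrix : Matrix (Fin 2) (Fin 2) B →+* Matrix (Fin 2) (Fin 2) R).toMonoidHom.comp ρ

theorem mapRep_apply {R : Type} [CommRing R] (f : B →+* R)
    (ρ : Γ →* Matrix (Fin 2) (Fin 2) B) (σ : Γ) : mapRep f ρ σ = f.mapMatrix (ρ σ) := rfl

theorem trace_mapRep {R : Type} [CommRing R] (f : B →+* R)
    (ρ : Γ →* Matrix (Fin 2) (Fin 2) B) (σ : Γ) : (mapRep f ρ σ).trace = f (ρ σ).trace := by
  rw [mapRep_apply, RingHom.mapMatrix_apply]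
  exact (AddMonoidHom.map_trace f (ρ σ)).symm

theorem det_mapRep {R : Type} [CommRing R] (f : B →+* R)
    (ρ : Γ →* Matrix (Fin 2) (Fin 2) B) (σ : Γ) : (mapRep f ρ σ).det = f (ρ σ).det := by
  rw [mapRep_apply]
  exact (RingHom.map_det f (ρ σ)).symm

theorem factors_matRep (c : Module.Basis (Fin 2) B T) (r : Γ →* Module.End B T)
    (hr : GaloisFactorsThroughFiniteLevel r) : GaloisFactorsThroughFiniteLevel (matRep c r) := by
  obtain ⟨L, hL, h⟩ := hr
  refine ⟨L, hL, fun σ hσ => ?_⟩
  rw [matRep_apply, h σ hσ]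
  exact LinearMap.toMatrix_one c

theorem factors_mapRep {R : Type} [CommRing R] (f : B →+* R)
    (ρ : Γ →* Matrix (Fin 2) (Fin 2) B) (hρ : GaloisFactorsThroughFiniteLevel ρ) :
    GaloisFactorsThroughFiniteLevel (mapRep f ρ) := by
  obtain ⟨L, hL, h⟩ := hρ
  refine ⟨L, hL, fun σ hσ => ?_⟩
  rw [mapRep_apply, h σ hσ, map_one]

end MatRep

section Adic

variable {A : Type} [CommRing A] {V : Type} [AddCommGroup V] [Module A V]

/-- Coordinates of an element of `J • ⊤` lie in `J`. -/
theorem repr_mem_of_mem_smul_top {ι : Type*} (b : Module.Basis ι A V) (J : Ideal A) {w : V}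
    (hw : w ∈ (J • ⊤ : Submodule A V)) (i : ι) : b.repr w i ∈ J := by
  refine Submodule.smul_induction_on (p := fun w => b.repr w i ∈ J) hw ?_ ?_
  · intro a ha v _
    rw [map_smul, Finsupp.smul_apply, smul_eq_mul]
    exact J.mul_mem_right _ ha
  · intro x y hx hy
    rw [map_add, Finsupp.add_apply]
    exact J.add_mem hx hy

/-- An endomorphism congruent to the identity modulo `J` has the identity matrix modulo `J`. -/
theorem mapMatrix_toMatrix_eq_one (b : Module.Basis (Fin 2) A V) (J : Ideal A)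
    (E : Module.End A V) (hE : ∀ v, E v - v ∈ (J • ⊤ : Submodule A V)) :
    (Ideal.Quotient.mk J).mapMatrix (LinearMap.toMatrix b b E) = 1 := by
  have h1 : (LinearMap.toMatrix b b) (1 : Module.End A V) = 1 := LinearMap.toMatrix_one b
  rw [← map_one (Ideal.Quotient.mk J).mapMatrix, ← h1]
  ext i j
  rw [RingHom.mapMatrix_apply, RingHom.mapMatrix_apply, Matrix.map_apply, Matrix.map_apply,
    LinearMap.toMatrix_apply, LinearMap.toMatrix_apply, Ideal.Quotient.eq, ← Finsupp.sub_apply,
    ← map_sub, Module.End.one_apply]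
  exact repr_mem_of_mem_smul_top b J (hE (b j)) i

end Adic

section Main

variable {A : Type} [CommRing A] [IsLocalRing A]

/-- The reduction modulo `𝔪 ^ m` of an adic representation, in a basis, factors through a finite
level. -/
theorem factors_mapRep_adic (ρ : GaloisRepAdic A) (b : Module.Basis (Fin 2) A ρ.V) (m : ℕ) :
    GaloisFactorsThroughFiniteLevel
      (mapRep (Ideal.Quotient.mk (IsLocalRing.maximalIdeal A ^ m)) (matRep b ρ.ρ)) := by
  obtain ⟨L, hL, h⟩ := ρ.isAdicContinuous m
  refine ⟨L, hL, fun σ hσ => ?_⟩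
  rw [mapRep_apply, matRep_apply]
  exact mapMatrix_toMatrix_eq_one b _ (ρ.ρ σ) (h σ hσ)

/-- **(\*) charpoly comparison, one level.**  `ρ` an adic representation over a local ring `A`,
`r` a representation on a module `T` with a basis of two elements over a ring `B` (`B = ZMod (p^m)`,
`T = W[p^m]`), factoring through a finite level, `f : B →+* A ⧸ 𝔪^m`.  If traces and determinants
of `ρ` and `r` agree in `A ⧸ 𝔪^m` at every Frobenius element outside a finite set of primes, they
agree at EVERY element of `Gal(ℚ̄/ℚ)`. -/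
theorem trace_det_mod_eq_of_frobenius (ρ : GaloisRepAdic A) (m : ℕ)
    {B : Type} [CommRing B] {T : Type} [AddCommGroup T] [Module B T]
    (c : Module.Basis (Fin 2) B T) (r : Γ →* Module.End B T)
    (hr : GaloisFactorsThroughFiniteLevel r)
    (f : B →+* A ⧸ IsLocalRing.maximalIdeal A ^ m) (S₀ : Finset ℕ)
    (hfrob : ∀ l : ℕ, l.Prime → l ∉ S₀ → ∀ P : ValuationSubring Qbar, P.LiesOverPrime l →
      ∀ φ : Γ, P.IsFrobeniusAt φ l →
        Ideal.Quotient.mk (IsLocalRing.maximalIdeal A ^ m) (LinearMap.trace A ρ.V (ρ.ρ φ)) =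
            f (LinearMap.trace B T (r φ)) ∧
          Ideal.Quotient.mk (IsLocalRing.maximalIdeal A ^ m) (LinearMap.det (ρ.ρ φ)) =
            f (LinearMap.det (r φ)))
    (σ : Γ) :
    Ideal.Quotient.mk (IsLocalRing.maximalIdeal A ^ m) (LinearMap.trace A ρ.V (ρ.ρ σ)) =
        f (LinearMap.trace B T (r σ)) ∧
      Ideal.Quotient.mk (IsLocalRing.maximalIdeal A ^ m) (LinearMap.det (ρ.ρ σ)) =
        f (LinearMap.det (r σ)) := by
  haveI : Nontrivial A := inferInstance
  let b : Module.Basis (Fin 2) A ρ.V := Module.finBasisOfFinrankEq A ρ.V ρ.finrank_eq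
  have key := trace_det_eq_of_frobenius
    (mapRep (Ideal.Quotient.mk (IsLocalRing.maximalIdeal A ^ m)) (matRep b ρ.ρ))
    (mapRep f (matRep c r)) (factors_mapRep_adic ρ b m)
    (factors_mapRep f _ (factors_matRep c r hr)) S₀ ?_ σ
  · simpa only [trace_mapRep, det_mapRep, trace_matRep, det_matRep] using key
  · intro l hl hlS P hP φ hφ
    simpa only [trace_mapRep, det_mapRep, trace_matRep, det_matRep] using hfrob l hl hlS P hP φ hφ

end Main




section ZModHom

/-- The ring homomorphism `ZMod n →+* R` when `n = 0` in `R`. -/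
noncomputable def zmodHom (n : ℕ) (R : Type*) [CommRing R] (h : ((n : ℕ) : R) = 0) : ZMod n →+* R :=
  (Ideal.Quotient.lift (Ideal.span {(n : ℤ)}) (Int.castRingHom R) (by
      intro a ha
      obtain ⟨b, rfl⟩ := Ideal.mem_span_singleton.mp ha
      rw [map_mul, map_natCast, h, zero_mul])).comp
    (Int.quotientSpanNatEquivZMod n).symm.toRingHom

end ZModHom

section Charpoly

variable {B : Type*} [CommRing B] {T : Type*} [AddCommGroup T] [Module B T]

/-- The characteristic polynomial of an endomorphism of a module with a basis of two elements. -/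
theorem charpoly_eq_of_basis [Nontrivial B] [Module.Free B T] [Module.Finite B T]
    (c : Module.Basis (Fin 2) B T) (g : Module.End B T) :
    LinearMap.charpoly g = X ^ 2 - C (LinearMap.trace B T g) * X + C (LinearMap.det g) := by
  rw [← LinearMap.charpoly_toMatrix g c, Matrix.charpoly_fin_two,
    ← LinearMap.trace_eq_matrix_trace B c, LinearMap.det_toMatrix]

/-- Trace and determinant from the characteristic polynomial (rank two). -/
theorem trace_det_of_charpoly_eq [Nontrivial B] [Module.Free B T] [Module.Finite B T]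
    (c : Module.Basis (Fin 2) B T) (g : Module.End B T) {t d : B}
    (h : LinearMap.charpoly g = X ^ 2 - C t * X + C d) :
    LinearMap.trace B T g = t ∧ LinearMap.det g = d := by
  rw [charpoly_eq_of_basis c g] at h
  have h1 := congrArg (fun P : B[X] => P.coeff 1) h
  have h0 := congrArg (fun P : B[X] => P.coeff 0) h
  simp only [coeff_add, coeff_sub, coeff_X_pow, coeff_C_mul, coeff_X_one, coeff_X_zero, coeff_C_zero,
    coeff_C_succ, mul_one, mul_zero] at h1 h0
  norm_num at h1 h0
  exact ⟨h1, h0⟩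

end Charpoly




section Krull

variable {A : Type*} [CommRing A] [IsLocalRing A] [IsNoetherianRing A]

/-- Krull: two elements of a noetherian local ring congruent modulo every power of the maximal
ideal are equal. -/
theorem eq_of_forall_sub_mem_pow {x y : A}
    (h : ∀ m : ℕ, x - y ∈ IsLocalRing.maximalIdeal A ^ m) : x = y := by
  have h1 : x - y ∈ ⨅ m : ℕ, IsLocalRing.maximalIdeal A ^ m := by
    rw [Ideal.mem_iInf]
    exact h
  rw [Ideal.iInf_pow_eq_bot_of_isLocalRing _ (IsLocalRing.maximalIdeal.isMaximal A).ne_top,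
    Ideal.mem_bot] at h1
  exact sub_eq_zero.mp h1

end Krull

section AdicCharpoly

variable {A : Type} [CommRing A] [IsLocalRing A]

/-- The characteristic polynomial of `ρ(σ)` in terms of trace and determinant. -/
theorem charpoly_adic (ρ : GaloisRepAdic A) (σ : Γ) :
    LinearMap.charpoly (ρ.ρ σ) =
      X ^ 2 - C (LinearMap.trace A ρ.V (ρ.ρ σ)) * X + C (LinearMap.det (ρ.ρ σ)) := by
  rw [← LinearMap.charpoly_toMatrix (ρ.ρ σ) (Module.finBasisOfFinrankEq A ρ.V ρ.finrank_eq),
    Matrix.charpoly_fin_two, ← LinearMap.trace_eq_matrix_trace A, LinearMap.det_toMatrix]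

/-- Trace and determinant of `ρ(σ)` from its characteristic polynomial. -/
theorem trace_det_adic_of_charpoly (ρ : GaloisRepAdic A) (σ : Γ) {t d : A}
    (h : LinearMap.charpoly (ρ.ρ σ) = X ^ 2 - C t * X + C d) :
    LinearMap.trace A ρ.V (ρ.ρ σ) = t ∧ LinearMap.det (ρ.ρ σ) = d := by
  rw [charpoly_adic ρ σ] at h
  have h1 := congrArg (fun P : A[X] => P.coeff 1) h
  have h0 := congrArg (fun P : A[X] => P.coeff 0) h
  simp only [coeff_add, coeff_sub, coeff_X_pow, coeff_C_mul, coeff_X_one, coeff_X_zero, coeff_C_zero,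
    coeff_C_succ, mul_one, mul_zero] at h1 h0
  norm_num at h1 h0
  exact ⟨h1, h0⟩

/-- **Krull corollary (unipotence).**  If trace and determinant of `ρ(σ)` are congruent to `2` and
`1` modulo every power of the maximal ideal, then `charpoly ρ(σ) = (X - 1)²`. -/
theorem charpoly_eq_sq_of_forall [IsNoetherianRing A] (ρ : GaloisRepAdic A) (σ : Γ)
    (h : ∀ m : ℕ, LinearMap.trace A ρ.V (ρ.ρ σ) - 2 ∈ IsLocalRing.maximalIdeal A ^ m ∧
      LinearMap.det (ρ.ρ σ) - 1 ∈ IsLocalRing.maximalIdeal A ^ m) :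
    LinearMap.charpoly (ρ.ρ σ) = (X - 1) ^ 2 := by
  have ht : LinearMap.trace A ρ.V (ρ.ρ σ) = 2 := eq_of_forall_sub_mem_pow fun m => (h m).1
  have hd : LinearMap.det (ρ.ρ σ) = 1 := eq_of_forall_sub_mem_pow fun m => (h m).2
  rw [charpoly_adic ρ σ, ht, hd]
  simp only [map_ofNat, map_one]
  ring

/-- The residual representation has the reduced trace. -/
theorem trace_residual (ρ : GaloisRepAdic A) (σ : Γ) :
    LinearMap.trace (IsLocalRing.ResidueField A) ρ.residual.V (ρ.residual.ρ σ) =
      IsLocalRing.residue A (LinearMap.trace A ρ.V (ρ.ρ σ)) :=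
  LinearMap.trace_baseChange (ρ.ρ σ) (IsLocalRing.ResidueField A)

/-- The residual representation has the reduced determinant. -/
theorem det_residual (ρ : GaloisRepAdic A) (σ : Γ) :
    LinearMap.det (ρ.residual.ρ σ) = IsLocalRing.residue A (LinearMap.det (ρ.ρ σ)) :=
  LinearMap.det_baseChange (ρ.ρ σ)

/-- The residual representation has the reduced characteristic polynomial. -/
theorem charpoly_residual (ρ : GaloisRepAdic A) (σ : Γ) :
    LinearMap.charpoly (ρ.residual.ρ σ) =
      (LinearMap.charpoly (ρ.ρ σ)).map (IsLocalRing.residue A) :=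
  LinearMap.charpoly_baseChange (ρ.ρ σ) (IsLocalRing.ResidueField A)

end AdicCharpoly


section HomFree

variable {A : Type} [CommRing A] [IsLocalRing A]

/-- **(\*) charpoly comparison, one level, hom-free form.**  `T` a module over `ZMod n` with a basis
of two elements (`T = W[p^m]`, `n = p^m`), `n ∈ 𝔪^m`, `r` a representation on `T` factoring through
a finite level, `a : ℕ → ℤ`.  If at every Frobenius element `φ` at a prime `l ∉ S₀` both `ρ(φ)` and
`r(φ)` have trace `a l` and determinant `l`, then for EVERY `σ` there are integers `t`, `d` with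
`tr r(σ) = t`, `det r(σ) = d` in `ZMod n` and `tr ρ(σ) ≡ t`, `det ρ(σ) ≡ d` modulo `𝔪^m`. -/
theorem exists_int_trace_det (ρ : GaloisRepAdic A) (m : ℕ) {n : ℕ}
    (hn : ((n : ℕ) : A) ∈ IsLocalRing.maximalIdeal A ^ m)
    {T : Type} [AddCommGroup T] [Module (ZMod n) T] (c : Module.Basis (Fin 2) (ZMod n) T)
    (r : Γ →* Module.End (ZMod n) T) (hr : GaloisFactorsThroughFiniteLevel r) (S₀ : Finset ℕ)
    (a : ℕ → ℤ)
    (hρ : ∀ l : ℕ, l.Prime → l ∉ S₀ → ∀ P : ValuationSubring Qbar, P.LiesOverPrime l →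
      ∀ φ : Γ, P.IsFrobeniusAt φ l →
        LinearMap.trace A ρ.V (ρ.ρ φ) = ((a l : ℤ) : A) ∧ LinearMap.det (ρ.ρ φ) = ((l : ℕ) : A))
    (hr' : ∀ l : ℕ, l.Prime → l ∉ S₀ → ∀ P : ValuationSubring Qbar, P.LiesOverPrime l →
      ∀ φ : Γ, P.IsFrobeniusAt φ l →
        LinearMap.trace (ZMod n) T (r φ) = ((a l : ℤ) : ZMod n) ∧
          LinearMap.det (r φ) = ((l : ℕ) : ZMod n))
    (σ : Γ) :
    ∃ t d : ℤ, LinearMap.trace (ZMod n) T (r σ) = ((t : ℤ) : ZMod n) ∧
      LinearMap.det (r σ) = ((d : ℤ) : ZMod n) ∧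
      LinearMap.trace A ρ.V (ρ.ρ σ) - ((t : ℤ) : A) ∈ IsLocalRing.maximalIdeal A ^ m ∧
      LinearMap.det (ρ.ρ σ) - ((d : ℤ) : A) ∈ IsLocalRing.maximalIdeal A ^ m := by
  have hn0 : ((n : ℕ) : A ⧸ IsLocalRing.maximalIdeal A ^ m) = 0 := by
    rw [← map_natCast (Ideal.Quotient.mk (IsLocalRing.maximalIdeal A ^ m))]
    exact Ideal.Quotient.eq_zero_iff_mem.mpr hn
  obtain ⟨h1, h2⟩ := trace_det_mod_eq_of_frobenius ρ m c r hr
    (zmodHom n (A ⧸ IsLocalRing.maximalIdeal A ^ m) hn0) S₀
    (fun l hl hlS P hP φ hφ => by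
      obtain ⟨e1, e2⟩ := hρ l hl hlS P hP φ hφ
      obtain ⟨e3, e4⟩ := hr' l hl hlS P hP φ hφ
      rw [e1, e2, e3, e4, map_intCast, map_intCast, map_natCast, map_natCast]
      exact ⟨rfl, rfl⟩) σ
  obtain ⟨t, ht⟩ := ZMod.intCast_surjective (LinearMap.trace (ZMod n) T (r σ))
  obtain ⟨d, hd⟩ := ZMod.intCast_surjective (LinearMap.det (r σ))
  refine ⟨t, d, ht.symm, hd.symm, ?_, ?_⟩
  · rw [← Ideal.Quotient.eq_zero_iff_mem, map_sub, h1, ← ht, map_intCast, map_intCast, sub_self]
  · rw [← Ideal.Quotient.eq_zero_iff_mem, map_sub, h2, ← hd, map_intCast, map_intCast, sub_self]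

/-- The same with the Frobenius condition on `ρ` in the charpoly shape of S35/S36. -/
theorem exists_int_trace_det_of_charpoly (ρ : GaloisRepAdic A) (m : ℕ) {n : ℕ}
    (hn : ((n : ℕ) : A) ∈ IsLocalRing.maximalIdeal A ^ m)
    {T : Type} [AddCommGroup T] [Module (ZMod n) T] (c : Module.Basis (Fin 2) (ZMod n) T)
    (r : Γ →* Module.End (ZMod n) T) (hr : GaloisFactorsThroughFiniteLevel r) (S₀ : Finset ℕ)
    (a : ℕ → ℤ)
    (hρ : ∀ l : ℕ, l.Prime → l ∉ S₀ → ∀ P : ValuationSubring Qbar, P.LiesOverPrime l →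
      ∀ φ : Γ, P.IsFrobeniusAt φ l →
        LinearMap.charpoly (ρ.ρ φ) = X ^ 2 - C ((a l : ℤ) : A) * X + C ((l : ℕ) : A))
    (hr' : ∀ l : ℕ, l.Prime → l ∉ S₀ → ∀ P : ValuationSubring Qbar, P.LiesOverPrime l →
      ∀ φ : Γ, P.IsFrobeniusAt φ l →
        LinearMap.trace (ZMod n) T (r φ) = ((a l : ℤ) : ZMod n) ∧
          LinearMap.det (r φ) = ((l : ℕ) : ZMod n))
    (σ : Γ) :
    ∃ t d : ℤ, LinearMap.trace (ZMod n) T (r σ) = ((t : ℤ) : ZMod n) ∧
      LinearMap.det (r σ) = ((d : ℤ) : ZMod n) ∧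
      LinearMap.trace A ρ.V (ρ.ρ σ) - ((t : ℤ) : A) ∈ IsLocalRing.maximalIdeal A ^ m ∧
      LinearMap.det (ρ.ρ σ) - ((d : ℤ) : A) ∈ IsLocalRing.maximalIdeal A ^ m :=
  exists_int_trace_det ρ m hn c r hr S₀ a
    (fun l hl hlS P hP φ hφ => trace_det_adic_of_charpoly ρ φ (hρ l hl hlS P hP φ hφ)) hr' σ

/-- Residual form: a congruence modulo `𝔪` (`= 𝔪^1`) is an equality for the residual
representation. -/
theorem trace_residual_eq_of_sub_mem (ρ : GaloisRepAdic A) (σ : Γ) {t : ℤ}
    (h : LinearMap.trace A ρ.V (ρ.ρ σ) - ((t : ℤ) : A) ∈ IsLocalRing.maximalIdeal A ^ 1) :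
    LinearMap.trace (IsLocalRing.ResidueField A) ρ.residual.V (ρ.residual.ρ σ) =
      ((t : ℤ) : IsLocalRing.ResidueField A) := by
  rw [pow_one] at h
  rw [trace_residual, ← sub_eq_zero, ← map_intCast (IsLocalRing.residue A), ← map_sub]
  exact (IsLocalRing.residue_eq_zero_iff _).mpr h

theorem det_residual_eq_of_sub_mem (ρ : GaloisRepAdic A) (σ : Γ) {d : ℤ}
    (h : LinearMap.det (ρ.ρ σ) - ((d : ℤ) : A) ∈ IsLocalRing.maximalIdeal A ^ 1) :
    LinearMap.det (ρ.residual.ρ σ) = ((d : ℤ) : IsLocalRing.ResidueField A) := by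
  rw [pow_one] at h
  rw [det_residual, ← sub_eq_zero, ← map_intCast (IsLocalRing.residue A), ← map_sub]
  exact (IsLocalRing.residue_eq_zero_iff _).mpr h

/-- Krull, integer form: a trace congruent to a FIXED integer modulo every `𝔪^m` equals it. -/
theorem trace_eq_intCast_of_forall [IsNoetherianRing A] (ρ : GaloisRepAdic A) (σ : Γ) {t : ℤ}
    (h : ∀ m : ℕ, LinearMap.trace A ρ.V (ρ.ρ σ) - ((t : ℤ) : A) ∈ IsLocalRing.maximalIdeal A ^ m) :
    LinearMap.trace A ρ.V (ρ.ρ σ) = ((t : ℤ) : A) :=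
  eq_of_forall_sub_mem_pow h

end HomFree

end Fermat.Agent.S58.Form.Compare
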