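/-
S58, blocks [F1] + [F2] (helper6): **the newform of minimal level and its eigencharacter.**

* [F1] `exists_newform_of_eigenform` : a normalised eigenform `f` of level `N ≠ 0` shares its good
  eigensystem (`a_ℓ`, `ℓ ∤ N`) with a prelude-`IsNewform` `g₀` of some level `M ∣ N` (a
  divisibility-minimal level at which the good eigensystem occurs);
  `exists_newform_of_isModularModelOfLevel` : the same for `W.IsModularModelOfLevel N`.
* [F2] a normalised eigenform is an eigenvector of EVERY element of the Hecke algebra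
  `heckeAlgebra M 2 S` (generators `T_ℓ`, `ℓ ∤ M`, and `U_q`, `q ∣ M`), and the eigenvalue map is a
  ring homomorphism `chig : heckeAlgebra M 2 S →+* ℂ` with `chig (T ℓ) = a_ℓ(g)` — the data
  `(chig, hchig)` of the frozen statements S35 / S36.
-/
import Mathlib
import Fermat.Prelude.Def_CuspForm_Newforms
import Fermat.Prelude.Def_CuspForm_HeckeAlgebra
import Fermat.Agent.N4F.Tors.PeriodHecke

set_option autoImplicit false
set_option linter.unusedSectionVars false
set_option linter.unusedVariables false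
set_option linter.style.haveILetI false

open ModularFormClass CongruenceSubgroup CuspForm Fermat.Agent.S49
open Fermat.Agent.N4F.Tors.PeriodHecke UpperHalfPlane

noncomputable section

namespace Fermat.Agent.S58.Form.MinimalLevel

/-! ### [F1] the newform of minimal level -/

section Minimal

/-- **[F1]** A normalised eigenform of level `N ≠ 0` shares its good eigensystem with a newform of
a level `M ∣ N`. -/
theorem exists_newform_of_eigenform {N : ℕ} (hN : N ≠ 0) {f : CuspForm (Gamma0 N) 2}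
    (hf : f.IsNormalizedEigenform) :
    ∃ M : ℕ, M ∣ N ∧ M ≠ 0 ∧ ∃ g : CuspForm (Gamma0 M) 2, g.IsNewform ∧
      ∀ ℓ : ℕ, ℓ.Prime → ¬ ℓ ∣ N → qCoeff g ℓ = qCoeff f ℓ := by
  classical
  -- the set of levels `M ∣ N` at which the good eigensystem occurs
  let P : ℕ → Prop := fun M => M ∣ N ∧ GoodEigensystemOccursAt f M
  have hP : ∃ M, P M := ⟨N, dvd_rfl, GoodEigensystemOccursAt.refl hf⟩
  obtain ⟨hMN, g, hg, hgf⟩ := Nat.find_spec hP
  have hM0 : Nat.find hP ≠ 0 := fun h0 => hN (by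
    have := hMN
    rw [h0] at this
    exact zero_dvd_iff.1 this)
  refine ⟨Nat.find hP, hMN, hM0, g, ⟨hg, ?_⟩, hgf⟩
  rintro M' hM'M hne ⟨g', hg', hg'g⟩
  have hlt : M' < Nat.find hP :=
    lt_of_le_of_ne (Nat.le_of_dvd (Nat.pos_of_ne_zero hM0) hM'M) hne
  refine Nat.find_min hP hlt ⟨hM'M.trans hMN, g', hg', fun ℓ hℓ hℓN => ?_⟩
  rw [hg'g ℓ hℓ (fun h => hℓN (h.trans hMN)), hgf ℓ hℓ hℓN]

/-- **[F1] for a modular Weierstrass model.** -/
theorem exists_newform_of_isModularModelOfLevel {W : WeierstrassCurve ℤ} {N : ℕ} (hN0 : N ≠ 0)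
    (hN : W.IsModularModelOfLevel N) :
    ∃ M : ℕ, M ∣ N ∧ M ≠ 0 ∧ ∃ g : CuspForm (Gamma0 M) 2, g.IsNewform ∧
      ∀ ℓ : ℕ, ℓ.Prime → W.IsGoodPrimeFor ℓ → ¬ ℓ ∣ N → qCoeff g ℓ = (W.apOfModel ℓ : ℂ) := by
  obtain ⟨f, hf, hfW⟩ := hN
  obtain ⟨M, hMN, hM0, g, hg, hgf⟩ := exists_newform_of_eigenform hN0 hf
  exact ⟨M, hMN, hM0, g, hg, fun ℓ hℓ hgood hℓN => (hgf ℓ hℓ hℓN).trans (hfW ℓ hℓ hgood hℓN)⟩

end Minimal

/-! ### [F2] the eigencharacter -/

section Eigen

variable {M : ℕ}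

/-- `a_{n q} = a_q a_n` for `q ∣ M`. -/
theorem qCoeff_mul_prime_of_dvd {g : CuspForm (Gamma0 M) 2} (hg : g.IsNormalizedEigenform)
    {q : ℕ} (hq : q.Prime) (hqM : q ∣ M) (n : ℕ) :
    qCoeff g (n * q) = qCoeff g q * qCoeff g n := by
  rcases Nat.eq_zero_or_pos n with rfl | hn
  · rw [zero_mul, qCoeff_zero_cuspForm, mul_zero]
  obtain ⟨r, m, hm, rfl⟩ := Nat.exists_eq_pow_mul_and_not_dvd hn.ne' q hq.ne_one
  have hcop : ∀ k : ℕ, (q ^ k).Coprime m :=
    fun k => Nat.Coprime.pow_left k ((Nat.Prime.coprime_iff_not_dvd hq).mpr hm)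
  have h1 : q ^ r * m * q = q ^ (r + 1) * m := by ring
  rw [h1, hg.qCoeff_mul_of_coprime _ _ (hcop _), hg.qCoeff_mul_of_coprime _ _ (hcop _)]
  cases r with
  | zero => rw [zero_add, pow_one, pow_zero, hg.qCoeff_one]; ring
  | succ s =>
    rw [hg.qCoeff_prime_pow_of_dvd q s hq hqM]
    ring

/-- A normalised eigenform of level `M` is an eigenvector of `U_q`, `q ∣ M`, with eigenvalue its
`q`-th `q`-coefficient. -/
theorem heckeULin_eq_smul [NeZero M] {g : CuspForm (Gamma0 M) 2} (hg : g.IsNormalizedEigenform)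
    {q : ℕ} (hq : q.Prime) (hqM : q ∣ M) :
    CuspForm.heckeULin 2 hqM g = qCoeff g q • g := by
  have hsub : CuspForm.heckeULin 2 hqM g - qCoeff g q • g = 0 := by
    apply cuspForm_eq_zero_of_qCoeff
    intro n
    have hΓ := one_mem_strictPeriods_Gamma0 M
    have hcoe : (⇑(CuspForm.heckeULin 2 hqM g - qCoeff g q • g) : ℍ → ℂ) =
        ⇑(CuspForm.heckeULin 2 hqM g) - ⇑(qCoeff g q • g) := rfl
    have hsubq := ModularForm.qExpansion_sub (h := 1) one_pos hΓ
      (CuspForm.heckeULin 2 hqM g) (qCoeff g q • g)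
    rw [qCoeff, hcoe, hsubq, map_sub]
    have h1 := qCoeff_heckeULin_cuspForm hq hqM g n
    have h2 := qCoeff_smul_cuspForm (qCoeff g q) g n
    rw [qCoeff] at h1 h2
    rw [h1, h2, ModularForm.coeffHeckeU_apply, qCoeff_mul_prime_of_dvd hg hq hqM, sub_self]
  exact sub_eq_zero.mp hsub

variable [NeZero M] (S : Set ℕ)

/-- A normalised eigenform is an eigenvector of every element of the Hecke algebra. -/
theorem exists_eigenvalue {g : CuspForm (Gamma0 M) 2} (hg : g.IsNormalizedEigenform)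
    (T : heckeAlgebra M 2 S) :
    ∃ c : ℂ, (T : Module.End ℂ (CuspForm (Gamma0 M) 2)) g = c • g := by
  obtain ⟨T, hT⟩ := T
  show ∃ c : ℂ, T g = c • g
  induction hT using Algebra.adjoin_induction with
  | mem x hx =>
    rcases hx with ⟨ℓ, hℓ, hℓM, -, rfl⟩ | ⟨q, hqM, hq, -, rfl⟩
    · exact ⟨_, heckeTLin_eq_smul hg hℓ hℓM⟩
    · exact ⟨_, heckeULin_eq_smul hg hq hqM⟩
  | algebraMap n =>
    refine ⟨(n : ℂ), ?_⟩
    rw [Algebra.algebraMap_eq_smul_one, LinearMap.smul_apply, Module.End.one_apply]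
    exact (Int.cast_smul_eq_zsmul ℂ n g).symm
  | add x y _ _ hx hy =>
    obtain ⟨a, ha⟩ := hx
    obtain ⟨b, hb⟩ := hy
    exact ⟨a + b, by rw [LinearMap.add_apply, ha, hb, add_smul]⟩
  | mul x y _ _ hx hy =>
    obtain ⟨a, ha⟩ := hx
    obtain ⟨b, hb⟩ := hy
    exact ⟨a * b, by rw [Module.End.mul_apply, hb, map_smul, ha, smul_smul, mul_comm]⟩

/-- The eigenvalue of `T` on `g`. -/
def eigenvalue {g : CuspForm (Gamma0 M) 2} (hg : g.IsNormalizedEigenform)
    (T : heckeAlgebra M 2 S) : ℂ := (exists_eigenvalue S hg T).choose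

theorem apply_eq_eigenvalue_smul {g : CuspForm (Gamma0 M) 2} (hg : g.IsNormalizedEigenform)
    (T : heckeAlgebra M 2 S) :
    (T : Module.End ℂ (CuspForm (Gamma0 M) 2)) g = eigenvalue S hg T • g :=
  (exists_eigenvalue S hg T).choose_spec

theorem eigenvalue_eq {g : CuspForm (Gamma0 M) 2} (hg : g.IsNormalizedEigenform)
    (T : heckeAlgebra M 2 S) {c : ℂ}
    (h : (T : Module.End ℂ (CuspForm (Gamma0 M) 2)) g = c • g) : eigenvalue S hg T = c := by
  have h1 := apply_eq_eigenvalue_smul S hg T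
  rw [h] at h1
  exact (smul_left_injective ℂ hg.ne_zero h1).symm

/-- **[F2]** The eigencharacter of a normalised eigenform. -/
def chig {g : CuspForm (Gamma0 M) 2} (hg : g.IsNormalizedEigenform) :
    heckeAlgebra M 2 S →+* ℂ where
  toFun := eigenvalue S hg
  map_one' := eigenvalue_eq S hg 1 (by
    show (1 : Module.End ℂ (CuspForm (Gamma0 M) 2)) g = (1 : ℂ) • g
    rw [Module.End.one_apply, one_smul])
  map_mul' a b := eigenvalue_eq S hg (a * b) (by
    show ((a : Module.End ℂ (CuspForm (Gamma0 M) 2)) *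
      (b : Module.End ℂ (CuspForm (Gamma0 M) 2))) g = (eigenvalue S hg a * eigenvalue S hg b) • g
    rw [Module.End.mul_apply, apply_eq_eigenvalue_smul S hg b, map_smul,
      apply_eq_eigenvalue_smul S hg a, smul_smul, mul_comm])
  map_zero' := eigenvalue_eq S hg 0 (by
    show (0 : Module.End ℂ (CuspForm (Gamma0 M) 2)) g = (0 : ℂ) • g
    rw [LinearMap.zero_apply, zero_smul])
  map_add' a b := eigenvalue_eq S hg (a + b) (by
    show ((a : Module.End ℂ (CuspForm (Gamma0 M) 2)) +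
      (b : Module.End ℂ (CuspForm (Gamma0 M) 2))) g = (eigenvalue S hg a + eigenvalue S hg b) • g
    rw [LinearMap.add_apply, apply_eq_eigenvalue_smul S hg a, apply_eq_eigenvalue_smul S hg b,
      add_smul])

theorem apply_eq_chig_smul {g : CuspForm (Gamma0 M) 2} (hg : g.IsNormalizedEigenform)
    (T : heckeAlgebra M 2 S) :
    (T : Module.End ℂ (CuspForm (Gamma0 M) 2)) g = chig S hg T • g :=
  apply_eq_eigenvalue_smul S hg T

/-- **`hchig`** of the frozen statements S35 / S36. -/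
theorem chig_T {g : CuspForm (Gamma0 M) 2} (hg : g.IsNormalizedEigenform)
    (ℓ : ℕ) (hℓ : ℓ.Prime) (hℓM : ¬ ℓ ∣ M) (hℓS : ℓ ∉ S) :
    chig S hg (heckeAlgebra.T hℓ hℓM hℓS) = qCoeff g ℓ :=
  eigenvalue_eq S hg _ (heckeTLin_eq_smul hg hℓ hℓM)

theorem chig_U {g : CuspForm (Gamma0 M) 2} (hg : g.IsNormalizedEigenform)
    (q : ℕ) (hq : q.Prime) (hqM : q ∣ M) (hqS : q ∉ S) :
    chig S hg (heckeAlgebra.U hq hqM hqS) = qCoeff g q :=
  eigenvalue_eq S hg _ (heckeULin_eq_smul hg hq hqM)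

end Eigen

end Fermat.Agent.S58.Form.MinimalLevel
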