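/-
S58 (helper26): **the `hmatch` hypothesis of `S58/Top.lean` (helper7) and the statement of S58, from
the six named interface hypotheses** (helper7's frozen consumer shapes, board #1896):

* `S36Statement`                                  — the frozen S36 (`Fermat.Agent.S36.result`);
* `GoodInertiaHyp W`, `GoodFrobHyp W`  (I-G)      — EC-G (helper4);
* `MultInertiaHyp W`                   (I-U)      — EC-U (helper8);
* `AdicCompareHyp W`                   (I-F4)     — F4 (helper3 / helper5);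
* `hdetcyc`                            EC-DET(E)  — `det (σ | W[p]) = χ_cyc(σ)` (helper17).

Everything else is on main: F1/F2 (`MinimalLevel`), F3 (`CompleteDVR`), F5 (`Hres.hres_of_IF4`),
F6/F7 (`LevelMatch`), the provider `CompareHypOfEC.compareHyp_of_ec`, F8 (`Stab`), F9 (`Top`).
-/
import Mathlib
import Fermat.Agent.S58.Form.LevelMatch
import Fermat.Agent.S58.Form.CompareHypOfEC
import Fermat.Agent.S58.Form.Hres
import Fermat.Agent.S58.Form.MinimalLevel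
import Fermat.Agent.S58.Top

set_option autoImplicit false
set_option linter.unusedSectionVars false
set_option linter.unusedVariables false
set_option linter.style.haveILetI false

open WeierstrassCurve CuspForm ModularFormClass CongruenceSubgroup

namespace Fermat.Agent.S58.Form.LevelMatchTop

open Fermat.Agent.S58.Form.LevelMatch Fermat.Agent.S58.Form.CompareHypOfEC
open Fermat.Agent.S58.Form.Hres ExtCitation

local notation "Qbar" => AlgebraicClosure ℚ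
local notation "Γ" => (AlgebraicClosure ℚ ≃ₐ[ℚ] AlgebraicClosure ℚ)

/-- (F2) Every normalised eigenform has its eigencharacters. -/
theorem hasEigenchar {M : ℕ} [NeZero M] {g : CuspForm (Gamma0 M) 2}
    (hg : g.IsNormalizedEigenform) : HasEigenchar g := fun S =>
  ⟨MinimalLevel.chig (↑S : Set ℕ) hg, fun ℓ hℓ hℓM hℓS =>
    MinimalLevel.chig_T (↑S : Set ℕ) hg ℓ hℓ hℓM hℓS⟩

/-- (F5) `ResidualHyp W p` from `hirr`, EC-DET(E) and (I-F4) at `m = 1`. -/
theorem residualHyp (W : WeierstrassCurve ℤ) (hΔ : W.Δ ≠ 0) (p : ℕ) [Fact p.Prime] (hp2 : p ≠ 2)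
    (hirr : W.ModRepIsIrreducible p)
    (hdetcyc : ∀ s, LinearMap.det (rW p W s) = ((cycloChar p s : (ZMod p)ˣ) : ZMod p))
    (hF4 : AdicCompareHyp W) : ResidualHyp W p := by
  intro A _ _ _ _ _ _ hpA ρ T hfm
  exact hres_of_IF4 p W hp2 hΔ hirr hdetcyc hpA ρ (fun σ => hF4 p hp2 A hpA ρ T hfm 1 σ)

/-- **The hypothesis `hmatch` of `Top.isModularModelOfLevel_conductorLevel`** (helper7's (I-F67)),
from the frozen hypotheses of S58 and the six interface hypotheses. -/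
theorem hmatch (W : WeierstrassCurve ℤ) (hss : W.IsSemistableModel) {N : ℕ}
    (p : ℕ) [Fact p.Prime] (hp2 : p ≠ 2) (hirr : W.ModRepIsIrreducible p)
    (hp2N : ¬ p ^ 2 ∣ N)
    (hbad : ∀ ℓ : ℕ, ℓ.Prime → (ℓ : ℤ) ∣ W.Δ → ℓ ∣ N)
    (hN3 : ∀ q : ℕ, q.Prime → ¬ q ^ 3 ∣ N)
    (hS36 : S36Statement) (hG1 : GoodInertiaHyp W) (hG2 : GoodFrobHyp W)
    (hU : MultInertiaHyp W) (hF4 : AdicCompareHyp W)
    (hdetcyc : ∀ s, LinearMap.det (rW p W s) = ((cycloChar p s : (ZMod p)ˣ) : ZMod p)) :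
    ∀ (M : ℕ) [NeZero M], M ∣ N → ∀ g : CuspForm (Gamma0 M) 2, g.IsNewform →
      (∀ ℓ : ℕ, ℓ.Prime → W.IsGoodPrimeFor ℓ → ¬ ℓ ∣ N → qCoeff g ℓ = (W.apOfModel ℓ : ℂ)) →
        M ∣ W.conductorLevel ∧
          ∀ ℓ : ℕ, ℓ.Prime → W.IsGoodPrimeFor ℓ → ¬ ℓ ∣ M → qCoeff g ℓ = (W.apOfModel ℓ : ℂ) := by
  intro M _ hMN g hg hgW
  have hN0 : N ≠ 0 := Top.level_ne_zero hN3
  have hΔ : W.Δ ≠ 0 := Top.delta_ne_zero W hN0 hbad
  have ha : ∀ ℓ : ℕ, ℓ.Prime → ¬ ℓ ∣ N → qCoeff g ℓ = ((W.apOfModel ℓ : ℤ) : ℂ) :=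
    fun ℓ hℓ hℓN => hgW ℓ hℓ (fun h => hℓN (hbad ℓ hℓ h)) hℓN
  have hchi : HasEigenchar g := hasEigenchar hg.1
  have hcmp : CompareHyp W := compareHyp_of_ec W hss hΔ hG1 hG2 hU hF4
  have hres : ResidualHyp W p := residualHyp W hΔ p hp2 hirr hdetcyc hF4
  refine ⟨(level_dvd_conductorLevel W hN3 hbad hMN hg ha hchi hcmp hS36 hp2 hp2N hres).2, ?_⟩
  intro ℓ hℓ hgood _
  exact qCoeff_eq_apOfModel W hN3 hMN hg ha hchi hcmp hS36 hp2 hp2N hres hℓ hgood

/-- **The statement of S58 from the six interface hypotheses.** -/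
theorem isModularModelOfLevel_conductorLevel (W : WeierstrassCurve ℤ) (hss : W.IsSemistableModel)
    (N : ℕ) (p : ℕ) [Fact p.Prime] (hp2 : p ≠ 2) (hirr : W.ModRepIsIrreducible p)
    (hp2N : ¬ p ^ 2 ∣ N)
    (hN : W.IsModularModelOfLevel N) (hbad : ∀ ℓ : ℕ, ℓ.Prime → (ℓ : ℤ) ∣ W.Δ → ℓ ∣ N)
    (hN3 : ∀ q : ℕ, q.Prime → ¬ q ^ 3 ∣ N)
    (hS36 : S36Statement) (hG1 : GoodInertiaHyp W) (hG2 : GoodFrobHyp W)
    (hU : MultInertiaHyp W) (hF4 : AdicCompareHyp W)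
    (hdetcyc : ∀ s, LinearMap.det (rW p W s) = ((cycloChar p s : (ZMod p)ˣ) : ZMod p)) :
    W.IsModularModelOfLevel W.conductorLevel :=
  Top.isModularModelOfLevel_conductorLevel W (Top.level_ne_zero hN3) hN
    (hmatch W hss p hp2 hirr hp2N hbad hN3 hS36 hG1 hG2 hU hF4 hdetcyc)

end Fermat.Agent.S58.Form.LevelMatchTop
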