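import Mathlib
import Fermat.Agent.N4.FrobDensity.Dickson

/-!
# S58, block [F4], abstract part: characteristic polynomials from Frobenius elements to all elements

* `trace_pow_fin_two` : for a `2 × 2` matrix `M` over a commutative ring,
  `tr (M ^ m) = D_m(tr M, det M)` (Dickson sequence of `N4/FrobDensity/Dickson`);
* `charpoly_pow_fin_two` : `charpoly (M ^ m) = X² - D_m(tr M, det M) X + (det M) ^ m`;
* `charpoly_pow_eq_of_charpoly_eq` : equal characteristic polynomials ⇒ the same for all powers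
  (matrices, and endomorphisms of free modules of rank `2`);
* `charpoly_eq_of_frobenius(_matrix)` : two `2`-dimensional representations of `Gal(ℚ̄/ℚ)` over a
  commutative ring `R`, both trivial on `Gal(ℚ̄/L)` for a finite Galois `L/ℚ`, whose characteristic
  polynomials agree at all Frobenius elements outside a finite set of primes, have the same
  characteristic polynomial at EVERY element (weak Chebotarev `exists_isFrobeniusAt_pow_eq`).
-/

set_option autoImplicit false
set_option linter.unusedSectionVars false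
set_option linter.style.haveILetI false

open Polynomial Matrix

namespace Fermat.Agent.S58.Form.CompareAbs

open Fermat.Agent.N4.FrobDensity

section Matrix2

variable {R : Type*} [CommRing R]

/-- Cayley–Hamilton for `2 × 2` matrices, explicit. -/
theorem sq_fin_two (M : Matrix (Fin 2) (Fin 2) R) :
    M * M = M.trace • M - M.det • (1 : Matrix (Fin 2) (Fin 2) R) := by
  ext i j
  fin_cases i <;> fin_cases j <;>
    simp [Matrix.mul_apply, Fin.sum_univ_two, Matrix.trace_fin_two, Matrix.det_fin_two] <;> ring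

theorem pow_add_two_fin_two (M : Matrix (Fin 2) (Fin 2) R) (k : ℕ) :
    M ^ (k + 2) = M.trace • M ^ (k + 1) - M.det • M ^ k := by
  rw [pow_add, pow_two, sq_fin_two, mul_sub, mul_smul_comm, mul_smul_comm, mul_one, ← pow_succ]

/-- `tr (M ^ m) = D_m(tr M, det M)`. -/
theorem trace_pow_fin_two (M : Matrix (Fin 2) (Fin 2) R) (m : ℕ) :
    (M ^ m).trace = dicksonSeq M.trace M.det m := by
  induction m using Nat.twoStepInduction with
  | zero =>
    rw [pow_zero, dicksonSeq_zero, Matrix.trace_one, Fintype.card_fin]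
    norm_num
  | one => rw [pow_one, dicksonSeq_one]
  | more k ih0 ih1 =>
    rw [pow_add_two_fin_two, Matrix.trace_sub, Matrix.trace_smul, Matrix.trace_smul, ih0, ih1,
      dicksonSeq_add_two, smul_eq_mul, smul_eq_mul]

/-- `charpoly (M ^ m) = X² - D_m(tr M, det M) X + (det M) ^ m`. -/
theorem charpoly_pow_fin_two (M : Matrix (Fin 2) (Fin 2) R) (m : ℕ) :
    (M ^ m).charpoly = X ^ 2 - C (dicksonSeq M.trace M.det m) * X + C (M.det ^ m) := by
  rcases subsingleton_or_nontrivial R with hR | hR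
  · exact Subsingleton.elim _ _
  · rw [Matrix.charpoly_fin_two, trace_pow_fin_two, Matrix.det_pow]

theorem trace_eq_of_charpoly_eq {M₁ M₂ : Matrix (Fin 2) (Fin 2) R}
    (h : M₁.charpoly = M₂.charpoly) : M₁.trace = M₂.trace := by
  rw [Matrix.trace_eq_neg_charpoly_coeff, Matrix.trace_eq_neg_charpoly_coeff, h]

theorem det_eq_of_charpoly_eq {M₁ M₂ : Matrix (Fin 2) (Fin 2) R}
    (h : M₁.charpoly = M₂.charpoly) : M₁.det = M₂.det := by
  rw [Matrix.det_eq_sign_charpoly_coeff, Matrix.det_eq_sign_charpoly_coeff, h]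

/-- Equal characteristic polynomials ⇒ equal characteristic polynomials of all powers. -/
theorem charpoly_pow_eq_of_charpoly_eq_matrix {M₁ M₂ : Matrix (Fin 2) (Fin 2) R}
    (h : M₁.charpoly = M₂.charpoly) (m : ℕ) : (M₁ ^ m).charpoly = (M₂ ^ m).charpoly := by
  rw [charpoly_pow_fin_two, charpoly_pow_fin_two, trace_eq_of_charpoly_eq h,
    det_eq_of_charpoly_eq h]

end Matrix2

section End2

variable {R : Type*} [CommRing R]
  {V₁ V₂ : Type*} [AddCommGroup V₁] [Module R V₁] [Module.Free R V₁] [Module.Finite R V₁]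
  [AddCommGroup V₂] [Module R V₂] [Module.Free R V₂] [Module.Finite R V₂]

/-- Equal characteristic polynomials ⇒ the same for all powers, for endomorphisms of free modules
of rank `2` over a commutative ring. -/
theorem charpoly_pow_eq_of_charpoly_eq (h₁ : Module.finrank R V₁ = 2)
    (h₂ : Module.finrank R V₂ = 2) {f₁ : Module.End R V₁} {f₂ : Module.End R V₂}
    (h : f₁.charpoly = f₂.charpoly) (m : ℕ) : (f₁ ^ m).charpoly = (f₂ ^ m).charpoly := by
  rcases subsingleton_or_nontrivial R with hR | hR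
  · exact Subsingleton.elim _ _
  · let b₁ : Module.Basis (Fin 2) R V₁ := Module.finBasisOfFinrankEq R V₁ h₁
    let b₂ : Module.Basis (Fin 2) R V₂ := Module.finBasisOfFinrankEq R V₂ h₂
    rw [← LinearMap.charpoly_toMatrix (f₁ ^ m) b₁, ← LinearMap.charpoly_toMatrix (f₂ ^ m) b₂,
      ← LinearMap.toMatrix_pow, ← LinearMap.toMatrix_pow]
    apply charpoly_pow_eq_of_charpoly_eq_matrix
    rw [LinearMap.charpoly_toMatrix, LinearMap.charpoly_toMatrix, h]

end End2

/-! ### From Frobenius elements to all elements -/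

section Galois

local notation "Qbar" => AlgebraicClosure ℚ
local notation "Γ" => (AlgebraicClosure ℚ ≃ₐ[ℚ] AlgebraicClosure ℚ)

variable (L : IntermediateField ℚ Qbar) [FiniteDimensional ℚ L] [Normal ℚ L]

/-- a monoid hom from `Γ` which is trivial on `Gal(ℚ̄/L)` takes the same value on two elements
with the same restriction to `L`. -/
theorem map_eq_of_restrict_eq {Mo : Type*} [Monoid Mo] (ρ : Γ →* Mo)
    (hρ : ∀ γ : Γ, AlgEquiv.restrictNormalHom L γ = 1 → ρ γ = 1) {g g' : Γ}
    (h : AlgEquiv.restrictNormalHom L g = AlgEquiv.restrictNormalHom L g') : ρ g = ρ g' := by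
  have hker : AlgEquiv.restrictNormalHom L (g * g'⁻¹) = 1 := by
    rw [map_mul, map_inv, h, mul_inv_cancel]
  have h1 := hρ _ hker
  rw [map_mul] at h1
  calc ρ g = ρ g * (ρ g'⁻¹ * ρ g') := by rw [← map_mul, inv_mul_cancel, map_one, mul_one]
    _ = (ρ g * ρ g'⁻¹) * ρ g' := by rw [mul_assoc]
    _ = ρ g' := by rw [h1, one_mul]

variable {R : Type*} [CommRing R]

/-- **From Frobenius elements to all elements, matrix form.** -/
theorem charpoly_eq_of_frobenius_matrix (ρ₁ ρ₂ : Γ →* Matrix (Fin 2) (Fin 2) R)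
    (hρ₁ : ∀ γ : Γ, AlgEquiv.restrictNormalHom L γ = 1 → ρ₁ γ = 1)
    (hρ₂ : ∀ γ : Γ, AlgEquiv.restrictNormalHom L γ = 1 → ρ₂ γ = 1)
    (T : Finset ℕ)
    (hfrob : ∀ l : ℕ, l.Prime → l ∉ T → ∀ A : ValuationSubring Qbar, A.LiesOverPrime l →
      ∀ φ : Γ, A.IsFrobeniusAt φ l → (ρ₁ φ).charpoly = (ρ₂ φ).charpoly)
    (g : Γ) : (ρ₁ g).charpoly = (ρ₂ g).charpoly := by
  obtain ⟨l, hl, hlT, A, hlA, φ, hφ, m, hm⟩ := exists_isFrobeniusAt_pow_eq L g T
  rw [map_eq_of_restrict_eq L ρ₁ hρ₁ hm, map_eq_of_restrict_eq L ρ₂ hρ₂ hm, map_pow, map_pow]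
  exact charpoly_pow_eq_of_charpoly_eq_matrix (hfrob l hl hlT A hlA φ hφ) m

variable {V₁ V₂ : Type*} [AddCommGroup V₁] [Module R V₁] [Module.Free R V₁] [Module.Finite R V₁]
  [AddCommGroup V₂] [Module R V₂] [Module.Free R V₂] [Module.Finite R V₂]

/-- **From Frobenius elements to all elements**: two representations of `Gal(ℚ̄/ℚ)` on free
modules of rank `2` over `R`, trivial on `Gal(ℚ̄/L)`, whose characteristic polynomials agree at all
Frobenius elements at the primes outside `T`, have the same characteristic polynomials. -/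
theorem charpoly_eq_of_frobenius (h₁ : Module.finrank R V₁ = 2) (h₂ : Module.finrank R V₂ = 2)
    (ρ₁ : Γ →* Module.End R V₁) (ρ₂ : Γ →* Module.End R V₂)
    (hρ₁ : ∀ γ : Γ, AlgEquiv.restrictNormalHom L γ = 1 → ρ₁ γ = 1)
    (hρ₂ : ∀ γ : Γ, AlgEquiv.restrictNormalHom L γ = 1 → ρ₂ γ = 1)
    (T : Finset ℕ)
    (hfrob : ∀ l : ℕ, l.Prime → l ∉ T → ∀ A : ValuationSubring Qbar, A.LiesOverPrime l →
      ∀ φ : Γ, A.IsFrobeniusAt φ l → (ρ₁ φ).charpoly = (ρ₂ φ).charpoly)
    (g : Γ) : (ρ₁ g).charpoly = (ρ₂ g).charpoly := by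
  obtain ⟨l, hl, hlT, A, hlA, φ, hφ, m, hm⟩ := exists_isFrobeniusAt_pow_eq L g T
  rw [map_eq_of_restrict_eq L ρ₁ hρ₁ hm, map_eq_of_restrict_eq L ρ₂ hρ₂ hm, map_pow, map_pow]
  exact charpoly_pow_eq_of_charpoly_eq h₁ h₂ (hfrob l hl hlT A hlA φ hφ) m

end Galois

end Fermat.Agent.S58.Form.CompareAbs
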