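/-
S58, block [F4-K] (helper7): **assembly of `LevelMatch.CompareHyp W`.**

`CompareHyp W` (the hypothesis of helper26's `Form/LevelMatch.lean`) is derived from the three
frozen consumer shapes of the blocks

* (I-F4) `TorsCompare W` : the charpoly comparison of a `λ`-adic representation with the
  Frobenius charpolys of `W` against `W(ℚ̄)[λ^m]`, in the hom-free trace/det shape;
* (I-G)  `GoodHyp W`     : good reduction ⇒ inertia acts trivially on `W[n]` (`ℓ ∤ n`) and the
  Frobenius at `ℓ` has trace `a_ℓ(W)` and determinant `ℓ` on `W[p^k]`;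
* (I-U)  `MultHyp W`     : multiplicative reduction ⇒ inertia has trace `2`, determinant `1` on
  `W[p^k]`;

by the Krull intersection theorem in the DVR (`⋂ 𝔪^m = 0`).
-/
import Mathlib
import Fermat.Agent.S58.Form.LevelMatch
import Fermat.Agent.S58.EC.TorsionBasis
import Fermat.Agent.S58.EC.Red.IntModel

set_option autoImplicit false
set_option linter.unusedSectionVars false
set_option linter.unusedVariables false
set_option linter.style.haveILetI false

open Polynomial

noncomputable section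

namespace Fermat.Agent.S58.Form.CompareAssembly

open Fermat.Agent.S58.Form.LevelMatch WeierstrassCurve WeierstrassCurve.Affine

local notation "Qbar" => AlgebraicClosure ℚ
local notation "Γ" => (AlgebraicClosure ℚ ≃ₐ[ℚ] AlgebraicClosure ℚ)

/-- The Galois representation on `W(ℚ̄)[n]` (prelude carrier and module structure). -/
abbrev tors (W : WeierstrassCurve ℤ) (n : ℕ) :
    Γ →* Module.End (ZMod n)
      (Submodule.torsionBy ℤ ((W.map (Int.castRingHom ℚ)).toAffine⁄Qbar).Point n) :=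
  WeierstrassCurve.Affine.Point.galoisRepModuleEnd (K := Qbar) ℚ (W.map (Int.castRingHom ℚ)) n

/-! ### The three consumer shapes -/

/-- **(I-G)** good reduction (output of EC-G). -/
def GoodHyp (W : WeierstrassCurve ℤ) : Prop :=
  ∀ ℓ : ℕ, ℓ.Prime → ¬ (ℓ : ℤ) ∣ W.Δ → ∀ A : ValuationSubring Qbar, A.LiesOverPrime ℓ →
    (∀ n : ℕ, ¬ ℓ ∣ n → ∀ τ ∈ A.inertiaSubgroupIn ℚ, tors W n τ = 1) ∧
    (∀ p : ℕ, p.Prime → p ≠ 2 → p ≠ ℓ → ∀ (k : ℕ) (σ : Γ), A.IsFrobeniusAt σ ℓ →
      LinearMap.trace (ZMod (p ^ k)) _ (tors W (p ^ k) σ) =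
          ((W.apOfModel ℓ : ℤ) : ZMod (p ^ k)) ∧
        LinearMap.det (tors W (p ^ k) σ) = ((ℓ : ℕ) : ZMod (p ^ k)))

/-- **(I-U)** multiplicative reduction (output of EC-U). -/
def MultHyp (W : WeierstrassCurve ℤ) : Prop :=
  ∀ q : ℕ, q.Prime → (q : ℤ) ∣ W.Δ → ¬ (q : ℤ) ∣ W.c₄ →
    ∀ p : ℕ, p.Prime → p ≠ 2 → p ≠ q →
      ∀ A : ValuationSubring Qbar, A.LiesOverPrime q → ∀ τ ∈ A.inertiaSubgroupIn ℚ, ∀ k : ℕ,
        LinearMap.trace (ZMod (p ^ k)) _ (tors W (p ^ k) τ) = 2 ∧
          LinearMap.det (tors W (p ^ k) τ) = 1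

/-- **(I-F4)** the comparison of a `λ`-adic representation having the Frobenius charpolys of `W`
with the torsion of `W` (output of F4 / F4-W), hom-free trace/det shape. -/
def TorsCompare (W : WeierstrassCurve ℤ) : Prop :=
  ∀ (lam : ℕ) [Fact lam.Prime], lam ≠ 2 →
    ∀ (A : Type) [CommRing A] [IsDomain A] [IsDiscreteValuationRing A]
      [IsAdicComplete (IsLocalRing.maximalIdeal A) A] [Finite (IsLocalRing.ResidueField A)]
      [CharZero A], (lam : A) ∈ IsLocalRing.maximalIdeal A →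
      ∀ (ρ : GaloisRepAdic A) (T : Finset ℕ), FrobMatches W ρ T →
        ∀ (m : ℕ) (σ : Γ), ∃ t d : ℤ,
          LinearMap.trace (ZMod (lam ^ m)) _ (tors W (lam ^ m) σ) = (t : ZMod (lam ^ m)) ∧
          LinearMap.det (tors W (lam ^ m) σ) = (d : ZMod (lam ^ m)) ∧
          LinearMap.trace A ρ.V (ρ.ρ σ) - (t : A) ∈ IsLocalRing.maximalIdeal A ^ m ∧
          LinearMap.det (ρ.ρ σ) - (d : A) ∈ IsLocalRing.maximalIdeal A ^ m

/-! ### Small tools -/

/-- Krull: an element of a Noetherian local domain lying in all powers of the maximal ideal is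
zero. -/
theorem eq_zero_of_forall_mem_pow {A : Type} [CommRing A] [IsDomain A]
    [IsDiscreteValuationRing A] {x : A}
    (h : ∀ m : ℕ, 1 ≤ m → x ∈ IsLocalRing.maximalIdeal A ^ m) : x = 0 := by
  have hbot : (⨅ i : ℕ, IsLocalRing.maximalIdeal A ^ i) = ⊥ :=
    Ideal.iInf_pow_eq_bot_of_isLocalRing _ (IsLocalRing.maximalIdeal.isMaximal A).ne_top
  have hx : x ∈ (⨅ i : ℕ, IsLocalRing.maximalIdeal A ^ i) := by
    rw [Ideal.mem_iInf]
    intro i
    rcases Nat.eq_zero_or_pos i with rfl | hi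
    · rw [pow_zero, Ideal.one_eq_top]; exact Submodule.mem_top
    · exact h i hi
  rw [hbot] at hx
  exact hx

/-- If `(t : ZMod (lam^m)) = (s : ZMod (lam^m))` and `lam ∈ 𝔪`, then `(t : A) - (s : A) ∈ 𝔪^m`. -/
theorem intCast_sub_mem_pow {A : Type} [CommRing A] [IsLocalRing A] {lam : ℕ}
    (hlam : (lam : A) ∈ IsLocalRing.maximalIdeal A) {m : ℕ} {t s : ℤ}
    (h : (t : ZMod (lam ^ m)) = (s : ZMod (lam ^ m))) :
    (t : A) - (s : A) ∈ IsLocalRing.maximalIdeal A ^ m := by
  have hdvd : ((lam ^ m : ℕ) : ℤ) ∣ t - s := by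
    rw [← ZMod.intCast_zmod_eq_zero_iff_dvd]
    push_cast
    rw [h, sub_self]
  obtain ⟨c, hc⟩ := hdvd
  have : (t : A) - (s : A) = ((lam : A)) ^ m * (c : A) := by
    have := congrArg (Int.cast : ℤ → A) hc
    push_cast at this
    exact this
  rw [this]
  exact Ideal.mul_mem_right _ _ (Ideal.pow_mem_pow hlam m)

/-- The characteristic polynomial of an endomorphism of a free module of rank two. -/
theorem charpoly_eq_of_trace_det {R : Type*} [CommRing R] [Nontrivial R] {V : Type*}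
    [AddCommGroup V] [Module R V] [Module.Free R V] [Module.Finite R V]
    (hV : Module.finrank R V = 2) (E : Module.End R V) :
    LinearMap.charpoly E = X ^ 2 - C (LinearMap.trace R V E) * X + C (LinearMap.det E) := by
  classical
  let bs : Module.Basis (Fin 2) R V := Module.finBasisOfFinrankEq R V hV
  rw [← LinearMap.charpoly_toMatrix E bs, Matrix.charpoly_fin_two,
    LinearMap.trace_eq_matrix_trace R bs, LinearMap.det_toMatrix]

/-- Trace and determinant of the identity on `W(ℚ̄)[λ^m]`, `m ≥ 1`, `λ` odd. -/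
theorem trace_det_one (W : WeierstrassCurve ℤ) (hΔ : W.Δ ≠ 0) {lam : ℕ} (hlam : lam.Prime)
    (hlam2 : lam ≠ 2) (m : ℕ) :
    LinearMap.trace (ZMod (lam ^ m)) _ (1 : Module.End (ZMod (lam ^ m))
      (Submodule.torsionBy ℤ ((W.map (Int.castRingHom ℚ)).toAffine⁄Qbar).Point
        ((lam ^ m : ℕ)))) = 2 ∧
    LinearMap.det (1 : Module.End (ZMod (lam ^ m))
      (Submodule.torsionBy ℤ ((W.map (Int.castRingHom ℚ)).toAffine⁄Qbar).Point
        ((lam ^ m : ℕ)))) = 1 := by
  obtain ⟨b⟩ := Fermat.Agent.S58.EC.TorsionBasis.nonempty_basis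
    (W.map (Int.castRingHom ℚ)).toAffine (K := Qbar)
    (Fermat.Agent.S58.EC.Red.IntModel.Δ_rat_baseChange_ne_zero W hΔ) hlam hlam2
    (by exact_mod_cast hlam.ne_zero) m
  refine ⟨?_, map_one _⟩
  rw [LinearMap.trace_eq_matrix_trace _ b, LinearMap.toMatrix_one, Matrix.trace_one,
    Fintype.card_fin]
  norm_num

/-! ### The assembly -/

/-- **[F4-K]** `CompareHyp W` from the comparison (I-F4) and the two local computations
(I-G), (I-U) on the torsion of `W`. -/
theorem compareHyp (W : WeierstrassCurve ℤ) (hΔ : W.Δ ≠ 0) (hss : W.IsSemistableModel)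
    (hF4 : TorsCompare W) (hG : GoodHyp W) (hU : MultHyp W) : CompareHyp W := by
  intro lam _ hlam2 A _ _ _ _ _ _ hlamA ρ T hfm
  have hlam : lam.Prime := Fact.out
  refine ⟨?_, ?_⟩
  · -- unipotent inertia
    intro q hq hqlam P hP τ hτ
    have hkey : ∀ m : ℕ,
        LinearMap.trace (ZMod (lam ^ m)) _ (tors W (lam ^ m) τ) = 2 ∧
          LinearMap.det (tors W (lam ^ m) τ) = 1 := by
      intro m
      by_cases hbad : (q : ℤ) ∣ W.Δ
      · exact hU q hq hbad (hss q hq hbad) lam hlam hlam2 (Ne.symm hqlam) P hP τ hτ m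
      · obtain ⟨h1, -⟩ := hG q hq hbad P hP
        have hqn : ¬ q ∣ lam ^ m := fun h =>
          hqlam ((Nat.prime_dvd_prime_iff_eq hq hlam).1 (hq.dvd_of_dvd_pow h))
        rw [h1 (lam ^ m) hqn τ hτ]
        exact trace_det_one W hΔ hlam hlam2 m
    have htr : LinearMap.trace A ρ.V (ρ.ρ τ) = 2 := by
      rw [← sub_eq_zero]
      refine eq_zero_of_forall_mem_pow fun m _ => ?_
      obtain ⟨t, d, ht, hd, htA, hdA⟩ := hF4 lam hlam2 A hlamA ρ T hfm m τ
      have h2 : (t : ZMod (lam ^ m)) = ((2 : ℤ) : ZMod (lam ^ m)) := by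
        rw [← ht, (hkey m).1]; norm_num
      have := Ideal.add_mem _ htA (intCast_sub_mem_pow hlamA h2)
      have e : LinearMap.trace A ρ.V (ρ.ρ τ) - (t : A) + ((t : A) - ((2 : ℤ) : A)) =
          LinearMap.trace A ρ.V (ρ.ρ τ) - 2 := by push_cast; ring
      rwa [e] at this
    have hdet : LinearMap.det (ρ.ρ τ) = 1 := by
      rw [← sub_eq_zero]
      refine eq_zero_of_forall_mem_pow fun m _ => ?_
      obtain ⟨t, d, ht, hd, htA, hdA⟩ := hF4 lam hlam2 A hlamA ρ T hfm m τ
      have h2 : (d : ZMod (lam ^ m)) = ((1 : ℤ) : ZMod (lam ^ m)) := by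
        rw [← hd, (hkey m).2]; norm_num
      have := Ideal.add_mem _ hdA (intCast_sub_mem_pow hlamA h2)
      have e : LinearMap.det (ρ.ρ τ) - (d : A) + ((d : A) - ((1 : ℤ) : A)) =
          LinearMap.det (ρ.ρ τ) - 1 := by push_cast; ring
      rwa [e] at this
    rw [charpoly_eq_of_trace_det ρ.finrank_eq, htr, hdet]
    simp only [map_ofNat, map_one]
    ring
  · -- traces of good Frobenius elements
    intro ℓ hℓ hℓlam hgood P hP σ hσ
    obtain ⟨-, h2⟩ := hG ℓ hℓ hgood P hP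
    rw [← sub_eq_zero]
    refine eq_zero_of_forall_mem_pow fun m _ => ?_
    obtain ⟨t, d, ht, hd, htA, hdA⟩ := hF4 lam hlam2 A hlamA ρ T hfm m σ
    have h3 : (t : ZMod (lam ^ m)) = ((W.apOfModel ℓ : ℤ) : ZMod (lam ^ m)) := by
      rw [← ht, (h2 lam hlam hlam2 (Ne.symm hℓlam) m σ hσ).1]
    have := Ideal.add_mem _ htA (intCast_sub_mem_pow hlamA h3)
    have e : LinearMap.trace A ρ.V (ρ.ρ σ) - (t : A) + ((t : A) - ((W.apOfModel ℓ : ℤ) : A)) =
        LinearMap.trace A ρ.V (ρ.ρ σ) - ((W.apOfModel ℓ : ℤ) : A) := by ring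
    rwa [e] at this

end Fermat.Agent.S58.Form.CompareAssembly
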