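/-
S58 / block F5 (helper11): the `hres` hypothesis of S36, as a term of EXACTLY the frozen type,
from `hirr` of S58 + the two named inputs (I-F4) [charpoly comparison] and EC-DET(E)
[`det (σ | W[p]) = χ_cyc(σ)`].
-/
import Mathlib
import Fermat.Prelude.Def_CuspForm_HeckeGaloisRepDatum
import Fermat.Prelude.Def_CuspForm_Newforms
import Fermat.Prelude.Def_GaloisRep_LocalConditions
import Fermat.Prelude.Def_GaloisRep_Residual
import Fermat.Agent.S58.Form.Hres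

set_option autoImplicit false
set_option linter.unusedSectionVars false
set_option linter.unusedVariables false
set_option linter.style.haveILetI false

namespace Fermat.Agent.S58.Form.HresS36

open ExtCitation Polynomial Fermat.Agent.S58.Form.Hres

local notation "Qbar" => AlgebraicClosure ℚ
local notation "Γ" => (AlgebraicClosure ℚ ≃ₐ[ℚ] AlgebraicClosure ℚ)

/-- The frozen consumer shape (I-F4) (helper7 #1896), as a proposition about `W` and `lam`. -/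
def IF4 (W : WeierstrassCurve ℤ) (lam : ℕ) : Prop :=
  ∀ (O'' : Type) [CommRing O''] [IsDomain O''] [IsDiscreteValuationRing O''],
    (lam : O'') ∈ IsLocalRing.maximalIdeal O'' → ∀ (ρ : GaloisRepAdic O'') (T : Finset ℕ),
    (∀ ℓ : ℕ, ℓ.Prime → ℓ ∉ T → ∀ A : ValuationSubring Qbar, A.LiesOverPrime ℓ →
      ∀ σ : Γ, A.IsFrobeniusAt σ ℓ →
        LinearMap.charpoly (ρ.ρ σ) =
          X ^ 2 - C (((W.apOfModel ℓ : ℤ)) : O'') * X + C ((ℓ : ℕ) : O'')) →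
    ∀ (m : ℕ) (σ : Γ), ∃ t d : ℤ,
      LinearMap.trace (ZMod (lam ^ m)) _ (WeierstrassCurve.Affine.Point.galoisRepModuleEnd
        (K := Qbar) ℚ (W.map (Int.castRingHom ℚ)) (lam ^ m) σ) = (t : ZMod (lam ^ m)) ∧
      LinearMap.det (WeierstrassCurve.Affine.Point.galoisRepModuleEnd (K := Qbar) ℚ
        (W.map (Int.castRingHom ℚ)) (lam ^ m) σ) = (d : ZMod (lam ^ m)) ∧
      LinearMap.trace O'' ρ.V (ρ.ρ σ) - (t : O'') ∈ IsLocalRing.maximalIdeal O'' ^ m ∧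
      LinearMap.det (ρ.ρ σ) - (d : O'') ∈ IsLocalRing.maximalIdeal O'' ^ m

/-- ★ **The `hres` argument of S36**, verbatim, from `hirr` of S58.  `T0` is any finite set of
primes outside of which `a_ℓ(g) = a_ℓ(W)`. -/
theorem hres_S36 (W : WeierstrassCurve ℤ) (hΔ : W.Δ ≠ 0)
    {M : ℕ} [NeZero M] {g : CuspForm (CongruenceSubgroup.Gamma0 M) 2}
    (lam : ℕ) [Fact lam.Prime] (hlam2 : lam ≠ 2) (hirr : W.ModRepIsIrreducible lam)
    (hdetcyc : ∀ s, LinearMap.det (rW lam W s) = ((cycloChar lam s : (ZMod lam)ˣ) : ZMod lam))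
    (hIF4 : IF4 W lam)
    (S : Finset ℕ)
    (O' : Type) [CommRing O'] [IsDomain O'] [IsDiscreteValuationRing O']
    (hlamO' : (lam : O') ∈ IsLocalRing.maximalIdeal O')
    (chig : CuspForm.heckeAlgebra M 2 (↑S : Set ℕ) →+* ℂ)
    (hchig : ∀ (ℓ : ℕ) (hℓ : ℓ.Prime) (hℓM : ¬ ℓ ∣ M) (hℓS : ℓ ∉ (↑S : Set ℕ)),
      chig (CuspForm.heckeAlgebra.T hℓ hℓM hℓS) = ModularFormClass.qCoeff g ℓ)
    (iota : chig.range →+* O')
    (T0 : Finset ℕ)
    (hgW : ∀ ℓ : ℕ, ℓ.Prime → ℓ ∉ T0 → ModularFormClass.qCoeff g ℓ = ((W.apOfModel ℓ : ℤ) : ℂ)) :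
    ∀ (O'' : Type) [CommRing O''] [IsDomain O''] [IsDiscreteValuationRing O'']
      [IsAdicComplete (IsLocalRing.maximalIdeal O'') O''] [Finite (IsLocalRing.ResidueField O'')]
      [CharZero O''] [Algebra O' O''] [Module.Finite O' O''] [IsLocalHom (algebraMap O' O'')],
      Function.Injective (algebraMap O' O'') → ∀ (ρ : GaloisRepAdic O''),
      (∀ (ℓ : ℕ) (hℓ : ℓ.Prime) (hℓlam : ℓ ≠ lam) (hℓM : ¬ ℓ ∣ M) (hℓS : ℓ ∉ (↑S : Set ℕ)),
        ∀ A : ValuationSubring (AlgebraicClosure ℚ), A.LiesOverPrime ℓ →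
          ∀ σ : AlgebraicClosure ℚ ≃ₐ[ℚ] AlgebraicClosure ℚ, A.IsFrobeniusAt σ ℓ →
            LinearMap.charpoly (ρ.ρ σ) =
              X ^ 2 - C (algebraMap O' O'' ((iota.comp chig.rangeRestrict)
                (CuspForm.heckeAlgebra.T hℓ hℓM hℓS))) * X + C ((ℓ : O'')))
      → ρ.residual.IsAbsolutelyIrreducible ∧ ρ.residual.IsOdd := by
  intro O'' _ _ _ _ _ _ _ _ _ hinj ρ hfrob
  have hlamO'' : (lam : O'') ∈ IsLocalRing.maximalIdeal O'' := by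
    have h := map_nonunit (algebraMap O' O'') (lam : O') hlamO'
    rwa [map_natCast] at h
  refine hres_of_IF4 lam W hlam2 hΔ hirr hdetcyc hlamO'' ρ fun σ => ?_
  refine hIF4 O'' hlamO'' ρ (T0 ∪ S ∪ {lam} ∪ M.primeFactors) ?_ 1 σ
  intro ℓ hℓ hℓT A hA τ hτ
  simp only [Finset.mem_union, Finset.mem_singleton, not_or] at hℓT
  obtain ⟨⟨⟨hℓT0, hℓS⟩, hℓlam⟩, hℓMf⟩ := hℓT
  have hℓM : ¬ ℓ ∣ M := fun h =>
    hℓMf (Nat.mem_primeFactors.mpr ⟨hℓ, h, NeZero.ne M⟩)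
  have hℓS' : ℓ ∉ (↑S : Set ℕ) := by simpa using hℓS
  rw [hfrob ℓ hℓ hℓlam hℓM hℓS' A hA τ hτ]
  have h1 : chig.rangeRestrict (CuspForm.heckeAlgebra.T hℓ hℓM hℓS') =
      ((W.apOfModel ℓ : ℤ) : chig.range) := by
    apply Subtype.ext
    rw [RingHom.coe_rangeRestrict, hchig ℓ hℓ hℓM hℓS', hgW ℓ hℓ hℓT0]
    simp
  rw [RingHom.comp_apply, h1, map_intCast, map_intCast]

end Fermat.Agent.S58.Form.HresS36
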