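import Mathlib
import Fermat.Agent.S58.Form.Compare
import Fermat.Agent.S58.Form.CompareHypOfEC
import Fermat.Agent.S58.Form.HresS36
import Fermat.Agent.S58.EC.DetCyclo
import Fermat.Agent.S58.EC.TorsionBasis

/-!
# S58, block [F4-W]: the comparison (*) of a `λ`-adic representation with the torsion of `W`

`W : WeierstrassCurve ℤ`, `Δ ≠ 0`.  Input: (I-G)(G2) = `CompareHypOfEC.GoodFrobHyp W` (trace and
determinant of the Frobenius elements at the good primes on `W(ℚ̄)[p^k]`).  Output (I-F4):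

* `adic_compare` : for a local ring `A` with `λ ∈ 𝔪`, `ρ : GaloisRepAdic A` whose Frobenius
  characteristic polynomials outside a finite set `T` are `X² - a_ℓ(W) X + ℓ`, every `m` and every
  `σ ∈ Gal(ℚ̄/ℚ)`: there are integers `t, d` with `tr (σ | W[λ^m]) = t`, `det (σ | W[λ^m]) = d`
  in `ℤ/λ^m` and `tr ρ(σ) ≡ t`, `det ρ(σ) ≡ d` modulo `𝔪^m`;
* `adicCompareHyp_of_goodFrob : GoodFrobHyp W → AdicCompareHyp W` (consumer shape of
  `Form/CompareHypOfEC`, `Form/LevelMatchTop`) and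
  `iF4_of_goodFrob : GoodFrobHyp W → HresS36.IF4 W lam` (consumer shape of `Form/HresS36`,
  `Form/HresK`).

Proof: the instance `T = W(ℚ̄)[λ^m]`, `n = λ^m`, `S₀ = T ∪ {λ} ∪ primes(Δ)`, `a = a_ℓ(W)` of the
hom-free core `Compare.exists_int_trace_det_of_charpoly`; the torsion has a basis of two elements
(`EC/TorsionBasis`) and its Galois action factors through a finite level (`EC/DetCyclo`).
-/

set_option autoImplicit false
set_option linter.unusedSectionVars false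
set_option linter.unusedVariables false
set_option linter.style.haveILetI false

open Polynomial WeierstrassCurve
open scoped WeierstrassCurve.Affine

noncomputable section

namespace Fermat.Agent.S58.Form.CompareW

open Fermat.Agent.S58.Form.CompareHypOfEC

local notation "Qbar" => AlgebraicClosure ℚ
local notation "Γ" => (AlgebraicClosure ℚ ≃ₐ[ℚ] AlgebraicClosure ℚ)

variable (W : WeierstrassCurve ℤ)

/-- `λ^m ∈ 𝔪^m` for `λ ∈ 𝔪`. -/
theorem natCast_pow_mem {A : Type*} [CommRing A] [IsLocalRing A] {lam : ℕ}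
    (hlam : (lam : A) ∈ IsLocalRing.maximalIdeal A) (m : ℕ) :
    ((lam ^ m : ℕ) : A) ∈ IsLocalRing.maximalIdeal A ^ m := by
  rw [Nat.cast_pow]
  exact Ideal.pow_mem_pow hlam m

/-- ★ **(I-F4): the comparison (*) modulo `𝔪^m`**, for any local ring `A`. -/
theorem adic_compare (hΔ : W.Δ ≠ 0) (hG : GoodFrobHyp W)
    {lam : ℕ} [hlamp : Fact lam.Prime] (hlam2 : lam ≠ 2)
    {A : Type} [CommRing A] [IsLocalRing A]
    (hlam : (lam : A) ∈ IsLocalRing.maximalIdeal A)
    (ρ : GaloisRepAdic A) (T : Finset ℕ)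
    (hfrob : ∀ ℓ : ℕ, ℓ.Prime → ℓ ∉ T → ∀ P : ValuationSubring Qbar, P.LiesOverPrime ℓ →
      ∀ σ : Γ, P.IsFrobeniusAt σ ℓ →
        LinearMap.charpoly (ρ.ρ σ) = X ^ 2 - C ((W.apOfModel ℓ : ℤ) : A) * X + C ((ℓ : ℕ) : A))
    (m : ℕ) (σ : Γ) :
    ∃ t d : ℤ,
      LinearMap.trace (ZMod (lam ^ m)) _ (torsRep W (lam ^ m) σ) = (t : ZMod (lam ^ m)) ∧
      LinearMap.det (torsRep W (lam ^ m) σ) = (d : ZMod (lam ^ m)) ∧
      LinearMap.trace A ρ.V (ρ.ρ σ) - (t : A) ∈ IsLocalRing.maximalIdeal A ^ m ∧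
      LinearMap.det (ρ.ρ σ) - (d : A) ∈ IsLocalRing.maximalIdeal A ^ m := by
  classical
  have hlamP : lam.Prime := hlamp.out
  obtain ⟨b⟩ := Fermat.Agent.S58.EC.TorsionBasis.nonempty_basis
    (K := Qbar) (W.map (Int.castRingHom ℚ) : Affine ℚ) (Δ_baseChange_ne_zero W hΔ) hlamP hlam2
    (Nat.cast_ne_zero.mpr hlamP.ne_zero) m
  haveI : Finite (Submodule.torsionBy ℤ (((W.map (Int.castRingHom ℚ) : Affine ℚ))⁄Qbar).Point
      ((lam ^ m : ℕ) : ℤ)) :=
    Fermat.Agent.S58.EC.TorsionBasis.finite_torsionBy_prime_pow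
      (K := Qbar) (W.map (Int.castRingHom ℚ) : Affine ℚ) (Δ_baseChange_ne_zero W hΔ) hlamP hlam2
      (Nat.cast_ne_zero.mpr hlamP.ne_zero) m
  have hr : GaloisFactorsThroughFiniteLevel (torsRep W (lam ^ m)) :=
    Fermat.Agent.S58.EC.DetCyclo.galoisRepModuleEnd_factors (W.map (Int.castRingHom ℚ)) (lam ^ m)
  refine Fermat.Agent.S58.Form.Compare.exists_int_trace_det_of_charpoly ρ m
    (natCast_pow_mem hlam m) b (torsRep W (lam ^ m)) hr
    (T ∪ {lam} ∪ (W.Δ.natAbs).primeFactors) (fun l => W.apOfModel l) ?_ ?_ σ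
  · intro l hl hlS P hP φ hφ
    exact hfrob l hl (fun h => hlS (Finset.mem_union_left _ (Finset.mem_union_left _ h))) P hP φ hφ
  · intro l hl hlS P hP φ hφ
    have hllam : l ≠ lam := fun h =>
      hlS (Finset.mem_union_left _ (Finset.mem_union_right _ (Finset.mem_singleton.2 h)))
    have hlΔ : ¬ (l : ℤ) ∣ W.Δ := by
      intro hdvd
      apply hlS
      refine Finset.mem_union_right _ (Nat.mem_primeFactors.2 ⟨hl, ?_, ?_⟩)
      · exact Int.natCast_dvd.1 hdvd
      · exact Int.natAbs_ne_zero.2 hΔ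
    exact hG l hl hlΔ P hP lam hlamP hlam2 hllam.symm m φ hφ

/-- **(I-F4) in the consumer shape of `Form/CompareHypOfEC` / `Form/LevelMatchTop`.** -/
theorem adicCompareHyp_of_goodFrob (hΔ : W.Δ ≠ 0) (hG : GoodFrobHyp W) : AdicCompareHyp W := by
  intro lam hlamp hlam2 A _ _ _ hlam ρ T hfrob m σ
  exact adic_compare W hΔ hG hlam2 hlam ρ T hfrob m σ

/-- **(I-F4) in the consumer shape of `Form/HresS36` / `Form/HresK`.** -/
theorem iF4_of_goodFrob (hΔ : W.Δ ≠ 0) (hG : GoodFrobHyp W) (lam : ℕ) [Fact lam.Prime]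
    (hlam2 : lam ≠ 2) : Fermat.Agent.S58.Form.HresS36.IF4 W lam := by
  intro O'' _ _ _ hlam ρ T hfrob m σ
  exact adic_compare W hΔ hG hlam2 hlam ρ T hfrob m σ

end Fermat.Agent.S58.Form.CompareW
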