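/-
S58 / block F5-K (helper11): `LevelMatch.ResidualHyp W p` — the provider consumed by
`LevelMatch.level_dvd_conductorLevel` / `qCoeff_eq_apOfModel` — from `hirr` of S58 and the two
named inputs: the charpoly comparison (I-F4) (or its residual form (I-F4res)) and the determinant
at the good Frobenius elements (EC-G (G2), through `DetCyclo`).
-/
import Mathlib
import Fermat.Agent.S58.Form.LevelMatch
import Fermat.Agent.S58.Form.HresS36
import Fermat.Agent.S58.EC.DetCyclo

set_option autoImplicit false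
set_option linter.unusedSectionVars false
set_option linter.unusedVariables false
set_option linter.style.haveILetI false

namespace Fermat.Agent.S58.Form.HresK

open ExtCitation Polynomial Fermat.Agent.S58.Form.Hres Fermat.Agent.S58.Form.HresS36
open Fermat.Agent.S58.Form.LevelMatch Fermat.Agent.S58.EC.DetCyclo

local notation "Qbar" => AlgebraicClosure ℚ
local notation "Γ" => (AlgebraicClosure ℚ ≃ₐ[ℚ] AlgebraicClosure ℚ)

variable (W : WeierstrassCurve ℤ) (p : ℕ) [hp : Fact p.Prime]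

/-- The residual form (I-F4res) of the comparison: level `p` (not `p ^ 1`), modulo `𝔪`. -/
def IF4res : Prop :=
  ∀ (O'' : Type) [CommRing O''] [IsDomain O''] [IsDiscreteValuationRing O''],
    (p : O'') ∈ IsLocalRing.maximalIdeal O'' → ∀ (ρ : GaloisRepAdic O'') (T : Finset ℕ),
    (∀ ℓ : ℕ, ℓ.Prime → ℓ ∉ T → ∀ A : ValuationSubring Qbar, A.LiesOverPrime ℓ →
      ∀ σ : Γ, A.IsFrobeniusAt σ ℓ →
        LinearMap.charpoly (ρ.ρ σ) =
          X ^ 2 - C (((W.apOfModel ℓ : ℤ)) : O'') * X + C ((ℓ : ℕ) : O'')) →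
    ∀ σ : Γ, ∃ t d : ℤ,
      LinearMap.trace (ZMod p) _ (WeierstrassCurve.Affine.Point.galoisRepModuleEnd
        (K := Qbar) ℚ (W.map (Int.castRingHom ℚ)) p σ) = (t : ZMod p) ∧
      LinearMap.det (WeierstrassCurve.Affine.Point.galoisRepModuleEnd (K := Qbar) ℚ
        (W.map (Int.castRingHom ℚ)) p σ) = (d : ZMod p) ∧
      LinearMap.trace O'' ρ.V (ρ.ρ σ) - (t : O'') ∈ IsLocalRing.maximalIdeal O'' ∧
      LinearMap.det (ρ.ρ σ) - (d : O'') ∈ IsLocalRing.maximalIdeal O''

/-- (I-F4res) for `ρ : GaloisRepAdic A` gives the comparison for `ρ.residual`. -/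
theorem traceDetCompare_residual_of_res {A : Type} [CommRing A] [IsLocalRing A]
    (ρ : GaloisRepAdic A)
    (hF4 : ∀ σ : Γ, ∃ t d : ℤ,
      LinearMap.trace (ZMod p) _ (WeierstrassCurve.Affine.Point.galoisRepModuleEnd
        (K := Qbar) ℚ (W.map (Int.castRingHom ℚ)) p σ) = (t : ZMod p) ∧
      LinearMap.det (WeierstrassCurve.Affine.Point.galoisRepModuleEnd (K := Qbar) ℚ
        (W.map (Int.castRingHom ℚ)) p σ) = (d : ZMod p) ∧
      LinearMap.trace A ρ.V (ρ.ρ σ) - (t : A) ∈ IsLocalRing.maximalIdeal A ∧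
      LinearMap.det (ρ.ρ σ) - (d : A) ∈ IsLocalRing.maximalIdeal A) :
    TraceDetCompare W p ρ.residual := by
  intro σ
  obtain ⟨t, d, h1, h2, h3, h4⟩ := hF4 σ
  refine ⟨t, d, h1, h2, ?_, ?_⟩
  · have h5 : ρ.residual.ρ σ = (ρ.ρ σ).baseChange (IsLocalRing.ResidueField A) := rfl
    rw [h5]
    erw [LinearMap.trace_baseChange]
    have h6 := (IsLocalRing.residue_eq_zero_iff _).mpr h3
    rw [map_sub, sub_eq_zero, map_intCast] at h6
    exact h6
  · have h5 : ρ.residual.ρ σ = (ρ.ρ σ).baseChange (IsLocalRing.ResidueField A) := rfl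
    rw [h5]
    erw [LinearMap.det_baseChange]
    have h6 := (IsLocalRing.residue_eq_zero_iff _).mpr h4
    rw [map_sub, sub_eq_zero, map_intCast] at h6
    exact h6

/-- ★ **[F5-K] `ResidualHyp W p` from (I-F4)** (the frozen shape, used at `m = 1`) and
`det (σ | W[p]) = χ_cyc(σ)`. -/
theorem residualHyp (hΔ : W.Δ ≠ 0) (hp2 : p ≠ 2) (hirr : W.ModRepIsIrreducible p)
    (hdetcyc : ∀ s, LinearMap.det (rW p W s) = ((cycloChar p s : (ZMod p)ˣ) : ZMod p))
    (hIF4 : IF4 W p) : ResidualHyp W p := by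
  intro A _ _ _ _ _ _ hpA ρ T hfm
  exact hres_of_IF4 p W hp2 hΔ hirr hdetcyc hpA ρ fun σ => hIF4 A hpA ρ T hfm 1 σ

/-- ★ The same from the residual form (I-F4res). -/
theorem residualHyp_of_res (hΔ : W.Δ ≠ 0) (hp2 : p ≠ 2) (hirr : W.ModRepIsIrreducible p)
    (hdetcyc : ∀ s, LinearMap.det (rW p W s) = ((cycloChar p s : (ZMod p)ˣ) : ZMod p))
    (hIF4 : IF4res W p) : ResidualHyp W p := by
  intro A _ _ _ _ _ _ hpA ρ T hfm
  haveI := charP_residueField p hpA
  exact hres_of_traceDetCompare p W hp2 hΔ hirr hdetcyc ρ.residual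
    (traceDetCompare_residual_of_res W p ρ (hIF4 A hpA ρ T hfm))

/-- ★ With the determinant input in the EC-G shape (`DetCyclo.DetFrobHyp W p p`: the determinant
of the good Frobenius elements `l ≠ p` on `W[p]` is `l`). -/
theorem residualHyp_of_detFrobHyp (hΔ : W.Δ ≠ 0) (hp2 : p ≠ 2)
    (hirr : W.ModRepIsIrreducible p) (hG : DetFrobHyp W p p) (hIF4 : IF4 W p) :
    ResidualHyp W p :=
  residualHyp W p hΔ hp2 hirr (fun s => det_eq_cycloChar_of_model W p hΔ hp2 hG s) hIF4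

/-- ★ The same with both inputs at the level `p ^ 1` / in the frozen shapes (I-G)(G2), (I-F4). -/
theorem residualHyp_of_detFrobHyp' (hΔ : W.Δ ≠ 0) (hp2 : p ≠ 2)
    (hirr : W.ModRepIsIrreducible p) (hG : DetFrobHyp W p (p ^ 1)) (hIF4 : IF4 W p) :
    ResidualHyp W p :=
  residualHyp W p hΔ hp2 hirr (fun s => det_eq_cycloChar_of_model' W p hΔ hp2 hG s) hIF4

theorem residualHyp_of_res_of_detFrobHyp (hΔ : W.Δ ≠ 0) (hp2 : p ≠ 2)
    (hirr : W.ModRepIsIrreducible p) (hG : DetFrobHyp W p p) (hIF4 : IF4res W p) :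
    ResidualHyp W p :=
  residualHyp_of_res W p hΔ hp2 hirr (fun s => det_eq_cycloChar_of_model W p hΔ hp2 hG s) hIF4

end Fermat.Agent.S58.Form.HresK
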